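/-
GATE-B / B7 leaf (D-U2) (helper83), file 1: **the `q`-degeneracy systems at level `Γ_H`**.

`q ∤ N` prime, `θ' : (ZMod N)ˣ →* Δ` a quotient of level `N` and `thQ θ' q = θ' ∘ (mod N)` the
induced quotient of level `N q` (unramified at `q`).  The coset systems of GM/B/Degeneracy
(`resSys`, `coresSys`, `coresDSys`) between `Γ₀(N)` and `Γ₀(N q)` and the Atkin–Lehner system
`wSys` of GM/B5/UqSquare are compatible with the characters `χ_{θ'}`, `χ_θ` (helper97's `Compat₂`,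
helper2's `Compat`), hence restrict to systems between `Γ_H(θ')` and `Γ_H(θ)`:

* `unitsMap_dUnits_of_entry`, `chi_thQ_of_entry` : `χ_θ` only depends on `d mod N`;
* `compat_resSys`, `compat_coresSys`, `compat_coresDSys`, `compat_wSys`, `compat_wDSys`;
* `resHSys`, `coresHSys`, `coresDHSys`, `wHSys`, `wDHSys` : the restricted systems
  (`wDSys` is the Atkin–Lehner system with the Diamond–Shurman representative
  `γ'_∞ δ = (d₀ q, b₀; N q, q) ≡ (1, *; 0, q) mod N`);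
* `resq`, `coresq`, `coresDq`, `wq`, `wDq` : the operators (for the Bézout pair `bez hqN`).
-/
import Mathlib
import Fermat.Agent.GB.B3.GammaH
import Fermat.Agent.GB.B4.Twist.KerSys2

set_option autoImplicit false
set_option linter.unusedSectionVars false

open scoped MatrixGroups
open CongruenceSubgroup Matrix Matrix.SpecialLinearGroup
open P2MW.S_ModularForm_heckeT_slash_eq_self_of_mem_Gamma0.ModularForm.HeckeSlashInvariance
open P2MW.S_ModularForm_heckeT_slash_eq_self_of_mem_Gamma0.ModularForm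
open Fermat.Agent.S16_helper49 Fermat.Agent.GM.B Fermat.Agent.GM.B5 Fermat.Agent.GM.EisClass
open Fermat.Agent.GM.Amalgam
open Fermat.Agent.GB.B3 Fermat.Agent.GB.B3.EisGamma0 Fermat.Agent.GB.B3.GamH
open Fermat.Agent.GB.B4.Twist.KerSys2
open scoped OnePoint

namespace Fermat.Agent.GB.B7.UqSq

variable {N q : ℕ}

/-! ### `χ_θ` only depends on `d mod N` -/

/-- the quotient `θ' ∘ (mod N)` of `(ZMod (N q))ˣ` (definitionally helper97's `RPsi.liftθ`) -/
noncomputable abbrev thQ {Δ : Type} [CommGroup Δ] (θ' : (ZMod N)ˣ →* Δ) (q : ℕ) :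
    (ZMod (N * q))ˣ →* Δ :=
  θ'.comp (ZMod.unitsMap (Nat.dvd_mul_right N q))

theorem unitsMap_dUnits_of_entry (k : Gamma0 (N * q)) (m : Gamma0 N)
    (h : (m : SL(2, ℤ)) 1 1 = (k : SL(2, ℤ)) 1 1) :
    ZMod.unitsMap (Nat.dvd_mul_right N q) (dUnits (N * q) k) = dUnits N m := by
  apply Units.ext
  rw [ZMod.unitsMap_def, Units.coe_map, coe_dUnits, coe_dUnits]
  unfold dN
  rw [MonoidHom.coe_coe, map_intCast, h]

theorem chi_thQ_of_entry {Δ : Type} [CommGroup Δ] (θ' : (ZMod N)ˣ →* Δ) (k : Gamma0 (N * q))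
    (m : Gamma0 N) (h : (m : SL(2, ℤ)) 1 1 = (k : SL(2, ℤ)) 1 1) :
    chi (thQ θ' q) k = chi θ' m := by
  rw [chi_apply, chi_apply, MonoidHom.comp_apply, unitsMap_dUnits_of_entry k m h]

theorem chi_thQ_of_coe {Δ : Type} [CommGroup Δ] (θ' : (ZMod N)ˣ →* Δ) (k : Gamma0 (N * q))
    (m : Gamma0 N) (h : (m : SL(2, ℤ)) = (k : SL(2, ℤ))) :
    chi (thQ θ' q) k = chi θ' m :=
  chi_thQ_of_entry θ' k m (by rw [h])

/-- `χ_θ` of an element of `Γ₀(N q)` whose `d`-entry is `≡ u mod N` -/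
theorem chi_thQ_eq {Δ : Type} [CommGroup Δ] (θ' : (ZMod N)ˣ →* Δ) (k : Gamma0 (N * q))
    (u : (ZMod N)ˣ) (h : ((((k : SL(2, ℤ)) 1 1 : ℤ)) : ZMod N) = (u : ZMod N)) :
    chi (thQ θ' q) k = θ' u := by
  rw [chi_apply, MonoidHom.comp_apply]
  congr 1
  apply Units.ext
  rw [ZMod.unitsMap_def, Units.coe_map, coe_dUnits]
  unfold dN
  rw [MonoidHom.coe_coe, map_intCast, h]

variable [Fact q.Prime]

/-! ### the `d`-entries of the representatives -/

section Entries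

variable (b₀ d₀ : ℤ) (hbd : (q : ℤ) * d₀ - N * b₀ = 1)

include hbd in
theorem cast_q_mul_d₀ : ((q : ℤ) : ZMod N) * ((d₀ : ℤ) : ZMod N) = 1 := by
  have h := congrArg (Int.cast : ℤ → ZMod N) hbd
  push_cast at h
  rw [ZMod.natCast_self, zero_mul, sub_zero] at h
  rw [Int.cast_natCast]
  exact h

/-- `d(r_x) ≡ 1 mod N` -/
theorem dN_rC (x : OnePoint (ZMod q)) : dN (rC N q b₀ d₀ hbd x) = 1 := by
  induction x using OnePoint.rec with
  | infty => exact dN_one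
  | coe j =>
    show ((((repC N q b₀ d₀ hbd j.val) 1 1 : ℤ)) : ZMod N) = 1
    unfold repC
    rw [mkZ_11]
    have h := cast_q_mul_d₀ b₀ d₀ hbd
    push_cast
    rw [ZMod.natCast_self, zero_mul, zero_add, mul_comm]
    rw [Int.cast_natCast] at h
    exact h

theorem dUnits_rC (x : OnePoint (ZMod q)) : dUnits N (rC N q b₀ d₀ hbd x) = 1 := by
  apply Units.ext
  rw [coe_dUnits, Units.val_one]
  exact dN_rC b₀ d₀ hbd x

/-- `d(γ'_y) · d(α_y) ≡ q mod N` -/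
theorem dUnits_gD_mul_deltaU (hqN : ¬ q ∣ N) (y : OnePoint (ZMod q)) :
    dUnits N (gD N q b₀ d₀ hbd y) * deltaU hqN y = unitL hqN := by
  apply Units.ext
  rw [Units.val_mul, coe_dUnits, coe_deltaU]
  unfold unitL
  rw [coe_deltaU]
  induction y using OnePoint.rec with
  | infty =>
    show ((((gamD N q b₀ d₀ hbd) 1 1 : ℤ)) : ZMod N) * (((1 : ℤ) : ℤ) : ZMod N)
      = (((q : ℤ) : ℤ) : ZMod N)
    unfold gamD
    rw [mkZ_11, Int.cast_one, mul_one]
  | coe j =>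
    show dN (1 : Gamma0 N) * (((q : ℤ) : ℤ) : ZMod N) = (((q : ℤ) : ℤ) : ZMod N)
    rw [dN_one, one_mul]

theorem coe_unitL (hqN : ¬ q ∣ N) : ((unitL hqN : (ZMod N)ˣ) : ZMod N) = (q : ZMod N) := by
  unfold unitL
  rw [coe_deltaU]
  show (((q : ℤ) : ℤ) : ZMod N) = (q : ZMod N)
  rw [Int.cast_natCast]

end Entries

/-! ### compatibility of the degeneracy systems -/

section Compat

variable {Δ : Type} [CommGroup Δ] (θ' : (ZMod N)ˣ →* Δ)

theorem compat_resSys : Compat₂ (resSys N q) (chi θ') (chi (thQ θ' q)) := by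
  intro g u
  show chi θ' (degenOne N q g) = chi (thQ θ' q) g
  exact (chi_thQ_of_coe θ' g (degenOne N q g) (degenOne_coe g)).symm

variable (hqN : ¬ q ∣ N) (b₀ d₀ : ℤ) (hbd : (q : ℤ) * d₀ - N * b₀ = 1)

theorem chi_rC (x : OnePoint (ZMod q)) : chi θ' (rC N q b₀ d₀ hbd x) = 1 := by
  rw [chi_apply, dUnits_rC, map_one]

theorem compat_coresSys :
    Compat₂ (coresSys hqN b₀ d₀ hbd) (chi (thQ θ' q)) (chi θ') := by
  intro g (x : OnePoint (ZMod q))
  have h1 := chi_rC θ' b₀ d₀ hbd x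
  have h2 := chi_rC θ' b₀ d₀ hbd ((heckeSys hqN).σ g x)
  show chi (thQ θ' q) (coresC hqN b₀ d₀ hbd g x) = chi θ' g
  rw [chi_thQ_of_coe θ' (coresC hqN b₀ d₀ hbd g x)
    (rC N q b₀ d₀ hbd x * g * (rC N q b₀ d₀ hbd ((heckeSys hqN).σ g x))⁻¹) rfl]
  rw [map_mul, map_mul, map_inv, h1, h2, one_mul, inv_one, mul_one]

theorem compat_coresDSys :
    Compat₂ (coresDSys hqN b₀ d₀ hbd) (chi (thQ θ' q)) (chi θ') := by
  intro g (y : OnePoint (ZMod q))
  show chi (thQ θ' q) (coresDC hqN b₀ d₀ hbd g y) = chi θ' g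
  rw [chi_thQ_of_coe θ' (coresDC hqN b₀ d₀ hbd g y)
    (gD N q b₀ d₀ hbd y * (heckeSys hqN).c g y * (gD N q b₀ d₀ hbd ((heckeSys hqN).σ g y))⁻¹) rfl]
  rw [chi_apply, chi_apply]
  congr 1
  rw [map_mul, map_mul, map_inv]
  have h1 := dUnits_relation hqN g y
  have h2 := dUnits_gD_mul_deltaU b₀ d₀ hbd hqN y
  have h3 := dUnits_gD_mul_deltaU b₀ d₀ hbd hqN ((heckeSys hqN).σ g y)
  apply mul_right_cancel (b := unitL hqN)
  calc dUnits N (gD N q b₀ d₀ hbd y) * dUnits N ((heckeSys hqN).c g y)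
          * (dUnits N (gD N q b₀ d₀ hbd ((heckeSys hqN).σ g y)))⁻¹ * unitL hqN
      = dUnits N (gD N q b₀ d₀ hbd y) * dUnits N ((heckeSys hqN).c g y)
          * (dUnits N (gD N q b₀ d₀ hbd ((heckeSys hqN).σ g y)))⁻¹
          * (dUnits N (gD N q b₀ d₀ hbd ((heckeSys hqN).σ g y))
              * deltaU hqN ((heckeSys hqN).σ g y)) := by rw [h3]
    _ = dUnits N (gD N q b₀ d₀ hbd y)
          * (dUnits N ((heckeSys hqN).c g y) * deltaU hqN ((heckeSys hqN).σ g y)) := by group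
    _ = dUnits N g * (dUnits N (gD N q b₀ d₀ hbd y) * deltaU hqN y) := by
        rw [h1, mul_left_comm]
    _ = dUnits N g * unitL hqN := by rw [h2]

/-- conjugation by the Atkin–Lehner matrix preserves `d mod N` -/
theorem chi_cW (g : Gamma0 (N * q)) :
    chi (thQ θ' q) (cW N q b₀ d₀ hbd g) = chi (thQ θ' q) g := by
  rw [chi_thQ_of_coe θ' (cW N q b₀ d₀ hbd g) (cWval N q b₀ d₀ hbd g) rfl]
  unfold cWval
  rw [map_mul, map_mul, map_inv, mul_comm, inv_mul_cancel_left]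
  exact (chi_thQ_of_entry θ' g (degenDelta N q g) (degenDelta_entries g).2.2.2).symm

theorem compat_wSys : Compat (wSys N q b₀ d₀ hbd) (chi (thQ θ' q)) := by
  intro g u
  exact chi_cW θ' b₀ d₀ hbd g

end Compat

/-! ### the Atkin–Lehner system with the Diamond–Shurman representative -/

section WD

variable (N q) (b₀ d₀ : ℤ) (hbd : (q : ℤ) * d₀ - N * b₀ = 1)

/-- `γ'' ∈ Γ₀(N q)`, `d(γ'') = q - N b₀ ≡ q mod N` -/
def gAL : Gamma0 (N * q) := ⟨gamAL N q b₀ d₀ hbd, gamAL_mem b₀ d₀ hbd⟩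

/-- the cocycle `g ↦ γ'' (W g W⁻¹) γ''⁻¹` -/
noncomputable def cWD (g : Gamma0 (N * q)) : Gamma0 (N * q) :=
  gAL N q b₀ d₀ hbd * cW N q b₀ d₀ hbd g * (gAL N q b₀ d₀ hbd)⁻¹

/-- the representative `γ'' W = γ'_∞ δ` -/
noncomputable def wDMat : GL (Fin 2) ℝ :=
  embR (gamAL N q b₀ d₀ hbd) * wMat N q b₀ d₀ hbd

theorem wDMat_eq : wDMat N q b₀ d₀ hbd = embR (gamD N q b₀ d₀ hbd) * dlt q := by
  unfold wDMat wMat
  rw [← mul_assoc, ← map_mul, gamAL_mul_gamW]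

theorem wDMat_rel (g : Gamma0 (N * q)) :
    wDMat N q b₀ d₀ hbd * embR (g : SL(2, ℤ))
      = embR ((cWD N q b₀ d₀ hbd g : Gamma0 (N * q)) : SL(2, ℤ)) * wDMat N q b₀ d₀ hbd := by
  unfold wDMat cWD
  rw [mul_assoc, wMat_rel]
  show _ = embR ((gamAL N q b₀ d₀ hbd) * ((cW N q b₀ d₀ hbd g : Gamma0 (N * q)) : SL(2, ℤ))
    * (gamAL N q b₀ d₀ hbd)⁻¹) * _
  rw [map_mul, map_mul, map_inv]
  group

/-- **the Atkin–Lehner system with representative `γ'_∞ δ ≡ (1, *; 0, q) mod N`** -/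
noncomputable def wDSys : CosetSys embR (Gamma0 (N * q)) (Gamma0 (N * q)) :=
  ofRel embR_injective (wDMat N q b₀ d₀ hbd) (cWD N q b₀ d₀ hbd) (wDMat_rel N q b₀ d₀ hbd)

variable {N q}

theorem compat_wDSys {Δ : Type} [CommGroup Δ] (θ' : (ZMod N)ˣ →* Δ) :
    Compat (wDSys N q b₀ d₀ hbd) (chi (thQ θ' q)) := by
  intro g u
  show chi (thQ θ' q) (cWD N q b₀ d₀ hbd g) = chi (thQ θ' q) g
  unfold cWD
  rw [map_mul, map_mul, map_inv, mul_comm, inv_mul_cancel_left]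
  exact chi_cW θ' b₀ d₀ hbd g

/-- `χ_θ(γ'') = θ'(q)` -/
theorem chi_gAL {Δ : Type} [CommGroup Δ] (θ' : (ZMod N)ˣ →* Δ) (hqN : ¬ q ∣ N) :
    chi (thQ θ' q) (gAL N q b₀ d₀ hbd) = θ' (unitL hqN) := by
  refine chi_thQ_eq θ' _ _ ?_
  rw [coe_unitL]
  show ((((gamAL N q b₀ d₀ hbd) 1 1 : ℤ)) : ZMod N) = (q : ZMod N)
  unfold gamAL
  rw [mkZ_11]
  push_cast
  rw [ZMod.natCast_self, zero_mul, sub_zero]

end WD

/-! ### the restricted systems and their operators -/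

section Systems

variable {Δ : Type} [CommGroup Δ] (θ' : (ZMod N)ˣ →* Δ)

/-- restriction `Hom(Γ_H(θ'), A) → Hom(Γ_H(θ), A)`, as a system -/
noncomputable def resHSys : CosetSys embR (GammaH θ') (GammaH (thQ θ' q)) :=
  kerSys₂ (resSys N q) (chi θ') (chi (thQ θ' q)) (compat_resSys θ')

variable (hqN : ¬ q ∣ N) (b₀ d₀ : ℤ) (hbd : (q : ℤ) * d₀ - N * b₀ = 1)

/-- the transfer `Hom(Γ_H(θ), A) → Hom(Γ_H(θ'), A)`, as a system -/
noncomputable def coresHSys : CosetSys embR (GammaH (thQ θ' q)) (GammaH θ') :=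
  kerSys₂ (coresSys hqN b₀ d₀ hbd) (chi (thQ θ' q)) (chi θ') (compat_coresSys θ' hqN b₀ d₀ hbd)

/-- the `δ`-twisted transfer `Hom(Γ_H(θ), A) → Hom(Γ_H(θ'), A)`, as a system -/
noncomputable def coresDHSys : CosetSys embR (GammaH (thQ θ' q)) (GammaH θ') :=
  kerSys₂ (coresDSys hqN b₀ d₀ hbd) (chi (thQ θ' q)) (chi θ') (compat_coresDSys θ' hqN b₀ d₀ hbd)

/-- the Atkin–Lehner system on `Γ_H(θ)` (representative `W = γ₁ δ`) -/
noncomputable def wHSys : CosetSys embR (GammaH (thQ θ' q)) (GammaH (thQ θ' q)) :=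
  kerSys (wSys N q b₀ d₀ hbd) (chi (thQ θ' q)) (compat_wSys θ' b₀ d₀ hbd)

/-- the Atkin–Lehner system on `Γ_H(θ)` (representative `γ'_∞ δ`) -/
noncomputable def wDHSys : CosetSys embR (GammaH (thQ θ' q)) (GammaH (thQ θ' q)) :=
  kerSys (wDSys N q b₀ d₀ hbd) (chi (thQ θ' q)) (compat_wDSys b₀ d₀ hbd θ')

variable (A : Type*) [AddCommGroup A]

/-- **restriction** `Hom(Γ_H(θ'), A) → Hom(Γ_H(θ), A)` -/
noncomputable def resq :
    (Additive (GammaH θ') →+ A) →+ (Additive (GammaH (thQ θ' q)) →+ A) :=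
  (resHSys (q := q) θ').op A

/-- **the transfer** `Hom(Γ_H(θ), A) → Hom(Γ_H(θ'), A)` -/
noncomputable def coresq :
    (Additive (GammaH (thQ θ' q)) →+ A) →+ (Additive (GammaH θ') →+ A) :=
  (coresHSys θ' hqN (bez hqN).1 (bez hqN).2 (bez_spec hqN)).op A

/-- **the `δ`-twisted transfer** `Hom(Γ_H(θ), A) → Hom(Γ_H(θ'), A)` -/
noncomputable def coresDq :
    (Additive (GammaH (thQ θ' q)) →+ A) →+ (Additive (GammaH θ') →+ A) :=
  (coresDHSys θ' hqN (bez hqN).1 (bez hqN).2 (bez_spec hqN)).op A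

/-- the Atkin–Lehner operator on `Hom(Γ_H(θ), A)` (representative `W = γ₁ δ`) -/
noncomputable def wq :
    (Additive (GammaH (thQ θ' q)) →+ A) →+ (Additive (GammaH (thQ θ' q)) →+ A) :=
  (wHSys θ' (bez hqN).1 (bez hqN).2 (bez_spec hqN)).op A

/-- the Atkin–Lehner operator on `Hom(Γ_H(θ), A)` (representative `γ'_∞ δ`) -/
noncomputable def wDq :
    (Additive (GammaH (thQ θ' q)) →+ A) →+ (Additive (GammaH (thQ θ' q)) →+ A) :=
  (wDHSys θ' (bez hqN).1 (bez hqN).2 (bez_spec hqN)).op A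

end Systems

end Fermat.Agent.GB.B7.UqSq
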