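/-
GATE-B / B7 leaf (D-U2)(c), abstract part (helper97): **equivariance of a kernel system between
two groups**.

Frame of `GB/B4/Twist/KerSys2` : `S : CosetSys emb Γ₁ Γ₂`, `χ₁ : Γ₁ →* Δ`, `χ₂ : Γ₂ →* Δ`,
`h : Compat₂ S χ₁ χ₂` (`χ₁ (S.c g i) = χ₂ g`), `kerSys₂ S χ₁ χ₂ h : CosetSys emb (ker χ₁) (ker χ₂)`.

* `kerSys₂_op_dia` : **diamond operators**.  For `d₁ ∈ Γ₁`, `d₂ ∈ Γ₂` with `χ₁ d₁ = χ₂ d₂`:
    `⟨d₂⟩ ((kerSys₂ S).op ν) = (kerSys₂ S).op (⟨d₁⟩ ν)`.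
  No computation with representatives: only the cocycle relation.
* `kerSys₂_op_comm_of_contained` : **two-level commutation**.  For `T₁` on `Γ₁` (`Compat T₁ χ₁`) and
  `T₂` on `Γ₂` (`Compat T₂ χ₂`): if the composites `T₁.comp S` and `S.comp T₂` have distinct
  `Γ₁`-cosets, the same number of representatives, and every representative of the first is
  `γ ·` a representative of the second with `γ ∈ Γ₁`, `χ₁ γ = 1`, then
    `(kerSys₂ S).op ((kerSys T₁ χ₁).op ν) = (kerSys T₂ χ₂).op ((kerSys₂ S).op ν)`.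
  (Two-level twin of helper2's `KerSys.kerSys_op_comm_of_cosets`.)
* `kerSys₂_comp_distinct_left/right` : distinctness of the composites is inherited from the
  `Γ₁`-level.
-/
import Mathlib
import Fermat.Agent.GB.B4.Twist.KerSys2
import Fermat.Agent.GM.B.System3

set_option autoImplicit false

namespace Fermat.Agent.GB.B7.UqEquiv

open Fermat.Agent.GM.B Fermat.Agent.GB.B3 Fermat.Agent.GB.B4.Twist.KerSys2

variable {H G : Type*} [Group H] [Group G] {emb : H →* G} {Γ₁ Γ₂ : Subgroup H}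
  {Δ : Type} [Group Δ]

section Dia

variable (S : CosetSys emb Γ₁ Γ₂) (χ₁ : Γ₁ →* Δ) (χ₂ : Γ₂ →* Δ) (h : Compat₂ S χ₁ χ₂)

/-- **the diamond operators commute with a kernel system between two groups** -/
theorem kerSys₂_op_dia (hemb : Function.Injective emb) (d₁ : Γ₁) (d₂ : Γ₂)
    (hχ : χ₁ d₁ = χ₂ d₂) {A : Type*} [AddCommGroup A]
    (ν : Additive (kerSub χ₁) →+ A) :
    (diaK emb χ₂ d₂).op A ((kerSys₂ S χ₁ χ₂ h).op A ν)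
      = (kerSys₂ S χ₁ χ₂ h).op A ((diaK emb χ₁ d₁).op A ν) := by
  rw [← CosetSys.op_comp, ← CosetSys.op_comp]
  refine CosetSys.op_eq_of_equiv ((diaK emb χ₁ d₁).comp (kerSys₂ S χ₁ χ₂ h))
    ((kerSys₂ S χ₁ χ₂ h).comp (diaK emb χ₂ d₂)) hemb
    ((Equiv.prodComm Unit S.ι).trans (Equiv.prodCongr (S.σ d₂).symm (Equiv.refl Unit)))
    1 (fun x => by rw [one_mul, mul_one])
    (fun p => kerMk χ₁ (S.c d₂ ((S.σ d₂).symm p.2) * d₁⁻¹) (by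
      rw [map_mul, h, map_inv, hχ, mul_inv_cancel])) ?_ ?_ ν
  · rintro ⟨u, j⟩
    show S.a ((S.σ d₂).symm j) * emb (d₂ : H)
      = 1 * emb (((S.c d₂ ((S.σ d₂).symm j) * d₁⁻¹ : Γ₁)) : H) * (emb (d₁ : H) * S.a j)
    rw [one_mul, S.rel d₂ ((S.σ d₂).symm j), Equiv.apply_symm_apply, ← mul_assoc, ← map_mul,
      ← Subgroup.coe_mul, inv_mul_cancel_right]
  · rintro k ⟨u, j⟩
    show (S.σ (kerIncl χ₂ (conjK χ₂ d₂ k)) ((S.σ d₂).symm j), u)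
      = ((S.σ d₂).symm (S.σ (kerIncl χ₂ k) j), u)
    rw [kerIncl_conjK, S.hσ, S.hσ, Equiv.apply_symm_apply, sigma_inv_eq_symm]

end Dia

section Comm

variable (S : CosetSys emb Γ₁ Γ₂) (χ₁ : Γ₁ →* Δ) (χ₂ : Γ₂ →* Δ) (h : Compat₂ S χ₁ χ₂)
  (T₁ : CosetSys emb Γ₁ Γ₁) (T₂ : CosetSys emb Γ₂ Γ₂) (h₁ : Compat T₁ χ₁) (h₂ : Compat T₂ χ₂)

/-- distinct cosets of `T₁.comp S` modulo `Γ₁` are distinct modulo `ker χ₁` -/
theorem kerSys₂_comp_distinct_left (hd : (T₁.comp S).Distinct) :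
    ((kerSys T₁ χ₁ h₁).comp (kerSys₂ S χ₁ χ₂ h)).Distinct := by
  rintro ⟨i, j⟩ ⟨i', j'⟩ κ hκ
  exact hd (i, j) (i', j') (kerIncl χ₁ κ) hκ

/-- distinct cosets of `S.comp T₂` modulo `Γ₁` are distinct modulo `ker χ₁` -/
theorem kerSys₂_comp_distinct_right (hd : (S.comp T₂).Distinct) :
    ((kerSys₂ S χ₁ χ₂ h).comp (kerSys T₂ χ₂ h₂)).Distinct := by
  rintro ⟨i, j⟩ ⟨i', j'⟩ κ hκ
  exact hd (i, j) (i', j') (kerIncl χ₁ κ) hκ

/-- **two-level commutation of kernel systems**, reduced to a statement about `Γ₁`-cosets -/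
theorem kerSys₂_op_comm_of_contained (hemb : Function.Injective emb)
    (hd₁ : (T₁.comp S).Distinct) (hd₂ : (S.comp T₂).Distinct)
    (hcard : Fintype.card (T₁.ι × S.ι) = Fintype.card (S.ι × T₂.ι))
    (f : T₁.ι × S.ι → S.ι × T₂.ι) (γ : T₁.ι × S.ι → Γ₁) (hγ : ∀ p, χ₁ (γ p) = 1)
    (hrep : ∀ p : T₁.ι × S.ι,
      S.a (f p).1 * T₂.a (f p).2 = emb ((γ p : Γ₁) : H) * (T₁.a p.1 * S.a p.2))
    {A : Type*} [AddCommGroup A] (ν : Additive (kerSub χ₁) →+ A) :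
    (kerSys₂ S χ₁ χ₂ h).op A ((kerSys T₁ χ₁ h₁).op A ν)
      = (kerSys T₂ χ₂ h₂).op A ((kerSys₂ S χ₁ χ₂ h).op A ν) := by
  rw [← CosetSys.op_comp, ← CosetSys.op_comp]
  symm
  refine CosetSys.op_eq_of_contained ((kerSys T₁ χ₁ h₁).comp (kerSys₂ S χ₁ χ₂ h))
    ((kerSys₂ S χ₁ χ₂ h).comp (kerSys T₂ χ₂ h₂)) hemb
    (kerSys₂_comp_distinct_left S χ₁ χ₂ h T₁ h₁ hd₁)
    (kerSys₂_comp_distinct_right S χ₁ χ₂ h T₂ h₂ hd₂) hcard f
    1 (fun x => by rw [one_mul, mul_one]) (fun p => kerMk χ₁ (γ p) (hγ p)) ?_ ν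
  intro p
  show S.a (f p).1 * T₂.a (f p).2 = 1 * emb ((γ p : Γ₁) : H) * (T₁.a p.1 * S.a p.2)
  rw [one_mul, hrep p]

/-- the same with a bijection and only one distinctness hypothesis -/
theorem kerSys₂_op_comm_of_cosets (hemb : Function.Injective emb)
    (hd₂ : (S.comp T₂).Distinct)
    (e : T₁.ι × S.ι ≃ S.ι × T₂.ι) (γ : T₁.ι × S.ι → Γ₁) (hγ : ∀ p, χ₁ (γ p) = 1)
    (hrep : ∀ p : T₁.ι × S.ι,
      S.a (e p).1 * T₂.a (e p).2 = emb ((γ p : Γ₁) : H) * (T₁.a p.1 * S.a p.2))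
    {A : Type*} [AddCommGroup A] (ν : Additive (kerSub χ₁) →+ A) :
    (kerSys₂ S χ₁ χ₂ h).op A ((kerSys T₁ χ₁ h₁).op A ν)
      = (kerSys T₂ χ₂ h₂).op A ((kerSys₂ S χ₁ χ₂ h).op A ν) := by
  rw [← CosetSys.op_comp, ← CosetSys.op_comp]
  symm
  refine CosetSys.op_eq_of_cosets ((kerSys T₁ χ₁ h₁).comp (kerSys₂ S χ₁ χ₂ h))
    ((kerSys₂ S χ₁ χ₂ h).comp (kerSys T₂ χ₂ h₂)) hemb
    (kerSys₂_comp_distinct_right S χ₁ χ₂ h T₂ h₂ hd₂) e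
    1 (fun x => by rw [one_mul, mul_one]) (fun p => kerMk χ₁ (γ p) (hγ p)) ?_ ν
  intro p
  show S.a (e p).1 * T₂.a (e p).2 = 1 * emb ((γ p : Γ₁) : H) * (T₁.a p.1 * S.a p.2)
  rw [one_mul, hrep p]

end Comm

end Fermat.Agent.GB.B7.UqEquiv
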