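/-
GATE-B / B7 leaf (D-U2)(c) (helper97): **equivariance of the `q`-degeneracy transfers at level
`Γ_H`** (helper83's `UqSq.coresq`, `UqSq.coresDq` : `Hom(Γ_H(θ), A) → Hom(Γ_H(θ'), A)`,
`θ = thQ θ' q` of level `N q`).

* `coresq_diaH`, `coresDq_diaH` : `coresq (⟨d⟩ ν) = ⟨d'⟩ (coresq ν)` for ANY `d ∈ Γ₀(N q)`,
  `d' ∈ Γ₀(N)` with `χ_θ d = χ_{θ'} d'` (e.g. `d' = degenOne d`) — from the abstract
  `UqEquiv.kerSys₂_op_dia`;
* `kerSys₂_op_comm_of_transversal` : abstract commutation for a transversal system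
  (`S.a y = emb (r y)`, `r y ∈ Γ₂`, one representative `1`) and two systems `T₁`, `T₂` with
  `T₁.a x = emb (τ x) * T₂.a (ix x)`, `χ₂ (r y) = 1 = χ₂ (τ x)`;
* `coresq_TH` : `coresq (T_ℓ ν) = T_ℓ (coresq ν)` (`ℓ ∤ N q`);
* `coresq_UH` : `coresq (U_r ν) = U_r (coresq ν)` (`r ∣ N` prime).
-/
import Mathlib
import Fermat.Agent.GB.B7.UqEquivAbs
import Fermat.Agent.GB.B7.UqSqSys
import Fermat.Agent.GB.B8.LevelU

set_option autoImplicit false
set_option linter.unusedSectionVars false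

open scoped MatrixGroups
open CongruenceSubgroup Matrix Matrix.SpecialLinearGroup
open P2MW.S_ModularForm_heckeT_slash_eq_self_of_mem_Gamma0.ModularForm.HeckeSlashInvariance
open P2MW.S_ModularForm_heckeT_slash_eq_self_of_mem_Gamma0.ModularForm
open Fermat.Agent.S16_helper49 Fermat.Agent.GM.B Fermat.Agent.GM.B5 Fermat.Agent.GM.EisClass
open Fermat.Agent.GM.Amalgam
open Fermat.Agent.GB.B3 Fermat.Agent.GB.B3.EisGamma0 Fermat.Agent.GB.B3.GamH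
open Fermat.Agent.GB.B4.Twist.KerSys2
open Fermat.Agent.GB.B7.UqSq
open scoped OnePoint

namespace Fermat.Agent.GB.B7.UqEquiv

/-! ### the abstract transversal lemma -/

section Transversal

variable {H G : Type*} [Group H] [Group G] {emb : H →* G} {Γ₁ Γ₂ : Subgroup H}
  {Δ : Type} [Group Δ]
  (S : CosetSys emb Γ₁ Γ₂) (χ₁ : Γ₁ →* Δ) (χ₂ : Γ₂ →* Δ) (h : Compat₂ S χ₁ χ₂)
  (T₁ : CosetSys emb Γ₁ Γ₁) (T₂ : CosetSys emb Γ₂ Γ₂) (h₁ : Compat T₁ χ₁) (h₂ : Compat T₂ χ₂)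

/-- the coset of `T₁.a x * S.a y` -/
theorem rep_transversal (r : S.ι → Γ₂) (hr : ∀ y, S.a y = emb ((r y : Γ₂) : H))
    (y₀ : S.ι) (hy₀ : S.a y₀ = 1) (ix : T₁.ι → T₂.ι) (τ : T₁.ι → Γ₂)
    (hτ : ∀ x, T₁.a x = emb ((τ x : Γ₂) : H) * T₂.a (ix x)) (x : T₁.ι) (y : S.ι) :
    S.a (S.σ (τ x * T₂.c (r y) (ix x)) y₀) * T₂.a (T₂.σ (r y) (ix x))
      = emb ((((S.c (τ x * T₂.c (r y) (ix x)) y₀)⁻¹ : Γ₁)) : H) * (T₁.a x * S.a y) := by
  have e1 : T₁.a x * S.a y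
      = emb (((τ x * T₂.c (r y) (ix x) : Γ₂)) : H) * T₂.a (T₂.σ (r y) (ix x)) := by
    rw [hτ, hr, mul_assoc, T₂.rel (r y) (ix x), ← mul_assoc, ← map_mul, ← Subgroup.coe_mul]
  have e2 := S.rel (τ x * T₂.c (r y) (ix x)) y₀
  rw [hy₀, one_mul] at e2
  rw [e1, e2, Subgroup.coe_inv, map_inv, ← mul_assoc, ← mul_assoc, inv_mul_cancel, one_mul]

/-- **commutation for a transversal system** -/
theorem kerSys₂_op_comm_of_transversal (hemb : Function.Injective emb)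
    (hd₁ : (T₁.comp S).Distinct) (hd₂ : (S.comp T₂).Distinct)
    (hcard : Fintype.card (T₁.ι × S.ι) = Fintype.card (S.ι × T₂.ι))
    (r : S.ι → Γ₂) (hr : ∀ y, S.a y = emb ((r y : Γ₂) : H)) (hχr : ∀ y, χ₂ (r y) = 1)
    (y₀ : S.ι) (hy₀ : S.a y₀ = 1) (ix : T₁.ι → T₂.ι) (τ : T₁.ι → Γ₂)
    (hτ : ∀ x, T₁.a x = emb ((τ x : Γ₂) : H) * T₂.a (ix x)) (hχτ : ∀ x, χ₂ (τ x) = 1)
    {A : Type*} [AddCommGroup A] (ν : Additive (kerSub χ₁) →+ A) :
    (kerSys₂ S χ₁ χ₂ h).op A ((kerSys T₁ χ₁ h₁).op A ν)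
      = (kerSys T₂ χ₂ h₂).op A ((kerSys₂ S χ₁ χ₂ h).op A ν) := by
  refine kerSys₂_op_comm_of_contained S χ₁ χ₂ h T₁ T₂ h₁ h₂ hemb hd₁ hd₂ hcard
    (fun p => (S.σ (τ p.1 * T₂.c (r p.2) (ix p.1)) y₀, T₂.σ (r p.2) (ix p.1)))
    (fun p => (S.c (τ p.1 * T₂.c (r p.2) (ix p.1)) y₀)⁻¹) ?_ ?_ ν
  · intro p
    rw [map_inv, h, map_mul, h₂, hχτ, hχr, one_mul, inv_one]
  · intro p
    exact rep_transversal S T₁ T₂ r hr y₀ hy₀ ix τ hτ p.1 p.2

/-- distinctness of a composite is inherited by a left twist of the first system -/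
theorem comp_distinct_of_left_twist (T T' : CosetSys emb Γ₁ Γ₁) (e : T'.ι ≃ T.ι) (g : T'.ι → Γ₁)
    (ha : ∀ x, T'.a x = emb ((g x : Γ₁) : H) * T.a (e x)) (hd : (T.comp S).Distinct) :
    (T'.comp S).Distinct := by
  rintro ⟨x, y⟩ ⟨x', y'⟩ κ hκ
  have h1 : T'.a x * S.a y = emb ((κ : Γ₁) : H) * (T'.a x' * S.a y') := hκ
  rw [ha, ha] at h1
  have h2 := hd (e x, y) (e x', y') ((g x)⁻¹ * κ * g x') (by
    show T.a (e x) * S.a y = _ * (T.a (e x') * S.a y')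
    rw [Subgroup.coe_mul, Subgroup.coe_mul, Subgroup.coe_inv, map_mul, map_mul, map_inv]
    rw [mul_assoc, mul_assoc, eq_inv_mul_iff_mul_eq, ← mul_assoc, h1]
    simp only [mul_assoc])
  have hx : x = x' := e.injective (congrArg Prod.fst h2)
  have hy : y = y' := congrArg Prod.snd h2
  subst hx hy
  rfl

end Transversal

/-! ### the concrete statements -/

variable {N q : ℕ} [Fact q.Prime] {Δ : Type} [CommGroup Δ] (θ' : (ZMod N)ˣ →* Δ)
  (hqN : ¬ q ∣ N) {A : Type*} [AddCommGroup A]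

/-- **`coresq` intertwines the diamond operators** -/
theorem coresq_diaH (d : Gamma0 (N * q)) (d' : Gamma0 N) (hd : chi (thQ θ' q) d = chi θ' d')
    (ν : Additive (GammaH (thQ θ' q)) →+ A) :
    coresq θ' hqN A (diaH (thQ θ' q) A d ν) = diaH θ' A d' (coresq θ' hqN A ν) :=
  (kerSys₂_op_dia _ _ _ _ embR_injective d d' hd ν).symm

/-- **`coresDq` intertwines the diamond operators** -/
theorem coresDq_diaH (d : Gamma0 (N * q)) (d' : Gamma0 N) (hd : chi (thQ θ' q) d = chi θ' d')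
    (ν : Additive (GammaH (thQ θ' q)) →+ A) :
    coresDq θ' hqN A (diaH (thQ θ' q) A d ν) = diaH θ' A d' (coresDq θ' hqN A ν) :=
  (kerSys₂_op_dia _ _ _ _ embR_injective d d' hd ν).symm

/-- the character of `degenOne d` -/
theorem chi_degenOne (d : Gamma0 (N * q)) : chi (thQ θ' q) d = chi θ' (degenOne N q d) :=
  chi_thQ_of_coe θ' d (degenOne N q d) (degenOne_coe d)

theorem coresq_diaH_degenOne (d : Gamma0 (N * q)) (ν : Additive (GammaH (thQ θ' q)) →+ A) :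
    coresq θ' hqN A (diaH (thQ θ' q) A d ν) = diaH θ' A (degenOne N q d) (coresq θ' hqN A ν) :=
  coresq_diaH θ' hqN d _ (chi_degenOne θ' d) ν

theorem coresDq_diaH_degenOne (d : Gamma0 (N * q)) (ν : Additive (GammaH (thQ θ' q)) →+ A) :
    coresDq θ' hqN A (diaH (thQ θ' q) A d ν) = diaH θ' A (degenOne N q d) (coresDq θ' hqN A ν) :=
  coresDq_diaH θ' hqN d _ (chi_degenOne θ' d) ν

/-! ### `coresq` and `T_ℓ` -/

section TH

variable {ℓ : ℕ} [Fact ℓ.Prime]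

theorem heckeSysD_distinct {M : ℕ} (hℓM : ¬ ℓ ∣ M) : (heckeSysD hℓM).Distinct := by
  unfold heckeSysD
  refine CosetSys.twist_distinct (heckeSys hℓM) embR_injective 1 (twG hℓM) (cD hℓM) _
    (heckeSys_distinct hℓM) ?_
  intro κ
  exact ⟨κ, by rw [mul_one, one_mul]⟩

/-- the twisting element relating the Hecke representatives at the two levels -/
noncomputable def tauT (hℓ : ¬ ℓ ∣ N * q) (x : OnePoint (ZMod ℓ)) : Gamma0 N :=
  degenOne N q (twG hℓ x) * (twG (not_dvd_of_not_dvd_mul hℓ) x)⁻¹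

theorem heckeSysD_a_eq (hℓ : ¬ ℓ ∣ N * q) (x : OnePoint (ZMod ℓ)) :
    (heckeSysD hℓ).a x
      = embR ((tauT hℓ x : Gamma0 N) : SL(2, ℤ)) * (heckeSysD (not_dvd_of_not_dvd_mul hℓ)).a x := by
  rw [heckeSysD_a, heckeSysD_a, one_mul, one_mul]
  unfold tauT
  rw [Subgroup.coe_mul, Subgroup.coe_inv, map_mul, map_inv, degenOne_coe, ← mul_assoc,
    inv_mul_cancel_right]

theorem dN_degenOne_sigmaL (hℓ : ¬ ℓ ∣ N * q) :
    dN (degenOne N q (sigmaL hℓ)) = ((ℓ : ℤ) : ZMod N) := by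
  have h1 := dN_sigmaL hℓ
  unfold dN at h1 ⊢
  rw [degenOne_coe]
  have h2 : (((N * q : ℕ) : ℤ)) ∣ ((sigmaL hℓ : Gamma0 (N * q)) : SL(2, ℤ)) 1 1 - (ℓ : ℤ) := by
    rw [← ZMod.intCast_zmod_eq_zero_iff_dvd, Int.cast_sub, h1, sub_self]
  have h3 : (N : ℤ) ∣ ((sigmaL hℓ : Gamma0 (N * q)) : SL(2, ℤ)) 1 1 - (ℓ : ℤ) :=
    Dvd.dvd.trans (by push_cast; exact Dvd.intro _ rfl) h2
  rw [← ZMod.intCast_zmod_eq_zero_iff_dvd, Int.cast_sub, sub_eq_zero] at h3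
  exact h3

theorem chi_tauT (hℓ : ¬ ℓ ∣ N * q) (x : OnePoint (ZMod ℓ)) : chi θ' (tauT hℓ x) = 1 := by
  unfold tauT
  rw [map_mul, map_inv, mul_inv_eq_one]
  induction x using OnePoint.rec with
  | infty =>
    show chi θ' (degenOne N q (sigmaL hℓ)) = chi θ' (sigmaL (not_dvd_of_not_dvd_mul hℓ))
    rw [chi_apply, chi_apply]
    congr 1
    apply Units.ext
    rw [coe_dUnits, coe_dUnits, dN_degenOne_sigmaL, dN_sigmaL]
  | coe j =>
    show chi θ' (degenOne N q 1) = chi θ' 1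
    rw [map_one]

theorem coresSys'_a_one : (coresSys' hqN).a (∞ : OnePoint (ZMod q)) = 1 :=
  coresSys'_a_infty hqN

/-- **`coresq ∘ T_ℓ = T_ℓ ∘ coresq`** (`ℓ ∤ N q`) -/
theorem coresq_TH (hℓ : ¬ ℓ ∣ N * q) (ν : Additive (GammaH (thQ θ' q)) →+ A) :
    coresq θ' hqN A (TH (thQ θ' q) A hℓ ν)
      = TH θ' A (not_dvd_of_not_dvd_mul hℓ) (coresq θ' hqN A ν) := by
  have hℓN : ¬ ℓ ∣ N := not_dvd_of_not_dvd_mul hℓ
  refine kerSys₂_op_comm_of_transversal (coresSys' hqN) (chi (thQ θ' q)) (chi θ')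
    (compat_coresSys θ' hqN _ _ _) (heckeSysD hℓ) (heckeSysD hℓN)
    (compat_heckeSysD (thQ θ' q) hℓ) (compat_heckeSysD θ' hℓN) embR_injective ?_ ?_ ?_
    (rC N q (bez hqN).1 (bez hqN).2 (bez_spec hqN)) (coresSys_a hqN _ _ _)
    (chi_rC θ' _ _ _) (∞ : OnePoint (ZMod q)) (coresSys'_a_infty hqN)
    (fun x => x) (tauT hℓ) (heckeSysD_a_eq hℓ) (chi_tauT θ' hℓ) ν
  · refine comp_distinct_of_left_twist (coresSys' hqN) (heckeSys hℓ) (heckeSysD hℓ)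
      (Equiv.refl _) (twG hℓ) ?_ (heckeSys_comp_coresSys'_distinct hqN hℓ)
    intro x
    rw [heckeSysD_a, one_mul]
    rfl
  · exact CosetSys.comp_distinct_of_inner (coresSys' hqN) (heckeSysD hℓN) Gamma0_mul_le
      (rC N q (bez hqN).1 (bez hqN).2 (bez_spec hqN)) (coresSys_a hqN _ _ _)
      (coresSys'_distinct hqN) (heckeSysD_distinct hℓN)
  · rw [Fintype.card_prod, Fintype.card_prod, heckeSysD_card, heckeSysD_card, mul_comm]

end TH

/-! ### `coresq` and `U_r` -/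

section UH

variable {r : ℕ} [Fact r.Prime]

local instance : NeZero r := ⟨(Fact.out : r.Prime).ne_zero⟩

/-- **`coresq ∘ U_r = U_r ∘ coresq`** (`r ∣ N` prime) -/
theorem coresq_UH (hrN : r ∣ N) (ν : Additive (GammaH (thQ θ' q)) →+ A) :
    coresq θ' hqN A (UH (thQ θ' q) A (Dvd.dvd.mul_right hrN q) ν)
      = UH θ' A hrN (coresq θ' hqN A ν) := by
  refine kerSys₂_op_comm_of_transversal (coresSys' hqN) (chi (thQ θ' q)) (chi θ')
    (compat_coresSys θ' hqN _ _ _) (uSys (Dvd.dvd.mul_right hrN q)) (uSys hrN)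
    (compat_uSys (thQ θ' q) (Dvd.dvd.mul_right hrN q)) (compat_uSys θ' hrN) embR_injective
    (Fermat.Agent.GB.B8.LevelU.uSys_comp_coresSys'_distinct hqN hrN)
    (Fermat.Agent.GB.B8.LevelU.coresSys'_comp_uSys_distinct hqN hrN)
    ?_ (rC N q (bez hqN).1 (bez hqN).2 (bez_spec hqN)) (coresSys_a hqN _ _ _)
    (chi_rC θ' _ _ _) (∞ : OnePoint (ZMod q)) (coresSys'_a_infty hqN)
    (fun x => x) (fun _ => 1) ?_ (fun _ => map_one _) ν
  · exact Fintype.card_congr (Equiv.prodComm (ZMod r) (OnePoint (ZMod q)))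
  · intro x
    rw [Subgroup.coe_one, map_one, one_mul]
    rfl

end UH

end Fermat.Agent.GB.B7.UqEquiv
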