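/-
GATE-B / B7 leaf (D-U2) (helper83), file 2: **`U_q² = ⟨q⟩` on `ker cores_q ∩ ker cores_{q,δ}`
at level `Γ_H`**.

`q ∤ N` prime, `θ' : (ZMod N)ˣ →* Δ`, `θ = thQ θ' q = θ' ∘ (mod N)` (level `N q`, unramified at
`q`).  On `Hom(Γ_H(θ), A)`, any coefficient group `A`:

* `resH_coresH_eq`  : `res ∘ cores   = 1 + U_q ∘ w`          (`w` with representative `W = γ₁ δ`);
* `resH_coresDH_eq` : `res ∘ cores_δ = U_q + w'`             (`w'` with representative `γ'_∞ δ`);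
* `wDH_eq`          : `w' = w ∘ ⟨γ''⟩`, `χ_θ(γ'') = θ'(q)`;
* **`UH_UH_of_ker`** : `cores ν = 0 → cores_δ ν = 0 → U_q (U_q ν) = ⟨d_q⟩ ν` for every
  `d_q ∈ Γ₀(N q)` with `χ_θ(d_q) = θ'(q)`.

The two coset identities are those of GM/B5/UqSquare (`res_cores_eq`, `res_coresD_eq`), re-run for
the kernel systems: the representatives are the same and the connecting elements are `1`.
-/
import Mathlib
import Fermat.Agent.GB.B7.UqSqSys

set_option autoImplicit false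
set_option linter.unusedSectionVars false

open scoped MatrixGroups
open CongruenceSubgroup Matrix Matrix.SpecialLinearGroup
open P2MW.S_ModularForm_heckeT_slash_eq_self_of_mem_Gamma0.ModularForm.HeckeSlashInvariance
open P2MW.S_ModularForm_heckeT_slash_eq_self_of_mem_Gamma0.ModularForm
open Fermat.Agent.S16_helper49 Fermat.Agent.GM.B Fermat.Agent.GM.B5 Fermat.Agent.GM.EisClass
open Fermat.Agent.GM.Amalgam
open Fermat.Agent.GB.B3 Fermat.Agent.GB.B3.EisGamma0 Fermat.Agent.GB.B3.GamH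
open Fermat.Agent.GB.B4.Twist.KerSys2
open scoped OnePoint

namespace Fermat.Agent.GB.B7.UqSq

variable {N q : ℕ} [Fact q.Prime] {Δ : Type} [CommGroup Δ] (θ' : (ZMod N)ˣ →* Δ)

section Identities

variable (hqN : ¬ q ∣ N) (b₀ d₀ : ℤ) (hbd : (q : ℤ) * d₀ - N * b₀ = 1)

/-- **`res ∘ cores = 1 + U_q ∘ w`** on `Hom(Γ_H(θ), A)` -/
theorem resH_coresH_eq {A : Type*} [AddCommGroup A]
    (ψ : Additive (GammaH (thQ θ' q)) →+ A) :
    (resHSys (q := q) θ').op A ((coresHSys θ' hqN b₀ d₀ hbd).op A ψ)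
      = ψ + (uSysH (thQ θ' q) (dvd_mul_self_right (N := N) (q := q))).op A
          ((wHSys θ' b₀ d₀ hbd).op A ψ) := by
  have hzinv : ∀ x : GL (Fin 2) ℝ, (zq q)⁻¹ * x = x * (zq q)⁻¹ := fun x => by
    rw [eq_mul_inv_iff_mul_eq, mul_assoc, ← zq_comm, ← mul_assoc, inv_mul_cancel, one_mul]
  have h := CosetSys.op_eq_of_equiv
    (sumSys (idSys embR (GammaH (thQ θ' q)) (zq q) (zq_comm q))
      ((wHSys θ' b₀ d₀ hbd).comp (uSysH (thQ θ' q) (dvd_mul_self_right (N := N) (q := q)))))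
    ((coresHSys θ' hqN b₀ d₀ hbd).comp (resHSys (q := q) θ')) embR_injective (eA q) (zq q)⁻¹ hzinv
    (fun _ => 1) ?_ ?_ ψ
  · rw [CosetSys.op_comp] at h
    rw [h, sumSys_op, idSys_op, CosetSys.op_comp]
  · -- representatives
    rintro (⟨⟩ | ⟨⟨⟩, x⟩)
    · show ((dlt q)⁻¹ * embR ((1 : Gamma0 N) : SL(2, ℤ)) * heckeRep q ∞) * 1
        = (zq q)⁻¹ * embR ((1 : GammaH (thQ θ' q)) : SL(2, ℤ)) * zq q
      rw [Subgroup.coe_one, Subgroup.coe_one, map_one, heckeRep_infty, mul_one, mul_one, mul_one,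
        inv_mul_cancel, inv_mul_cancel]
    · obtain ⟨x, rfl⟩ : ∃ x' : ZMod q, x' = x := ⟨x, rfl⟩
      show ((dlt q)⁻¹ * embR (gamC N q b₀ d₀ hbd) * heckeRep q ((x : ZMod q) : OnePoint (ZMod q))) * 1
        = (zq q)⁻¹ * embR ((1 : GammaH (thQ θ' q)) : SL(2, ℤ))
          * (wMat N q b₀ d₀ hbd * heckeMatrix q (x : ZMod q).val)
      rw [Subgroup.coe_one, map_one, mul_one, mul_one, heckeRep_coe, wMat_eq]
      group
  · -- permutations
    rintro g (⟨⟩ | ⟨⟨⟩, x⟩)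
    · show (redMatrix q ((degenOne N q (kerIncl (chi (thQ θ' q)) g) : Gamma0 N) : SL(2, ℤ))
          • (∞ : OnePoint (ZMod q)), ()) = (∞, ())
      rw [degenOne_coe, redMatrix_smul_infty]
    · obtain ⟨x, rfl⟩ : ∃ x' : ZMod q, x' = x := ⟨x, rfl⟩
      show (redMatrix q ((degenOne N q (kerIncl (chi (thQ θ' q)) g) : Gamma0 N) : SL(2, ℤ))
          • ((x : ZMod q) : OnePoint (ZMod q)), ())
        = (((sigU (dvd_mul_self_right (N := N) (q := q)) (kerIncl (chi (thQ θ' q)) g)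
            (x : ZMod q) : ZMod q) : OnePoint (ZMod q)), ())
      rw [degenOne_coe, redMatrix_smul_coe]

/-- **`res ∘ cores_δ = U_q + w'`** on `Hom(Γ_H(θ), A)` -/
theorem resH_coresDH_eq {A : Type*} [AddCommGroup A]
    (ψ : Additive (GammaH (thQ θ' q)) →+ A) :
    (resHSys (q := q) θ').op A ((coresDHSys θ' hqN b₀ d₀ hbd).op A ψ)
      = (uSysH (thQ θ' q) (dvd_mul_self_right (N := N) (q := q))).op A ψ
        + (wDHSys θ' b₀ d₀ hbd).op A ψ := by
  have h := CosetSys.op_eq_of_equiv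
    (sumSys (uSysH (thQ θ' q) (dvd_mul_self_right (N := N) (q := q))) (wDHSys θ' b₀ d₀ hbd))
    ((coresDHSys θ' hqN b₀ d₀ hbd).comp (resHSys (q := q) θ')) embR_injective (eB q) 1
    (fun x => by rw [one_mul, mul_one]) (fun _ => 1) ?_ ?_ ψ
  · rw [CosetSys.op_comp] at h
    rw [h, sumSys_op]
  · -- representatives
    rintro (x | ⟨⟩)
    · obtain ⟨x, rfl⟩ : ∃ x' : ZMod q, x' = x := ⟨x, rfl⟩
      show (1 * embR ((1 : Gamma0 N) : SL(2, ℤ)) * heckeRep q ((x : ZMod q) : OnePoint (ZMod q))) * 1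
        = 1 * embR ((1 : GammaH (thQ θ' q)) : SL(2, ℤ)) * heckeMatrix q (x : ZMod q).val
      rw [Subgroup.coe_one, Subgroup.coe_one, mul_one, heckeRep_coe]
    · show (1 * embR (gamD N q b₀ d₀ hbd) * heckeRep q ∞) * 1
        = 1 * embR ((1 : GammaH (thQ θ' q)) : SL(2, ℤ)) * wDMat N q b₀ d₀ hbd
      rw [heckeRep_infty, mul_one, one_mul, one_mul, Subgroup.coe_one, map_one, one_mul, wDMat_eq]
  · -- permutations
    rintro g (x | ⟨⟩)
    · obtain ⟨x, rfl⟩ : ∃ x' : ZMod q, x' = x := ⟨x, rfl⟩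
      show (redMatrix q ((degenOne N q (kerIncl (chi (thQ θ' q)) g) : Gamma0 N) : SL(2, ℤ))
          • ((x : ZMod q) : OnePoint (ZMod q)), ())
        = (((sigU (dvd_mul_self_right (N := N) (q := q)) (kerIncl (chi (thQ θ' q)) g)
            (x : ZMod q) : ZMod q) : OnePoint (ZMod q)), ())
      rw [degenOne_coe, redMatrix_smul_coe]
    · show (redMatrix q ((degenOne N q (kerIncl (chi (thQ θ' q)) g) : Gamma0 N) : SL(2, ℤ))
          • (∞ : OnePoint (ZMod q)), ()) = (∞, ())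
      rw [degenOne_coe, redMatrix_smul_infty]

/-- the operator of the kernel system of a single-representative system -/
theorem kerSys_ofRel_op_apply {H G : Type*} [Group H] [Group G] {emb : H →* G} {Γ : Subgroup H}
    {Δ' : Type} [Group Δ'] (hemb : Function.Injective emb) (a : G) (c : Γ → Γ)
    (h : ∀ g : Γ, a * emb (g : H) = emb ((c g : Γ) : H) * a) (χ : Γ →* Δ')
    (hc : Compat (ofRel hemb a c h) χ) {A : Type*} [AddCommGroup A]
    (ψ : Additive (kerSub χ) →+ A) (k : kerSub χ) :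
    (kerSys (ofRel hemb a c h) χ hc).op A ψ (Additive.ofMul k)
      = ψ (Additive.ofMul ((kerSys (ofRel hemb a c h) χ hc).c k ())) := by
  rw [CosetSys.op_apply]
  show ∑ _i : Unit, ψ (Additive.ofMul ((kerSys (ofRel hemb a c h) χ hc).c k ())) = _
  simp

theorem wDH_op_apply {A : Type*} [AddCommGroup A] (ψ : Additive (GammaH (thQ θ' q)) →+ A)
    (k : GammaH (thQ θ' q)) :
    (wDHSys θ' b₀ d₀ hbd).op A ψ (Additive.ofMul k)
      = ψ (Additive.ofMul ((wDHSys θ' b₀ d₀ hbd).c k ())) :=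
  kerSys_ofRel_op_apply embR_injective _ _ _ _ _ ψ k

theorem wH_op_apply {A : Type*} [AddCommGroup A] (ψ : Additive (GammaH (thQ θ' q)) →+ A)
    (k : GammaH (thQ θ' q)) :
    (wHSys θ' b₀ d₀ hbd).op A ψ (Additive.ofMul k)
      = ψ (Additive.ofMul ((wHSys θ' b₀ d₀ hbd).c k ())) :=
  kerSys_ofRel_op_apply embR_injective _ _ _ _ _ ψ k

/-- the cocycle of `w'` is the `γ''`-conjugate of the cocycle of `w` -/
theorem wDH_c_eq (k : GammaH (thQ θ' q)) (u : Unit) :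
    (wDHSys θ' b₀ d₀ hbd).c k u
      = conjK (chi (thQ θ' q)) (gAL N q b₀ d₀ hbd) ((wHSys θ' b₀ d₀ hbd).c k u) := by
  apply Subtype.ext
  show ((cWD N q b₀ d₀ hbd (kerIncl (chi (thQ θ' q)) k) : Gamma0 (N * q)) : SL(2, ℤ))
    = ((gAL N q b₀ d₀ hbd * kerIncl (chi (thQ θ' q)) ((wHSys θ' b₀ d₀ hbd).c k u)
        * (gAL N q b₀ d₀ hbd)⁻¹ : Gamma0 (N * q)) : SL(2, ℤ))
  rw [show kerIncl (chi (thQ θ' q)) ((wHSys θ' b₀ d₀ hbd).c k u)
    = cW N q b₀ d₀ hbd (kerIncl (chi (thQ θ' q)) k) from rfl]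
  rfl

/-- **`w' = w ∘ ⟨γ''⟩`** -/
theorem wDH_eq {A : Type*} [AddCommGroup A] (ψ : Additive (GammaH (thQ θ' q)) →+ A) :
    (wDHSys θ' b₀ d₀ hbd).op A ψ
      = (wHSys θ' b₀ d₀ hbd).op A (diaH (thQ θ' q) A (gAL N q b₀ d₀ hbd) ψ) := by
  refine AddMonoidHom.ext fun k => ?_
  obtain ⟨k, rfl⟩ : ∃ k' : GammaH (thQ θ' q), Additive.ofMul k' = k := ⟨Additive.toMul k, rfl⟩
  rw [wDH_op_apply, wH_op_apply, diaH_apply, wDH_c_eq]

end Identities

/-! ### `U_q² = ⟨q⟩` on the `q`-new part -/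

section Final

variable (hqN : ¬ q ∣ N)

/-- **`U_q² = ⟨q⟩` on `ker cores_q ∩ ker cores_{q,δ}`**, on `Hom(Γ_H(θ), A)`, any coefficients:
the `Γ_H`-level form of `GM.B5.cohU_cohU_eq_of_cores_eq_zero`. -/
theorem UH_UH_of_ker_aux {A : Type*} [AddCommGroup A] (ν : Additive (GammaH (thQ θ' q)) →+ A)
    (h1 : coresq θ' hqN A ν = 0) (h2 : coresDq θ' hqN A ν = 0) :
    UH (thQ θ' q) A (dvd_mul_self_right (N := N) (q := q))
        (UH (thQ θ' q) A (dvd_mul_self_right (N := N) (q := q)) ν)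
      = diaH (thQ θ' q) A (gAL N q (bez hqN).1 (bez hqN).2 (bez_spec hqN)) ν := by
  have hA := resH_coresH_eq θ' hqN (bez hqN).1 (bez hqN).2 (bez_spec hqN) ν
  have hB := resH_coresDH_eq θ' hqN (bez hqN).1 (bez hqN).2 (bez_spec hqN) ν
  have h1' : (coresHSys θ' hqN (bez hqN).1 (bez hqN).2 (bez_spec hqN)).op A ν = 0 := h1
  have h2' : (coresDHSys θ' hqN (bez hqN).1 (bez hqN).2 (bez_spec hqN)).op A ν = 0 := h2
  rw [h1', map_zero] at hA
  rw [h2', map_zero, wDH_eq] at hB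
  set U := UH (thQ θ' q) A (dvd_mul_self_right (N := N) (q := q)) with hU
  set W := (wHSys θ' (bez hqN).1 (bez hqN).2 (bez_spec hqN)).op A with hW
  set D := diaH (thQ θ' q) A (gAL N q (bez hqN).1 (bez hqN).2 (bez_spec hqN)) with hD
  have hA' : U (W ν) = -ν := eq_neg_of_add_eq_zero_right hA.symm
  have hB' : U ν = -W (D ν) := eq_neg_of_add_eq_zero_left hB.symm
  have hDW : W (D ν) = D (W ν) :=
    (dia_kerSys_op embR_injective (wSys N q (bez hqN).1 (bez hqN).2 (bez_spec hqN))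
      (chi (thQ θ' q)) (compat_wSys θ' (bez hqN).1 (bez hqN).2 (bez_spec hqN))
      (gAL N q (bez hqN).1 (bez hqN).2 (bez_spec hqN)) ν).symm
  have hDU : U (D (W ν)) = D (U (W ν)) :=
    (diaH_UH (thQ θ' q) (dvd_mul_self_right (N := N) (q := q))
      (gAL N q (bez hqN).1 (bez hqN).2 (bez_spec hqN)) (W ν)).symm
  rw [hB', map_neg, hDW, hDU, hA', map_neg, neg_neg]

/-- **`U_q² = ⟨d_q⟩` on `ker cores_q ∩ ker cores_{q,δ}`** for every `d_q ∈ Γ₀(N q)` with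
`χ_θ(d_q) = θ'(q)` (`u` any unit of `ZMod N` with value `q`). -/
theorem UH_UH_of_ker {A : Type*} [AddCommGroup A] (ν : Additive (GammaH (thQ θ' q)) →+ A)
    (h1 : coresq θ' hqN A ν = 0) (h2 : coresDq θ' hqN A ν = 0)
    (u : (ZMod N)ˣ) (hu : (u : ZMod N) = (q : ZMod N))
    (dq : Gamma0 (N * q)) (hdq : chi (thQ θ' q) dq = θ' u) :
    UH (thQ θ' q) A (dvd_mul_self_right (N := N) (q := q))
        (UH (thQ θ' q) A (dvd_mul_self_right (N := N) (q := q)) ν)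
      = diaH (thQ θ' q) A dq ν := by
  rw [UH_UH_of_ker_aux θ' hqN ν h1 h2]
  refine diaH_congr (thQ θ' q) _ _ ?_ ν
  rw [hdq, chi_gAL (bez hqN).1 (bez hqN).2 (bez_spec hqN) θ' hqN]
  congr 1
  apply Units.ext
  rw [coe_unitL, hu]

end Final

end Fermat.Agent.GB.B7.UqSq
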