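/-
GATE-B / B7 leaf (D-U2)(c), `cores_δ` half (helper83): **`cores_{q,δ} = cores_q ∘ w'_q` at level
`Γ_H` and the Atkin–Lehner operators commute with `T_ℓ` (`ℓ ∤ N q`) and `U_r` (`r ∣ N`)**.

Vocabulary of `GB/B7/UqSqSys.lean`: `θ' : (ZMod N)ˣ →* Δ`, `θ = thQ θ' q`, `coresq`, `coresDq`,
`wq` (representative `W = γ₁ δ ≡ (q, *; 0, 1) mod N`), `wDq` (representative
`γ'_∞ δ ≡ (1, *; 0, q) mod N`).

* `IsAu N u α` : `α` is an integer matrix `≡ (u, *; 0, *) mod N` (helper80's `IsA1` is `u = 1`);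
  connecting elements between two such matrices with the same unit `u` lie in `Γ₁(N)`
  (`mem_Gamma1_of_isAu`), hence in `ker χ_θ`;
* `coresDq_eq`  : `coresDq = coresq ∘ wDq` (explicit connecting elements `1`, `(γ'_∞ γ₀)⁻¹`);
* `wq_TH`, `wq_UH`, `wDq_TH`, `wDq_UH` : `w_q`, `w'_q` commute with `T_ℓ`, `U_r` on `Hom(Γ_H(θ), A)`
  (matchings `GM.B5.kapW_spec`, `GB.B8.LevelU.kapU_spec`);
* `coresDq_TH_of`, `coresDq_UH_of` : equivariance of `coresDq` FROM the equivariance of `coresq`.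
-/
import Mathlib
import Fermat.Agent.GB.B7.UqSq
import Fermat.Agent.GB.B3.CommGammaH
import Fermat.Agent.GB.B8.LevelU

set_option autoImplicit false
set_option linter.unusedSectionVars false

open scoped MatrixGroups
open CongruenceSubgroup Matrix Matrix.SpecialLinearGroup
open P2MW.S_ModularForm_heckeT_slash_eq_self_of_mem_Gamma0.ModularForm.HeckeSlashInvariance
open P2MW.S_ModularForm_heckeT_slash_eq_self_of_mem_Gamma0.ModularForm
open Fermat.Agent.S16_helper49 Fermat.Agent.GM.EisClass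
open Fermat.Agent.GM.Amalgam
open Fermat.Agent.GM.B (CosetSys embR embR_injective heckeSys dlt zq gamC gamD gC gD rC coresSys
  coresDSys bez bez_spec heckeSys_distinct)
open Fermat.Agent.GB.B3 Fermat.Agent.GB.B3.EisGamma0 Fermat.Agent.GB.B3.GamH
open Fermat.Agent.GB.B3.CommGamma0 Fermat.Agent.GB.B3.CommGammaH
open Fermat.Agent.GB.B4.Twist.KerSys2
open Fermat.Agent.GB.B7.UqSq
open scoped OnePoint

namespace Fermat.Agent.GB.B7.UqEquivD

/-! ### integer matrices `≡ (u, *; 0, *) mod N` -/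

section IsAu

variable {N : ℕ}

/-- `α` is an integer matrix congruent to `(u, *; 0, *)` modulo `N` -/
def IsAu (N : ℕ) (u : ZMod N) (α : GL (Fin 2) ℝ) : Prop :=
  ∃ M : Matrix (Fin 2) (Fin 2) ℤ, IsZ α M ∧ ((M 0 0 : ℤ) : ZMod N) = u ∧ ((M 1 0 : ℤ) : ZMod N) = 0

theorem isAu_of_isA1 {α : GL (Fin 2) ℝ} (h : IsA1 N α) : IsAu N 1 α := h

theorem IsAu.mul {u v : ZMod N} {α β : GL (Fin 2) ℝ} (h : IsAu N u α) (h' : IsAu N v β) :
    IsAu N (u * v) (α * β) := by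
  obtain ⟨M, hM, h00, h10⟩ := h
  obtain ⟨M', hM', h00', h10'⟩ := h'
  refine ⟨M * M', hM.mul hM', ?_, ?_⟩
  · rw [Matrix.mul_apply, Fin.sum_univ_two]
    push_cast
    rw [h00, h00', h10', mul_zero, add_zero]
  · rw [Matrix.mul_apply, Fin.sum_univ_two]
    push_cast
    rw [h10, h10', mul_zero, add_zero, zero_mul]

/-- **connecting elements between matrices `≡ (u, *; 0, *) mod N`, `u` a unit, lie in `Γ₁(N)`** -/
theorem mem_Gamma1_of_isAu {u : ZMod N} (hu : IsUnit u) {P Q : GL (Fin 2) ℝ} (hP : IsAu N u P)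
    (hQ : IsAu N u Q) (γ : SL(2, ℤ)) (h : Q = embR γ * P) : γ ∈ Gamma1 N := by
  obtain ⟨MP, hMP, p00, p10⟩ := hP
  obtain ⟨MQ, hMQ, q00, q10⟩ := hQ
  have hZ := (isZ_embR γ).mul hMP
  rw [← h] at hZ
  have hM : MQ = (γ : Matrix (Fin 2) (Fin 2) ℤ) * MP := hMQ.inj hZ
  have e00 : MQ 0 0 = (γ : Matrix (Fin 2) (Fin 2) ℤ) 0 0 * MP 0 0
      + (γ : Matrix (Fin 2) (Fin 2) ℤ) 0 1 * MP 1 0 := by
    rw [hM, Matrix.mul_apply, Fin.sum_univ_two]
  have e10 : MQ 1 0 = (γ : Matrix (Fin 2) (Fin 2) ℤ) 1 0 * MP 0 0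
      + (γ : Matrix (Fin 2) (Fin 2) ℤ) 1 1 * MP 1 0 := by
    rw [hM, Matrix.mul_apply, Fin.sum_univ_two]
  have hdet : (γ : Matrix (Fin 2) (Fin 2) ℤ) 0 0 * (γ : Matrix (Fin 2) (Fin 2) ℤ) 1 1
      - (γ : Matrix (Fin 2) (Fin 2) ℤ) 0 1 * (γ : Matrix (Fin 2) (Fin 2) ℤ) 1 0 = 1 := by
    rw [← Matrix.det_fin_two]
    exact γ.det_coe
  have c00 : (((γ : Matrix (Fin 2) (Fin 2) ℤ) 0 0 : ℤ) : ZMod N) = 1 := by
    have h1 := congrArg (Int.cast : ℤ → ZMod N) e00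
    push_cast at h1
    rw [q00, p00, p10, mul_zero, add_zero] at h1
    have h2 : (((γ : Matrix (Fin 2) (Fin 2) ℤ) 0 0 : ℤ) : ZMod N) * u = 1 * u := by
      rw [one_mul]; exact h1.symm
    exact (IsUnit.mul_left_inj hu).mp h2
  have c10 : (((γ : Matrix (Fin 2) (Fin 2) ℤ) 1 0 : ℤ) : ZMod N) = 0 := by
    have h1 := congrArg (Int.cast : ℤ → ZMod N) e10
    push_cast at h1
    rw [q10, p00, p10, mul_zero, add_zero] at h1
    exact (IsUnit.mul_left_eq_zero hu).mp h1.symm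
  have c11 : (((γ : Matrix (Fin 2) (Fin 2) ℤ) 1 1 : ℤ) : ZMod N) = 1 := by
    have h1 := congrArg (Int.cast : ℤ → ZMod N) hdet
    push_cast at h1
    rw [c00, c10, mul_zero, sub_zero, one_mul] at h1
    exact h1
  rw [Gamma1_mem]
  exact ⟨c00, c11, c10⟩

/-- lowering the level -/
theorem IsA1.of_mul {q : ℕ} {α : GL (Fin 2) ℝ} (h : IsA1 (N * q) α) : IsA1 N α := by
  obtain ⟨M, hM, h00, h10⟩ := h
  refine ⟨M, hM, ?_, ?_⟩
  · have := congrArg (ZMod.castHom (Nat.dvd_mul_right N q) (ZMod N)) h00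
    rwa [map_intCast, map_one] at this
  · have := congrArg (ZMod.castHom (Nat.dvd_mul_right N q) (ZMod N)) h10
    rwa [map_intCast, map_zero] at this

end IsAu

/-! ### generic complements on coset systems -/

section Generic

open Fermat.Agent.GM.B.CosetSys

variable {H G : Type*} [Group H] [Group G] {emb : H →* G} {Γ₁ Γ₂ Γ₃ : Subgroup H}

/-- a distinct system followed by a single representative is distinct -/
theorem comp_distinct_of_subsingleton (S : CosetSys emb Γ₁ Γ₂) (S' : CosetSys emb Γ₂ Γ₃)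
    [Subsingleton S'.ι] (hS : S.Distinct) : (S.comp S').Distinct := by
  rintro ⟨i, u⟩ ⟨j, v⟩ γ hij
  have hij' : S.a i * S'.a u = emb ((γ : Γ₁) : H) * (S.a j * S'.a v) := hij
  obtain rfl := Subsingleton.elim u v
  rw [← mul_assoc] at hij'
  have := hS i j γ (mul_right_cancel hij')
  subst this
  rfl

end Generic

theorem heckeSysD_distinct {N ℓ : ℕ} [Fact ℓ.Prime] (hℓN : ¬ ℓ ∣ N) :
    (heckeSysD hℓN).Distinct := by
  unfold heckeSysD
  exact Fermat.Agent.GM.B.CosetSys.twist_distinct _ _ _ _ _ _ (heckeSys_distinct hℓN)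
    (fun κ => ⟨κ, by rw [mul_one, one_mul]⟩)

variable {N q : ℕ} [Fact q.Prime]

/-! ### the two Atkin–Lehner matrices on main agree -/

theorem wMat_eq_wMat (hqN : ¬ q ∣ N) :
    Fermat.Agent.GM.B.wMat hqN
      = Fermat.Agent.GM.B5.wMat N q (bez hqN).1 (bez hqN).2 (bez_spec hqN) := by
  unfold Fermat.Agent.GM.B.wMat Fermat.Agent.GM.B5.wMat
  rw [Fermat.Agent.GM.B.rZero_coe]
  congr 2
  apply Subtype.ext
  unfold Fermat.Agent.GM.B.repC Fermat.Agent.GM.B5.gamW mkZ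
  ext i j
  fin_cases i <;> fin_cases j <;> simp
  ring

/-! ### `IsAu` for the representatives -/

section Reps

variable (b₀ d₀ : ℤ) (hbd : (q : ℤ) * d₀ - N * b₀ = 1)

theorem isAu_wMat : IsAu N (q : ZMod N) (Fermat.Agent.GM.B5.wMat N q b₀ d₀ hbd) := by
  have hq : q ≠ 0 := (Fact.out : q.Prime).ne_zero
  unfold Fermat.Agent.GM.B5.wMat
  refine ⟨((Fermat.Agent.GM.B5.gamW N q b₀ d₀ hbd : SL(2, ℤ)) : Matrix (Fin 2) (Fin 2) ℤ)
      * !![(q : ℤ), 0; 0, (1 : ℤ)],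
    (isZ_embR _).mul (Fermat.Agent.S16.LB.SH.coe_heckeDiagMatrix hq), ?_, ?_⟩
  · rw [Matrix.mul_apply, Fin.sum_univ_two]
    simp only [Matrix.of_apply, Matrix.cons_val', Matrix.cons_val_zero, Matrix.cons_val_one,
      Matrix.cons_val_fin_one]
    unfold Fermat.Agent.GM.B5.gamW
    rw [mkZ_00, mkZ_01]
    push_cast
    ring
  · rw [Matrix.mul_apply, Fin.sum_univ_two]
    simp only [Matrix.of_apply, Matrix.cons_val', Matrix.cons_val_zero, Matrix.cons_val_one,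
      Matrix.cons_val_fin_one]
    unfold Fermat.Agent.GM.B5.gamW
    rw [mkZ_10, mkZ_11]
    push_cast
    rw [ZMod.natCast_self]
    ring

theorem isUnit_q (hqN : ¬ q ∣ N) : IsUnit (q : ZMod N) :=
  (ZMod.isUnit_iff_coprime q N).mpr ((Nat.Prime.coprime_iff_not_dvd Fact.out).mpr hqN)

end Reps

/-! ### `cores_δ = cores ∘ w'` -/

section CoresD

variable {Δ : Type} [CommGroup Δ] (θ' : (ZMod N)ˣ →* Δ)
  (hqN : ¬ q ∣ N) (b₀ d₀ : ℤ) (hbd : (q : ℤ) * d₀ - N * b₀ = 1)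

theorem gamD_mul_gamC_mem : gamD N q b₀ d₀ hbd * gamC N q b₀ d₀ hbd ∈ Gamma0 (N * q) := by
  apply mem_Gamma0_of_dvd
  have : (gamD N q b₀ d₀ hbd * gamC N q b₀ d₀ hbd) 1 0 = 2 * ((N * q : ℕ) : ℤ) := by
    rw [Matrix.SpecialLinearGroup.coe_mul, Matrix.mul_apply, Fin.sum_univ_two]
    unfold gamD gamC
    rw [mkZ_10, mkZ_00, mkZ_11, mkZ_10]
    push_cast
    ring
  rw [this]
  exact Dvd.intro_left _ rfl

/-- `γ'_∞ γ₀ ∈ Γ₀(N q)`, `d ≡ 1 mod N` -/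
def gDC : Gamma0 (N * q) :=
  ⟨gamD N q b₀ d₀ hbd * gamC N q b₀ d₀ hbd, gamD_mul_gamC_mem b₀ d₀ hbd⟩

theorem chi_gDC : chi (thQ θ' q) (gDC b₀ d₀ hbd) = 1 := by
  rw [chi_thQ_eq θ' (gDC b₀ d₀ hbd) 1, map_one]
  rw [Units.val_one]
  show ((((gamD N q b₀ d₀ hbd * gamC N q b₀ d₀ hbd) 1 1 : ℤ)) : ZMod N) = 1
  rw [Matrix.SpecialLinearGroup.coe_mul, Matrix.mul_apply, Fin.sum_univ_two]
  unfold gamD gamC
  rw [mkZ_10, mkZ_01, mkZ_11, mkZ_11]
  push_cast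
  rw [ZMod.natCast_self, zero_mul, zero_add]
  have h := cast_q_mul_d₀ b₀ d₀ hbd
  rw [Int.cast_natCast] at h
  exact h

/-- the connecting elements of `cores_δ = cores ∘ w'` -/
noncomputable def gamCD (y : OnePoint (ZMod q)) : GammaH (thQ θ' q) :=
  y.elim 1 (fun _ => kerMk (chi (thQ θ' q)) (gDC b₀ d₀ hbd)⁻¹ (by
    rw [map_inv, chi_gDC, inv_one]))

/-- **`cores_δ = cores ∘ w'`** on `Hom(Γ_H(θ), A)` -/
theorem coresDH_eq {A : Type*} [AddCommGroup A] (ψ : Additive (GammaH (thQ θ' q)) →+ A) :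
    (coresDHSys θ' hqN b₀ d₀ hbd).op A ψ
      = (coresHSys θ' hqN b₀ d₀ hbd).op A ((wDHSys θ' b₀ d₀ hbd).op A ψ) := by
  rw [← CosetSys.op_comp]
  refine CosetSys.op_eq_of_equiv ((wDHSys θ' b₀ d₀ hbd).comp (coresHSys θ' hqN b₀ d₀ hbd))
    (coresDHSys θ' hqN b₀ d₀ hbd) embR_injective (Equiv.punitProd (OnePoint (ZMod q))) 1
    (fun x => by rw [one_mul, mul_one]) (fun p => gamCD θ' b₀ d₀ hbd p.2) ?_ ?_ ψ
  · rintro ⟨⟨⟩, (y : OnePoint (ZMod q))⟩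
    induction y using OnePoint.rec with
    | infty =>
      show 1 * embR (gamD N q b₀ d₀ hbd) * heckeRep q ∞
        = 1 * embR ((1 : GammaH (thQ θ' q)) : SL(2, ℤ))
          * (wDMat N q b₀ d₀ hbd * ((dlt q)⁻¹ * embR ((1 : Gamma0 N) : SL(2, ℤ)) * heckeRep q ∞))
      rw [Subgroup.coe_one, Subgroup.coe_one, map_one, heckeRep_infty, wDMat_eq]
      group
    | coe j =>
      show 1 * embR ((1 : Gamma0 N) : SL(2, ℤ)) * heckeRep q (j : OnePoint (ZMod q))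
        = 1 * embR ((gamD N q b₀ d₀ hbd * gamC N q b₀ d₀ hbd)⁻¹)
          * (wDMat N q b₀ d₀ hbd * ((dlt q)⁻¹ * embR (gamC N q b₀ d₀ hbd)
              * heckeRep q (j : OnePoint (ZMod q))))
      rw [Subgroup.coe_one, map_one, wDMat_eq, map_inv, map_mul]
      group
  · rintro g ⟨⟨⟩, (y : OnePoint (ZMod q))⟩
    rfl

end CoresD

/-! ### `w_q` commutes with `T_ℓ` -/

section WT

open Fermat.Agent.GM.B5 (natCast_ne_zero_of_not_dvd_mul idxW kapW kapW_spec)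

variable {Δ : Type} [CommGroup Δ] (θ' : (ZMod N)ˣ →* Δ) (hqN : ¬ q ∣ N)
  {ℓ : ℕ} [Fact ℓ.Prime] (hℓ : ¬ ℓ ∣ N * q)

/-- the connecting elements of `w_q T_ℓ = T_ℓ w_q` for the `σ_ℓ`-twisted Hecke system -/
noncomputable def gamT (x : OnePoint (ZMod ℓ)) : Gamma0 (N * q) :=
  twG hℓ (idxW hqN (natCast_ne_zero_of_not_dvd_mul hℓ) x) * kapW hqN hℓ x
    * (Fermat.Agent.GM.B5.cW N q (bez hqN).1 (bez hqN).2 (bez_spec hqN) (twG hℓ x))⁻¹

theorem gamT_spec (x : OnePoint (ZMod ℓ)) :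
    (heckeSysD hℓ).a (idxW hqN (natCast_ne_zero_of_not_dvd_mul hℓ) x)
        * Fermat.Agent.GM.B5.wMat N q (bez hqN).1 (bez hqN).2 (bez_spec hqN)
      = embR ((gamT hqN hℓ x : Gamma0 (N * q)) : SL(2, ℤ))
        * (Fermat.Agent.GM.B5.wMat N q (bez hqN).1 (bez hqN).2 (bez_spec hqN)
          * (heckeSysD hℓ).a x) := by
  have h1 := kapW_spec hqN hℓ x
  rw [wMat_eq_wMat] at h1
  have h2 := Fermat.Agent.GM.B5.wMat_rel N q (bez hqN).1 (bez hqN).2 (bez_spec hqN) (twG hℓ x)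
  rw [heckeSysD_a, heckeSysD_a, one_mul, one_mul]
  unfold gamT
  simp only [Subgroup.coe_mul, Subgroup.coe_inv, map_mul, map_inv]
  rw [mul_assoc (embR _) (heckeRep ℓ _), h1,
    ← mul_assoc (Fermat.Agent.GM.B5.wMat N q (bez hqN).1 (bez hqN).2 (bez_spec hqN)), h2]
  group

theorem chi_gamT (x : OnePoint (ZMod ℓ)) : chi (thQ θ' q) (gamT hqN hℓ x) = 1 := by
  have hmem : ((gamT hqN hℓ x : Gamma0 (N * q)) : SL(2, ℤ)) ∈ Gamma1 N := by
    refine mem_Gamma1_of_isAu (isUnit_q hqN)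
      (P := Fermat.Agent.GM.B5.wMat N q (bez hqN).1 (bez hqN).2 (bez_spec hqN)
        * (heckeSysD hℓ).a x)
      (Q := (heckeSysD hℓ).a (idxW hqN (natCast_ne_zero_of_not_dvd_mul hℓ) x)
        * Fermat.Agent.GM.B5.wMat N q (bez hqN).1 (bez hqN).2 (bez_spec hqN)) ?_ ?_ _
      (gamT_spec hqN hℓ x)
    · have := (isAu_wMat (bez hqN).1 (bez hqN).2 (bez_spec hqN)).mul
        (isAu_of_isA1 (IsA1.of_mul (isA1_heckeSysD hℓ x)))
      rwa [mul_one] at this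
    · have := (isAu_of_isA1 (IsA1.of_mul (isA1_heckeSysD hℓ
        (idxW hqN (natCast_ne_zero_of_not_dvd_mul hℓ) x)))).mul
        (isAu_wMat (bez hqN).1 (bez hqN).2 (bez_spec hqN))
      rwa [one_mul] at this
  rw [chi_thQ_eq θ' (gamT hqN hℓ x) 1, map_one]
  rw [Units.val_one]
  exact ((Gamma1_mem N _).mp hmem).2.1

/-- **`w_q ∘ T_ℓ = T_ℓ ∘ w_q`** on `Hom(Γ_H(θ), A)` (`ℓ ∤ N q`) -/
theorem wq_TH {A : Type*} [AddCommGroup A] (ψ : Additive (GammaH (thQ θ' q)) →+ A) :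
    wq θ' hqN A (TH (thQ θ' q) A hℓ ψ) = TH (thQ θ' q) A hℓ (wq θ' hqN A ψ) := by
  unfold wq TH
  rw [← CosetSys.op_comp, ← CosetSys.op_comp]
  have : Subsingleton (wHSys θ' (bez hqN).1 (bez hqN).2 (bez_spec hqN)).ι :=
    (inferInstance : Subsingleton Unit)
  refine CosetSys.op_eq_of_cosets
    ((wHSys θ' (bez hqN).1 (bez hqN).2 (bez_spec hqN)).comp (heckeSysH (thQ θ' q) hℓ))
    ((heckeSysH (thQ θ' q) hℓ).comp (wHSys θ' (bez hqN).1 (bez hqN).2 (bez_spec hqN)))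
    embR_injective
    (comp_distinct_of_subsingleton _ _
      (kerSys_distinct (chi (thQ θ' q)) (heckeSysD hℓ) (compat_heckeSysD (thQ θ' q) hℓ)
        (heckeSysD_distinct hℓ)))
    ((Equiv.punitProd (OnePoint (ZMod ℓ))).trans
      ((idxW hqN (natCast_ne_zero_of_not_dvd_mul hℓ)).trans
        (Equiv.prodPUnit (OnePoint (ZMod ℓ))).symm))
    1 (fun x => by rw [one_mul, mul_one])
    (fun p => kerMk (chi (thQ θ' q)) (gamT hqN hℓ p.2) (chi_gamT θ' hqN hℓ p.2)) ?_ ψ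
  rintro ⟨u, (x : OnePoint (ZMod ℓ))⟩
  show (heckeSysD hℓ).a (idxW hqN (natCast_ne_zero_of_not_dvd_mul hℓ) x)
      * Fermat.Agent.GM.B5.wMat N q (bez hqN).1 (bez hqN).2 (bez_spec hqN)
    = 1 * embR ((gamT hqN hℓ x : Gamma0 (N * q)) : SL(2, ℤ))
      * (Fermat.Agent.GM.B5.wMat N q (bez hqN).1 (bez hqN).2 (bez_spec hqN)
        * (heckeSysD hℓ).a x)
  rw [one_mul]
  exact gamT_spec hqN hℓ x

end WT

/-! ### `w_q` commutes with `U_r` -/

section WU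

open Fermat.Agent.GB.B8.LevelU (idxU kapU kapU_spec uSys_distinct uSys_a)
open Fermat.Agent.GM.B5 (uSys)

variable {Δ : Type} [CommGroup Δ] (θ' : (ZMod N)ˣ →* Δ) (hqN : ¬ q ∣ N)
  {r : ℕ} [Fact r.Prime] (hrN : r ∣ N)

theorem kapU_spec' (x : ZMod r) :
    (uSys (Dvd.dvd.mul_right hrN q)).a (idxU hqN hrN x)
        * Fermat.Agent.GM.B5.wMat N q (bez hqN).1 (bez hqN).2 (bez_spec hqN)
      = embR ((kapU hqN hrN x : Gamma0 (N * q)) : SL(2, ℤ))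
        * (Fermat.Agent.GM.B5.wMat N q (bez hqN).1 (bez hqN).2 (bez_spec hqN)
          * (uSys (Dvd.dvd.mul_right hrN q)).a x) := by
  have h1 := kapU_spec hqN hrN x
  rw [wMat_eq_wMat] at h1
  exact h1

theorem chi_kapU (x : ZMod r) : chi (thQ θ' q) (kapU hqN hrN x) = 1 := by
  have hmem : ((kapU hqN hrN x : Gamma0 (N * q)) : SL(2, ℤ)) ∈ Gamma1 N := by
    refine mem_Gamma1_of_isAu (isUnit_q hqN)
      (P := Fermat.Agent.GM.B5.wMat N q (bez hqN).1 (bez hqN).2 (bez_spec hqN)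
        * (uSys (Dvd.dvd.mul_right hrN q)).a x)
      (Q := (uSys (Dvd.dvd.mul_right hrN q)).a (idxU hqN hrN x)
        * Fermat.Agent.GM.B5.wMat N q (bez hqN).1 (bez hqN).2 (bez_spec hqN)) ?_ ?_ _
      (kapU_spec' hqN hrN x)
    · have := (isAu_wMat (bez hqN).1 (bez hqN).2 (bez_spec hqN)).mul
        (isAu_of_isA1 (IsA1.of_mul (isA1_uSys (Dvd.dvd.mul_right hrN q) x)))
      rwa [mul_one] at this
    · have := (isAu_of_isA1 (IsA1.of_mul (isA1_uSys (Dvd.dvd.mul_right hrN q)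
        (idxU hqN hrN x)))).mul (isAu_wMat (bez hqN).1 (bez hqN).2 (bez_spec hqN))
      rwa [one_mul] at this
  rw [chi_thQ_eq θ' (kapU hqN hrN x) 1, map_one]
  rw [Units.val_one]
  exact ((Gamma1_mem N _).mp hmem).2.1

/-- **`w_q ∘ U_r = U_r ∘ w_q`** on `Hom(Γ_H(θ), A)` (`r ∣ N`) -/
theorem wq_UH {A : Type*} [AddCommGroup A] (ψ : Additive (GammaH (thQ θ' q)) →+ A) :
    wq θ' hqN A (UH (thQ θ' q) A (Dvd.dvd.mul_right hrN q) ψ)
      = UH (thQ θ' q) A (Dvd.dvd.mul_right hrN q) (wq θ' hqN A ψ) := by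
  unfold wq UH
  rw [← CosetSys.op_comp, ← CosetSys.op_comp]
  have : Subsingleton (wHSys θ' (bez hqN).1 (bez hqN).2 (bez_spec hqN)).ι :=
    (inferInstance : Subsingleton Unit)
  refine CosetSys.op_eq_of_cosets
    ((wHSys θ' (bez hqN).1 (bez hqN).2 (bez_spec hqN)).comp
      (uSysH (thQ θ' q) (Dvd.dvd.mul_right hrN q)))
    ((uSysH (thQ θ' q) (Dvd.dvd.mul_right hrN q)).comp
      (wHSys θ' (bez hqN).1 (bez hqN).2 (bez_spec hqN)))
    embR_injective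
    (comp_distinct_of_subsingleton _ _
      (kerSys_distinct (chi (thQ θ' q)) (uSys (Dvd.dvd.mul_right hrN q))
        (compat_uSys (thQ θ' q) (Dvd.dvd.mul_right hrN q))
        (uSys_distinct (Dvd.dvd.mul_right hrN q))))
    ((Equiv.punitProd (ZMod r)).trans
      ((idxU hqN hrN).trans (Equiv.prodPUnit (ZMod r)).symm))
    1 (fun x => by rw [one_mul, mul_one])
    (fun p => kerMk (chi (thQ θ' q)) (kapU hqN hrN p.2) (chi_kapU θ' hqN hrN p.2)) ?_ ψ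
  rintro ⟨u, (x : ZMod r)⟩
  show (uSys (Dvd.dvd.mul_right hrN q)).a (idxU hqN hrN x)
      * Fermat.Agent.GM.B5.wMat N q (bez hqN).1 (bez hqN).2 (bez_spec hqN)
    = 1 * embR ((kapU hqN hrN x : Gamma0 (N * q)) : SL(2, ℤ))
      * (Fermat.Agent.GM.B5.wMat N q (bez hqN).1 (bez hqN).2 (bez_spec hqN)
        * (uSys (Dvd.dvd.mul_right hrN q)).a x)
  rw [one_mul]
  exact kapU_spec' hqN hrN x

end WU

/-! ### consequences: `w'_q` and `cores_{q,δ}` -/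

section Final

variable {Δ : Type} [CommGroup Δ] (θ' : (ZMod N)ˣ →* Δ) (hqN : ¬ q ∣ N)
  {A : Type*} [AddCommGroup A]

/-- `w'_q = w_q ∘ ⟨γ''⟩` -/
theorem wDq_eq (ψ : Additive (GammaH (thQ θ' q)) →+ A) :
    wDq θ' hqN A ψ
      = wq θ' hqN A (diaH (thQ θ' q) A (gAL N q (bez hqN).1 (bez hqN).2 (bez_spec hqN)) ψ) :=
  wDH_eq θ' (bez hqN).1 (bez hqN).2 (bez_spec hqN) ψ

/-- **`cores_{q,δ} = cores_q ∘ w'_q`** -/
theorem coresDq_eq (ψ : Additive (GammaH (thQ θ' q)) →+ A) :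
    coresDq θ' hqN A ψ = coresq θ' hqN A (wDq θ' hqN A ψ) :=
  coresDH_eq θ' hqN (bez hqN).1 (bez hqN).2 (bez_spec hqN) ψ

/-- **`w'_q ∘ T_ℓ = T_ℓ ∘ w'_q`** on `Hom(Γ_H(θ), A)` (`ℓ ∤ N q`) -/
theorem wDq_TH {ℓ : ℕ} [Fact ℓ.Prime] (hℓ : ¬ ℓ ∣ N * q)
    (ψ : Additive (GammaH (thQ θ' q)) →+ A) :
    wDq θ' hqN A (TH (thQ θ' q) A hℓ ψ) = TH (thQ θ' q) A hℓ (wDq θ' hqN A ψ) := by
  rw [wDq_eq, wDq_eq, diaH_TH, wq_TH]

/-- **`w'_q ∘ U_r = U_r ∘ w'_q`** on `Hom(Γ_H(θ), A)` (`r ∣ N`) -/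
theorem wDq_UH {r : ℕ} [Fact r.Prime] (hrN : r ∣ N) (ψ : Additive (GammaH (thQ θ' q)) →+ A) :
    wDq θ' hqN A (UH (thQ θ' q) A (Dvd.dvd.mul_right hrN q) ψ)
      = UH (thQ θ' q) A (Dvd.dvd.mul_right hrN q) (wDq θ' hqN A ψ) := by
  rw [wDq_eq, wDq_eq, diaH_UH, wq_UH θ' hqN hrN]

/-- the Atkin–Lehner operators commute with the diamond operators -/
theorem wq_diaH (d : Gamma0 (N * q)) (ψ : Additive (GammaH (thQ θ' q)) →+ A) :
    wq θ' hqN A (diaH (thQ θ' q) A d ψ) = diaH (thQ θ' q) A d (wq θ' hqN A ψ) :=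
  (dia_kerSys_op embR_injective
    (Fermat.Agent.GM.B5.wSys N q (bez hqN).1 (bez hqN).2 (bez_spec hqN))
    (chi (thQ θ' q)) (compat_wSys θ' (bez hqN).1 (bez hqN).2 (bez_spec hqN)) d ψ).symm

theorem wDq_diaH (d : Gamma0 (N * q)) (ψ : Additive (GammaH (thQ θ' q)) →+ A) :
    wDq θ' hqN A (diaH (thQ θ' q) A d ψ) = diaH (thQ θ' q) A d (wDq θ' hqN A ψ) :=
  (dia_kerSys_op embR_injective
    (wDSys N q (bez hqN).1 (bez hqN).2 (bez_spec hqN))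
    (chi (thQ θ' q)) (compat_wDSys (bez hqN).1 (bez hqN).2 (bez_spec hqN) θ') d ψ).symm

/-- **equivariance of `cores_{q,δ}` for `T_ℓ` from that of `cores_q`** -/
theorem coresDq_TH_of {ℓ : ℕ} [Fact ℓ.Prime] (hℓ : ¬ ℓ ∣ N * q) (hℓN : ¬ ℓ ∣ N)
    (hc : ∀ ψ : Additive (GammaH (thQ θ' q)) →+ A,
      coresq θ' hqN A (TH (thQ θ' q) A hℓ ψ) = TH θ' A hℓN (coresq θ' hqN A ψ))
    (ψ : Additive (GammaH (thQ θ' q)) →+ A) :
    coresDq θ' hqN A (TH (thQ θ' q) A hℓ ψ) = TH θ' A hℓN (coresDq θ' hqN A ψ) := by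
  rw [coresDq_eq, coresDq_eq, wDq_TH, hc]

/-- **equivariance of `cores_{q,δ}` for `U_r` from that of `cores_q`** -/
theorem coresDq_UH_of {r : ℕ} [Fact r.Prime] (hrN : r ∣ N)
    (hc : ∀ ψ : Additive (GammaH (thQ θ' q)) →+ A,
      coresq θ' hqN A (UH (thQ θ' q) A (Dvd.dvd.mul_right hrN q) ψ)
        = UH θ' A hrN (coresq θ' hqN A ψ))
    (ψ : Additive (GammaH (thQ θ' q)) →+ A) :
    coresDq θ' hqN A (UH (thQ θ' q) A (Dvd.dvd.mul_right hrN q) ψ)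
      = UH θ' A hrN (coresDq θ' hqN A ψ) := by
  rw [coresDq_eq, coresDq_eq, wDq_UH θ' hqN hrN, hc]

/-- **equivariance of `cores_{q,δ}` for the diamond operators from that of `cores_q`** -/
theorem coresDq_diaH_of (d : Gamma0 (N * q)) (d' : Gamma0 N)
    (hc : ∀ ψ : Additive (GammaH (thQ θ' q)) →+ A,
      coresq θ' hqN A (diaH (thQ θ' q) A d ψ) = diaH θ' A d' (coresq θ' hqN A ψ))
    (ψ : Additive (GammaH (thQ θ' q)) →+ A) :
    coresDq θ' hqN A (diaH (thQ θ' q) A d ψ) = diaH θ' A d' (coresDq θ' hqN A ψ) := by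
  rw [coresDq_eq, coresDq_eq, wDq_diaH, hc]

end Final

end Fermat.Agent.GB.B7.UqEquivD
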