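/-
GATE-B / B7 leaf (D-U2)(c), ASSEMBLY (helper83): the equivariance of the two `q`-degeneracy
transfers `coresq`, `coresDq : Hom(Γ_H(θ), A) → Hom(Γ_H(θ'), A)` (`θ = thQ θ' q`, `q ∤ N`) for
`T_ℓ` (`ℓ ∤ N q`), `U_r` (`r ∣ N` prime) and the diamond operators, in one place.

* `coresq_TH`, `coresq_UH`, `coresq_diaH`, `coresDq_diaH` : helper97's `GB/B7/UqEquiv.lean`
  (restated for convenience);
* `coresDq_TH`, `coresDq_UH` : from `GB/B7/UqEquivD.lean` (`coresDq = coresq ∘ w'_q`, `w'_q` commutes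
  with `T_ℓ`, `U_r`) and helper97's `coresq_TH`, `coresq_UH`;
* `UH_UH_of_ker` (`GB/B7/UqSq.lean`) is the statement these feed: `U_q² = ⟨q⟩` on
  `ker coresq ∩ ker coresDq`.
-/
import Mathlib
import Fermat.Agent.GB.B7.UqEquiv
import Fermat.Agent.GB.B7.UqEquivD

set_option autoImplicit false
set_option linter.unusedSectionVars false

open scoped MatrixGroups
open CongruenceSubgroup Matrix Matrix.SpecialLinearGroup
open Fermat.Agent.GM.B (not_dvd_of_not_dvd_mul)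
open Fermat.Agent.GM.Amalgam (degenOne)
open Fermat.Agent.GB.B3 Fermat.Agent.GB.B3.EisGamma0 Fermat.Agent.GB.B3.GamH
open Fermat.Agent.GB.B7.UqSq

namespace Fermat.Agent.GB.B7.UqEquivAll

variable {N q : ℕ} [Fact q.Prime] {Δ : Type} [CommGroup Δ] (θ' : (ZMod N)ˣ →* Δ)
  (hqN : ¬ q ∣ N) {A : Type*} [AddCommGroup A]

/-- **`coresDq ∘ T_ℓ = T_ℓ ∘ coresDq`** (`ℓ ∤ N q`) -/
theorem coresDq_TH {ℓ : ℕ} [Fact ℓ.Prime] (hℓ : ¬ ℓ ∣ N * q)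
    (ν : Additive (GammaH (thQ θ' q)) →+ A) :
    coresDq θ' hqN A (TH (thQ θ' q) A hℓ ν)
      = TH θ' A (not_dvd_of_not_dvd_mul hℓ) (coresDq θ' hqN A ν) :=
  UqEquivD.coresDq_TH_of θ' hqN hℓ (not_dvd_of_not_dvd_mul hℓ)
    (UqEquiv.coresq_TH θ' hqN hℓ) ν

/-- **`coresDq ∘ U_r = U_r ∘ coresDq`** (`r ∣ N` prime) -/
theorem coresDq_UH {r : ℕ} [Fact r.Prime] (hrN : r ∣ N)
    (ν : Additive (GammaH (thQ θ' q)) →+ A) :
    coresDq θ' hqN A (UH (thQ θ' q) A (Dvd.dvd.mul_right hrN q) ν)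
      = UH θ' A hrN (coresDq θ' hqN A ν) :=
  UqEquivD.coresDq_UH_of θ' hqN hrN (UqEquiv.coresq_UH θ' hqN hrN) ν

/-- **`coresq ∘ T_ℓ = T_ℓ ∘ coresq`** (`ℓ ∤ N q`) (helper97) -/
theorem coresq_TH {ℓ : ℕ} [Fact ℓ.Prime] (hℓ : ¬ ℓ ∣ N * q)
    (ν : Additive (GammaH (thQ θ' q)) →+ A) :
    coresq θ' hqN A (TH (thQ θ' q) A hℓ ν)
      = TH θ' A (not_dvd_of_not_dvd_mul hℓ) (coresq θ' hqN A ν) :=
  UqEquiv.coresq_TH θ' hqN hℓ ν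

/-- **`coresq ∘ U_r = U_r ∘ coresq`** (`r ∣ N` prime) (helper97) -/
theorem coresq_UH {r : ℕ} [Fact r.Prime] (hrN : r ∣ N)
    (ν : Additive (GammaH (thQ θ' q)) →+ A) :
    coresq θ' hqN A (UH (thQ θ' q) A (Dvd.dvd.mul_right hrN q) ν)
      = UH θ' A hrN (coresq θ' hqN A ν) :=
  UqEquiv.coresq_UH θ' hqN hrN ν

/-- **`coresq ∘ ⟨d⟩ = ⟨d⟩ ∘ coresq`** (helper97) -/
theorem coresq_diaH (d : Gamma0 (N * q)) (ν : Additive (GammaH (thQ θ' q)) →+ A) :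
    coresq θ' hqN A (diaH (thQ θ' q) A d ν) = diaH θ' A (degenOne N q d) (coresq θ' hqN A ν) :=
  UqEquiv.coresq_diaH_degenOne θ' hqN d ν

/-- **`coresDq ∘ ⟨d⟩ = ⟨d⟩ ∘ coresDq`** (helper97) -/
theorem coresDq_diaH (d : Gamma0 (N * q)) (ν : Additive (GammaH (thQ θ' q)) →+ A) :
    coresDq θ' hqN A (diaH (thQ θ' q) A d ν) = diaH θ' A (degenOne N q d) (coresDq θ' hqN A ν) :=
  UqEquiv.coresDq_diaH_degenOne θ' hqN d ν

/-- **the `q`-new part is stable** under `T_ℓ` (`ℓ ∤ N q`): if `coresq ν = 0 = coresDq ν` then the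
same holds for `T_ℓ ν` -/
theorem ker_TH {ℓ : ℕ} [Fact ℓ.Prime] (hℓ : ¬ ℓ ∣ N * q)
    (ν : Additive (GammaH (thQ θ' q)) →+ A)
    (h1 : coresq θ' hqN A ν = 0) (h2 : coresDq θ' hqN A ν = 0) :
    coresq θ' hqN A (TH (thQ θ' q) A hℓ ν) = 0 ∧ coresDq θ' hqN A (TH (thQ θ' q) A hℓ ν) = 0 := by
  rw [coresq_TH, coresDq_TH, h1, h2, map_zero]
  exact ⟨rfl, rfl⟩

end Fermat.Agent.GB.B7.UqEquivAll
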