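/-
GATE-B / node GB-B7-DESC, sub-leaf GROUP (helper10): the group lemma of the descent
`f(z) = f'(pz)` (Miyake 4.6.5, step 3).  Mathlib only.

For a prime `p` and ANY level `L` (no hypothesis `p ∣ L` or `p ∤ L`):

* `Gamma0Up L p`          : the subgroup `Γ₀(L) ∩ Γ⁰(p)` of `SL(2,ℤ)`
                            (`L ∣ γ₁₀` and `p ∣ γ₀₁`);
* `exists_zpow_mul_mem`   : every `γ ∈ Γ₀(L)` is `T^(-i) γ' T^(-j)` with `γ' ∈ Γ₀(L) ∩ Γ⁰(p)`,
                            i.e. `T^i γ T^j ∈ Γ₀(L) ∩ Γ⁰(p)` for suitable `i j : ℤ`;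
* `gamma0_le_of_T_mem_of_le` : a subgroup containing `T` and `Γ₀(L) ∩ Γ⁰(p)` contains `Γ₀(L)`
                            (apply it to the stabiliser of `g(z) = f(z/p)`);
* `closure_eq_gamma0`     : `⟨T, Γ₀(L) ∩ Γ⁰(p)⟩ = Γ₀(L)`;
* `gamma0_induction`      : predicate form of the same;
* `conjDown p γ h`        : for `γ = [a, b; c, d]` with `p ∣ b` the matrix `[a, b/p; c p, d]`
                            (`(γ z)/p = (conjDown γ)(z/p)`), `conjDown_mem_gamma0 :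
                            γ ∈ Γ₀(L') ∩ Γ⁰(p) → conjDown p γ _ ∈ Γ₀(L' p)`.
-/
import Mathlib

set_option autoImplicit false

namespace Fermat.Agent.GB.B7.DescGroup

open Matrix ModularGroup CongruenceSubgroup
open scoped MatrixGroups

/-- `Γ₀(L) ∩ Γ⁰(p)`: lower-left entry divisible by `L`, upper-right entry divisible by `p`. -/
def Gamma0Up (L p : ℕ) : Subgroup SL(2, ℤ) where
  carrier := {γ | (L : ℤ) ∣ γ 1 0 ∧ (p : ℤ) ∣ γ 0 1}
  one_mem' := by simp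
  mul_mem' := by
    rintro γ γ' ⟨h1, h2⟩ ⟨h1', h2'⟩
    refine ⟨?_, ?_⟩
    · have : (γ * γ') 1 0 = γ 1 0 * γ' 0 0 + γ 1 1 * γ' 1 0 := by
        simp [Matrix.SpecialLinearGroup.coe_mul, Matrix.mul_apply, Fin.sum_univ_two]
      rw [this]
      exact dvd_add (Dvd.dvd.mul_right h1 _) (Dvd.dvd.mul_left h1' _)
    · have : (γ * γ') 0 1 = γ 0 0 * γ' 0 1 + γ 0 1 * γ' 1 1 := by
        simp [Matrix.SpecialLinearGroup.coe_mul, Matrix.mul_apply, Fin.sum_univ_two]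
      rw [this]
      exact dvd_add (Dvd.dvd.mul_left h2' _) (Dvd.dvd.mul_right h2 _)
  inv_mem' := by
    rintro γ ⟨h1, h2⟩
    refine ⟨?_, ?_⟩
    · have : (γ⁻¹) 1 0 = -γ 1 0 := by
        simp [Matrix.SpecialLinearGroup.SL2_inv_expl]
      rw [this]
      exact (dvd_neg).mpr h1
    · have : (γ⁻¹) 0 1 = -γ 0 1 := by
        simp [Matrix.SpecialLinearGroup.SL2_inv_expl]
      rw [this]
      exact (dvd_neg).mpr h2

theorem mem_gamma0Up {L p : ℕ} {γ : SL(2, ℤ)} :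
    γ ∈ Gamma0Up L p ↔ (L : ℤ) ∣ γ 1 0 ∧ (p : ℤ) ∣ γ 0 1 := Iff.rfl

theorem gamma0_mem_iff_dvd {L : ℕ} {γ : SL(2, ℤ)} : γ ∈ Gamma0 L ↔ (L : ℤ) ∣ γ 1 0 := by
  rw [Gamma0_mem, ZMod.intCast_zmod_eq_zero_iff_dvd]

theorem gamma0Up_le_gamma0 (L p : ℕ) : Gamma0Up L p ≤ Gamma0 L := fun _ h =>
  gamma0_mem_iff_dvd.mpr h.1

theorem T_mem_gamma0 (L : ℕ) : T ∈ Gamma0 L := by
  rw [gamma0_mem_iff_dvd]
  simp [ModularGroup.T]

/-- entries of `T^i γ T^j` -/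
theorem zpow_mul_mul_zpow_apply (γ : SL(2, ℤ)) (i j : ℤ) :
    (T ^ i * γ * T ^ j) 0 1 = (γ 0 0 + i * γ 1 0) * j + γ 0 1 + i * γ 1 1 ∧
      (T ^ i * γ * T ^ j) 1 0 = γ 1 0 := by
  have h : ((T ^ i * γ * T ^ j : SL(2, ℤ)) : Matrix (Fin 2) (Fin 2) ℤ)
      = !![1, i; 0, 1] * !![γ 0 0, γ 0 1; γ 1 0, γ 1 1] * !![1, j; 0, 1] := by
    rw [Matrix.SpecialLinearGroup.coe_mul, Matrix.SpecialLinearGroup.coe_mul,
      ModularGroup.coe_T_zpow, ModularGroup.coe_T_zpow, ← Matrix.eta_fin_two (γ : Matrix _ _ ℤ)]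
  rw [Matrix.mul_fin_two, Matrix.mul_fin_two] at h
  constructor
  · rw [h]
    simp
    ring
  · rw [h]
    simp

/-- **the group lemma**: for every `γ ∈ SL(2,ℤ)` there are `i j` with `T^i γ T^j ∈ Γ⁰(p)`;
the lower-left entry is unchanged. -/
theorem exists_zpow_mul (p : ℕ) (hp : p.Prime) (γ : SL(2, ℤ)) :
    ∃ i j : ℤ, (p : ℤ) ∣ (T ^ i * γ * T ^ j) 0 1 ∧ (T ^ i * γ * T ^ j) 1 0 = γ 1 0 := by
  have := Fact.mk hp
  have hdet : γ 0 0 * γ 1 1 - γ 0 1 * γ 1 0 = 1 := by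
    have := γ.det_coe
    rw [Matrix.det_fin_two] at this
    exact this
  -- choose `i ∈ {0, 1}` with `a + i c` invertible mod `p`
  obtain ⟨i, hi⟩ : ∃ i : ℤ, ((γ 0 0 + i * γ 1 0 : ℤ) : ZMod p) ≠ 0 := by
    by_cases ha : ((γ 0 0 : ℤ) : ZMod p) = 0
    · refine ⟨1, ?_⟩
      intro h
      have hc : ((γ 1 0 : ℤ) : ZMod p) = 0 := by
        push_cast at h
        rw [ha] at h
        simpa using h
      have := congrArg (fun x : ℤ => (x : ZMod p)) hdet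
      simp only [Int.cast_sub, Int.cast_mul, Int.cast_one, ha, hc, zero_mul, mul_zero,
        sub_zero] at this
      exact zero_ne_one this
    · exact ⟨0, by simpa using ha⟩
  set x : ZMod p := ((γ 0 0 + i * γ 1 0 : ℤ) : ZMod p) with hx
  obtain ⟨j, hj⟩ := ZMod.intCast_surjective (-(((γ 0 1 + i * γ 1 1 : ℤ) : ZMod p)) * x⁻¹)
  refine ⟨i, j, ?_, (zpow_mul_mul_zpow_apply γ i j).2⟩
  rw [(zpow_mul_mul_zpow_apply γ i j).1, ← ZMod.intCast_zmod_eq_zero_iff_dvd]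
  have : (((γ 0 0 + i * γ 1 0) * j + γ 0 1 + i * γ 1 1 : ℤ) : ZMod p)
      = x * (j : ZMod p) + ((γ 0 1 + i * γ 1 1 : ℤ) : ZMod p) := by
    rw [hx]; push_cast; ring
  rw [this, hj]
  field_simp
  ring

/-- every `γ ∈ Γ₀(L)` has `T^i γ T^j ∈ Γ₀(L) ∩ Γ⁰(p)` for suitable `i j`. -/
theorem exists_zpow_mul_mem (L p : ℕ) (hp : p.Prime) {γ : SL(2, ℤ)} (hγ : γ ∈ Gamma0 L) :
    ∃ i j : ℤ, T ^ i * γ * T ^ j ∈ Gamma0Up L p := by
  obtain ⟨i, j, h1, h2⟩ := exists_zpow_mul p hp γ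
  exact ⟨i, j, by rw [h2]; exact gamma0_mem_iff_dvd.mp hγ, h1⟩

/-- a subgroup containing `T` and `Γ₀(L) ∩ Γ⁰(p)` contains `Γ₀(L)`. -/
theorem gamma0_le_of_T_mem_of_le (L p : ℕ) (hp : p.Prime) {H : Subgroup SL(2, ℤ)} (hT : T ∈ H)
    (hH : Gamma0Up L p ≤ H) : Gamma0 L ≤ H := by
  intro γ hγ
  obtain ⟨i, j, h⟩ := exists_zpow_mul_mem L p hp hγ
  have h1 := hH h
  have h2 : γ = T ^ (-i) * (T ^ i * γ * T ^ j) * T ^ (-j) := by
    group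
  rw [h2]
  exact H.mul_mem (H.mul_mem (H.zpow_mem hT _) h1) (H.zpow_mem hT _)

/-- `⟨T, Γ₀(L) ∩ Γ⁰(p)⟩ = Γ₀(L)` -/
theorem closure_eq_gamma0 (L p : ℕ) (hp : p.Prime) :
    Subgroup.closure (insert T (Gamma0Up L p : Set SL(2, ℤ))) = Gamma0 L := by
  apply le_antisymm
  · rw [Subgroup.closure_le]
    intro γ hγ
    rcases hγ with rfl | hγ
    · exact T_mem_gamma0 L
    · exact gamma0Up_le_gamma0 L p hγ
  · apply gamma0_le_of_T_mem_of_le L p hp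
    · exact Subgroup.subset_closure (Set.mem_insert _ _)
    · exact fun γ hγ => Subgroup.subset_closure (Set.mem_insert_of_mem _ hγ)

/-- a predicate stable under products and inverses that holds for `T` and on `Γ₀(L) ∩ Γ⁰(p)`
holds on `Γ₀(L)` (predicate form, for stabilisers that are not packaged as subgroups). -/
theorem gamma0_induction (L p : ℕ) (hp : p.Prime) (P : SL(2, ℤ) → Prop) (h1 : P 1)
    (hmul : ∀ g h, P g → P h → P (g * h)) (hinv : ∀ g, P g → P g⁻¹) (hT : P T)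
    (hP : ∀ γ ∈ Gamma0Up L p, P γ) {γ : SL(2, ℤ)} (hγ : γ ∈ Gamma0 L) : P γ := by
  let H : Subgroup SL(2, ℤ) :=
    { carrier := {g | P g}
      one_mem' := h1
      mul_mem' := fun {g h} hg hh => hmul g h hg hh
      inv_mem' := fun {g} hg => hinv g hg }
  exact gamma0_le_of_T_mem_of_le L p hp (H := H) hT hP hγ

/-! ### the conjugation dictionary with `δ = diag(1, p)` -/

/-- for `γ = [a, b; c, d]` with `p ∣ b`: the matrix `[a, b/p; c p, d] = δ⁻¹ γ δ`, `δ = diag(p, 1)`;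
it satisfies `(γ z)/p = (conjDown γ)(z/p)`. -/
def conjDown (p : ℕ) (γ : SL(2, ℤ)) (h : (p : ℤ) ∣ γ 0 1) : SL(2, ℤ) :=
  ⟨!![γ 0 0, γ 0 1 / p; γ 1 0 * p, γ 1 1], by
    have hdet : γ 0 0 * γ 1 1 - γ 0 1 * γ 1 0 = 1 := by
      have := γ.det_coe
      rw [Matrix.det_fin_two] at this
      exact this
    rw [Matrix.det_fin_two_of]
    obtain ⟨b', hb'⟩ := h
    rcases Nat.eq_zero_or_pos p with rfl | hp
    · simp only [Nat.cast_zero, zero_mul] at hb'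
      simp only [hb', Nat.cast_zero, Int.ediv_zero, mul_zero, zero_mul, sub_zero] at hdet ⊢
      exact hdet
    · have hp' : (p : ℤ) ≠ 0 := by exact_mod_cast hp.ne'
      rw [hb', Int.mul_ediv_cancel_left _ hp']
      rw [hb'] at hdet
      linarith [hdet, mul_assoc (p : ℤ) b' (γ 1 0), mul_comm (p : ℤ) b', mul_assoc b' (γ 1 0) (p : ℤ),
        mul_assoc b' (p : ℤ) (γ 1 0), mul_comm (γ 1 0) (p : ℤ)]⟩

@[simp] theorem conjDown_apply_00 (p : ℕ) (γ : SL(2, ℤ)) (h : (p : ℤ) ∣ γ 0 1) :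
    (conjDown p γ h) 0 0 = γ 0 0 := rfl

@[simp] theorem conjDown_apply_01 (p : ℕ) (γ : SL(2, ℤ)) (h : (p : ℤ) ∣ γ 0 1) :
    (conjDown p γ h) 0 1 = γ 0 1 / p := rfl

@[simp] theorem conjDown_apply_10 (p : ℕ) (γ : SL(2, ℤ)) (h : (p : ℤ) ∣ γ 0 1) :
    (conjDown p γ h) 1 0 = γ 1 0 * p := rfl

@[simp] theorem conjDown_apply_11 (p : ℕ) (γ : SL(2, ℤ)) (h : (p : ℤ) ∣ γ 0 1) :
    (conjDown p γ h) 1 1 = γ 1 1 := rfl

theorem conjDown_apply_01_mul (p : ℕ) (γ : SL(2, ℤ)) (h : (p : ℤ) ∣ γ 0 1) :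
    (conjDown p γ h) 0 1 * p = γ 0 1 := by
  rw [conjDown_apply_01]
  exact Int.ediv_mul_cancel h

/-- `γ ∈ Γ₀(L') ∩ Γ⁰(p)` ⟹ `δ⁻¹ γ δ ∈ Γ₀(L' p)`; in particular in `Γ₀(L)` for every `L ∣ L' p`
(`L' = L / gcd(L, p)`). -/
theorem conjDown_mem_gamma0 {L' p : ℕ} {γ : SL(2, ℤ)} (hγ : γ ∈ Gamma0Up L' p) :
    conjDown p γ hγ.2 ∈ Gamma0 (L' * p) := by
  rw [gamma0_mem_iff_dvd, conjDown_apply_10]
  push_cast
  exact mul_dvd_mul_right hγ.1 _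

theorem conjDown_mem_gamma0_of_dvd {L L' p : ℕ} (hL : L ∣ L' * p) {γ : SL(2, ℤ)}
    (hγ : γ ∈ Gamma0Up L' p) : conjDown p γ hγ.2 ∈ Gamma0 L := by
  have h := conjDown_mem_gamma0 hγ
  rw [gamma0_mem_iff_dvd] at h ⊢
  exact dvd_trans (by exact_mod_cast hL) h

end Fermat.Agent.GB.B7.DescGroup
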