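/-
GATE-B / node GB-B7-DESC (helper10): **descent of a cusp form supported on multiples of `p`**
(Miyake, Lemma 4.6.5), uniform in `p ∣ L` and `p ∤ L`.

`f ∈ S₂(Γ₀(L))`, `p` prime, `qCoeff f n = 0` for `p ∤ n`  ⟹  there is
`f' ∈ S₂(Γ₀(L / gcd L p))` with `f'(τ) = f(τ / p)`, `f(z) = f'(p z)` and
`qCoeff f' n = qCoeff f (p n)`.

Route: `h := f ∣ [1 0; 0 p]` (Mathlib `CuspForm.translate`, a cusp form for `α⁻¹ Γ₀(L) α`) is
`T`-invariant because of the support of the `q`-expansion, invariant under `Γ₀(L') ∩ Γ⁰(p)` by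
conjugation (`DescGroup.conjDown`), hence `Γ₀(L')`-invariant by the group lemma
`DescGroup.gamma0_induction`; the cusps of `Γ₀(L')` are cusps of its finite-index subgroup
`Γ₀(L') ∩ Γ⁰(p) ≤ α⁻¹ Γ₀(L) α`.
-/
import Fermat.Agent.GE.StabV
import Fermat.Agent.GB.B7.DescGroup

set_option autoImplicit false

open UpperHalfPlane ModularForm ModularFormClass
open scoped MatrixGroups ModularForm Manifold

namespace Fermat.Agent.GB.B7.Desc

open Matrix Matrix.SpecialLinearGroup ConjAct Pointwise CongruenceSubgroup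
open Fermat.Agent.GE.StabV Fermat.Agent.GB.B7.DescGroup

/-- `α γ = (conjDown γ) α` for `α = [1 0; 0 p]` -/
theorem heckeMatrix_mul_mapGL {p : ℕ} (hp : p ≠ 0) (γ : SL(2, ℤ)) (h : (p : ℤ) ∣ γ 0 1) :
    heckeMatrix p 0 * mapGL ℝ γ = mapGL ℝ (conjDown p γ h) * heckeMatrix p 0 := by
  have h01 : (((γ 0 1 / (p : ℤ) : ℤ) : ℝ)) * (p : ℝ) = ((γ 0 1 : ℤ) : ℝ) := by
    have := conjDown_apply_01_mul p γ h
    rw [conjDown_apply_01] at this
    exact_mod_cast this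
  apply Matrix.GeneralLinearGroup.ext
  intro i j
  simp only [Matrix.GeneralLinearGroup.coe_mul, val_heckeMatrix hp]
  fin_cases i <;> fin_cases j <;>
    simp [Matrix.mul_apply, Fin.sum_univ_two, mapGL, h01] <;> ring

/-- the image of `Γ₀(L') ∩ Γ⁰(p)` in `GL(2, ℝ)` -/
abbrev G0Up (L p : ℕ) : Subgroup (GL (Fin 2) ℝ) :=
  Subgroup.map (Matrix.SpecialLinearGroup.mapGL ℝ) (Gamma0Up L p)

theorem G0Up_le_G0 (L p : ℕ) : G0Up L p ≤ G0 L :=
  Subgroup.map_mono (gamma0Up_le_gamma0 L p)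

/-- `Γ₀(L') ∩ Γ⁰(p) ≤ α⁻¹ Γ₀(L) α` when `L ∣ L' p` -/
theorem G0Up_le_conj {L L' p : ℕ} (hp : p ≠ 0) (hL : L ∣ L' * p) :
    G0Up L' p ≤ toConjAct (heckeMatrix p 0)⁻¹ • G0 L := by
  rintro _ ⟨γ, hγ, rfl⟩
  rw [Subgroup.mem_pointwise_smul_iff_inv_smul_mem, ConjAct.smul_def]
  simp only [map_inv, inv_inv, ConjAct.ofConjAct_toConjAct]
  refine ⟨conjDown p γ hγ.2, conjDown_mem_gamma0_of_dvd hL hγ, ?_⟩
  rw [heckeMatrix_mul_mapGL hp γ hγ.2, mul_assoc, mul_inv_cancel, mul_one]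

/-! ### the translate `h = f ∣ [1 0; 0 p]` -/

variable {L : ℕ}

/-- `h(τ) = p⁻¹ f(τ / p)`, a cusp form for `α⁻¹ Γ₀(L) α` -/
noncomputable def hDown (p : ℕ) (f : CuspForm (Gamma0 L) 2) :
    CuspForm (toConjAct (heckeMatrix p 0)⁻¹ • G0 L) 2 :=
  CuspForm.translate f (heckeMatrix p 0)

theorem hDown_apply {p : ℕ} (hp : p ≠ 0) (f : CuspForm (Gamma0 L) 2) (τ : ℍ) :
    hDown p f τ = (p : ℂ)⁻¹ * f (heckeMatrix p 0 • τ) := by
  change ((f : ℍ → ℂ) ∣[(2 : ℤ)] heckeMatrix p 0) τ = _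
  rw [slash_heckeMatrix_apply 2 hp]

theorem coe_heckeMatrix_zero_smul {p : ℕ} (hp : p ≠ 0) (τ : ℍ) :
    ((heckeMatrix p 0 • τ : ℍ) : ℂ) = (τ : ℂ) / p := by
  rw [coe_heckeMatrix_smul hp]
  simp

/-- `𝕢(w)^(p m) = 𝕢(τ)^m` when `w = τ / p` -/
theorem qParam_pow_mul {p : ℕ} (hp : p ≠ 0) (w τ : ℂ) (hw : w = τ / p) (m : ℕ) :
    Function.Periodic.qParam 1 w ^ (p * m) = Function.Periodic.qParam 1 τ ^ m := by
  have hp' : (p : ℂ) ≠ 0 := by exact_mod_cast hp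
  rw [Function.Periodic.qParam, Function.Periodic.qParam, ← Complex.exp_nat_mul,
    ← Complex.exp_nat_mul, hw]
  congr 1
  push_cast
  field_simp

/-- the `q`-expansion of `f` along the multiples of `p` -/
theorem hasSum_of_support {p : ℕ} (hp : p ≠ 0) (f : CuspForm (Gamma0 L) 2)
    (h0 : ∀ n, ¬ p ∣ n → qCoeff f n = 0) (w : ℍ) (τ : ℂ) (hw : (w : ℂ) = τ / p) :
    HasSum (fun m : ℕ => qCoeff f (p * m) * Function.Periodic.qParam 1 τ ^ m) (f w) := by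
  have : Fact (IsCusp OnePoint.infty (G0 L)) :=
    ⟨Subgroup.isCusp_of_mem_strictPeriods one_pos
      (CongruenceSubgroup.one_mem_strictPeriods_Gamma0 L)⟩
  have h1 := ModularForm.hasSum_qExpansion (f := f) one_pos
    (CongruenceSubgroup.one_mem_strictPeriods_Gamma0 L) w
  have hinj : Function.Injective (fun m : ℕ => p * m) := fun a b h =>
    Nat.eq_of_mul_eq_mul_left (Nat.pos_of_ne_zero hp) h
  rw [← hinj.hasSum_iff] at h1
  · convert h1 using 1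
    funext m
    simp only [Function.comp_apply]
    rw [qParam_pow_mul hp (w : ℂ) τ hw m]
    rfl
  · intro x hx
    have hx' : ¬ p ∣ x := fun ⟨m, hm⟩ => hx ⟨m, hm.symm⟩
    have := h0 x hx'
    unfold qCoeff at this
    rw [this, zero_mul]

/-- `f(τ/p)` only depends on `𝕢(τ)` -/
theorem apply_heckeMatrix_smul_eq_of_qParam_eq {p : ℕ} (hp : p ≠ 0) (f : CuspForm (Gamma0 L) 2)
    (h0 : ∀ n, ¬ p ∣ n → qCoeff f n = 0) (τ₁ τ₂ : ℍ)
    (hq : Function.Periodic.qParam 1 (τ₁ : ℂ) = Function.Periodic.qParam 1 (τ₂ : ℂ)) :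
    f (heckeMatrix p 0 • τ₁) = f (heckeMatrix p 0 • τ₂) := by
  have h1 := hasSum_of_support hp f h0 (heckeMatrix p 0 • τ₁) τ₁ (coe_heckeMatrix_zero_smul hp τ₁)
  have h2 := hasSum_of_support hp f h0 (heckeMatrix p 0 • τ₂) τ₂ (coe_heckeMatrix_zero_smul hp τ₂)
  rw [hq] at h1
  exact h1.unique h2

/-- `h` is invariant under `T` -/
theorem hDown_slash_T {p : ℕ} (hp : p ≠ 0) (f : CuspForm (Gamma0 L) 2)
    (h0 : ∀ n, ¬ p ∣ n → qCoeff f n = 0) :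
    (hDown p f : ℍ → ℂ) ∣[(2 : ℤ)] mapGL ℝ ModularGroup.T = (hDown p f : ℍ → ℂ) := by
  funext τ
  have h1 : ((hDown p f : ℍ → ℂ) ∣[(2 : ℤ)] mapGL ℝ ModularGroup.T) τ
      = (hDown p f : ℍ → ℂ) (ModularGroup.T • τ) := by
    change ((hDown p f : ℍ → ℂ) ∣[(2 : ℤ)] (ModularGroup.T : SL(2, ℤ))) τ = _
    rw [ModularForm.SL_slash_apply]
    have : denom (ModularGroup.T : SL(2, ℤ)) τ = 1 := by
      simp [denom, ModularGroup.T]
    rw [this]
    simp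
  rw [h1, hDown_apply hp, hDown_apply hp]
  congr 1
  apply apply_heckeMatrix_smul_eq_of_qParam_eq hp f h0
  rw [UpperHalfPlane.modular_T_smul, UpperHalfPlane.coe_vadd]
  rw [Function.Periodic.qParam, Function.Periodic.qParam]
  have : 2 * (Real.pi : ℂ) * Complex.I * (((1 : ℝ) : ℂ) + (τ : ℂ)) / ((1 : ℝ) : ℂ)
      = 2 * (Real.pi : ℂ) * Complex.I * (τ : ℂ) / ((1 : ℝ) : ℂ) + 2 * (Real.pi : ℂ) * Complex.I := by
    push_cast
    ring
  rw [this, Complex.exp_add, Complex.exp_two_pi_mul_I, mul_one]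

/-- `h` is invariant under `Γ₀(L')` (`L ∣ L' p`) -/
theorem hDown_slash_gamma0 {L' p : ℕ} (hp : p.Prime) (hL : L ∣ L' * p)
    (f : CuspForm (Gamma0 L) 2) (h0 : ∀ n, ¬ p ∣ n → qCoeff f n = 0) {γ : SL(2, ℤ)}
    (hγ : γ ∈ Gamma0 L') :
    (hDown p f : ℍ → ℂ) ∣[(2 : ℤ)] mapGL ℝ γ = (hDown p f : ℍ → ℂ) := by
  refine gamma0_induction L' p hp
    (fun γ => (hDown p f : ℍ → ℂ) ∣[(2 : ℤ)] mapGL ℝ γ = (hDown p f : ℍ → ℂ)) ?_ ?_ ?_ ?_ ?_ hγ
  · rw [map_one, SlashAction.slash_one]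
  · intro g h hg hh
    rw [map_mul, SlashAction.slash_mul, hg, hh]
  · intro g hg
    have : ((hDown p f : ℍ → ℂ) ∣[(2 : ℤ)] mapGL ℝ g) ∣[(2 : ℤ)] mapGL ℝ g⁻¹
        = (hDown p f : ℍ → ℂ) := by
      rw [← SlashAction.slash_mul, ← map_mul, mul_inv_cancel, map_one, SlashAction.slash_one]
    rwa [hg] at this
  · exact hDown_slash_T hp.ne_zero f h0
  · intro γ hγ
    exact (hDown p f).slash_action_eq' _ (G0Up_le_conj hp.ne_zero hL ⟨γ, hγ, rfl⟩)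

/-- `Γ(L' p) ≤ Γ₀(L') ∩ Γ⁰(p)` -/
theorem gamma_le_gamma0Up (L' p : ℕ) : Gamma (L' * p) ≤ Gamma0Up L' p := by
  intro γ hγ
  rw [Gamma_mem] at hγ
  obtain ⟨-, h01, h10, -⟩ := hγ
  rw [ZMod.intCast_zmod_eq_zero_iff_dvd] at h01 h10
  refine ⟨dvd_trans ?_ h10, dvd_trans ?_ h01⟩
  · exact_mod_cast Dvd.intro p rfl
  · exact_mod_cast Dvd.intro_left L' rfl

theorem relIndex_G0Up_ne_zero {L' p : ℕ} (hL' : L' ≠ 0) (hp : p ≠ 0) :
    (G0Up L' p).relIndex (G0 L') ≠ 0 := by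
  rw [Subgroup.relIndex_map_map_of_injective _ _ mapGL_injective]
  have : NeZero (L' * p) := ⟨mul_ne_zero hL' hp⟩
  have h1 : (Gamma0Up L' p).FiniteIndex := Subgroup.finiteIndex_of_le (gamma_le_gamma0Up L' p)
  have : (Gamma0Up L' p).IsFiniteRelIndex (Gamma0 L') := Subgroup.isFiniteRelIndex_of_finiteIndex
  exact Subgroup.relIndex_ne_zero

/-- the descended form `τ ↦ p⁻¹ f(τ/p)` as a cusp form of level `Γ₀(L')`, `L ∣ L' p` -/
noncomputable def descAux {L' p : ℕ} (hp : p.Prime) (hL : L ∣ L' * p) (hL' : L' ≠ 0)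
    (f : CuspForm (Gamma0 L) 2) (h0 : ∀ n, ¬ p ∣ n → qCoeff f n = 0) :
    CuspForm (Gamma0 L') 2 where
  toFun := hDown p f
  slash_action_eq' γ hγ := by
    obtain ⟨γ₀, hγ₀, rfl⟩ := hγ
    exact hDown_slash_gamma0 hp hL f h0 hγ₀
  holo' := (hDown p f).holo'
  zero_at_cusps' {c} hc := by
    apply (hDown p f).zero_at_cusps'
    have h1 : IsCusp c (G0Up L' p) :=
      (isCusp_iff_of_relIndex_ne_zero (G0Up_le_G0 L' p)
        (relIndex_G0Up_ne_zero hL' hp.ne_zero) c).mpr hc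
    exact h1.mono (G0Up_le_conj hp.ne_zero hL)

/-- **the descended form** `τ ↦ f(τ/p)` at level `Γ₀(L')` for any `L'` with `L ∣ L' p` -/
noncomputable def desc {L' p : ℕ} (hp : p.Prime) (hL : L ∣ L' * p) (hL' : L' ≠ 0)
    (f : CuspForm (Gamma0 L) 2) (h0 : ∀ n, ¬ p ∣ n → qCoeff f n = 0) :
    CuspForm (Gamma0 L') 2 :=
  (p : ℂ) • descAux hp hL hL' f h0

section

variable {L' p : ℕ} (hp : p.Prime) (hL : L ∣ L' * p) (hL' : L' ≠ 0)
  (f : CuspForm (Gamma0 L) 2) (h0 : ∀ n, ¬ p ∣ n → qCoeff f n = 0)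

/-- `f'(τ) = f(τ/p)` -/
theorem desc_apply (τ : ℍ) : desc hp hL hL' f h0 τ = f (heckeMatrix p 0 • τ) := by
  have hp' : (p : ℂ) ≠ 0 := by exact_mod_cast hp.ne_zero
  change (p : ℂ) • (hDown p f τ) = _
  rw [hDown_apply hp.ne_zero, smul_eq_mul, ← mul_assoc, mul_inv_cancel₀ hp', one_mul]

theorem heckeMatrix_smul_heckeDiagMatrix_smul {p : ℕ} (hp : p ≠ 0) (z : ℍ) :
    heckeMatrix p 0 • (heckeDiagMatrix p • z) = z := by
  have hp' : (p : ℂ) ≠ 0 := by exact_mod_cast hp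
  apply UpperHalfPlane.ext
  rw [coe_heckeMatrix_zero_smul hp, coe_heckeDiagMatrix_smul hp]
  field_simp

/-- `f(z) = f'(p z)` -/
theorem apply_eq_desc (z : ℍ) : f z = desc hp hL hL' f h0 (heckeDiagMatrix p • z) := by
  rw [desc_apply, heckeMatrix_smul_heckeDiagMatrix_smul hp.ne_zero]

/-- complex-coordinate form: `f'(w) = f(z)` whenever `w = p z` -/
theorem desc_apply_of_coe_eq (z w : ℍ) (h : (w : ℂ) = p * (z : ℂ)) :
    desc hp hL hL' f h0 w = f z := by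
  have hw : w = heckeDiagMatrix p • z := by
    apply UpperHalfPlane.ext
    rw [coe_heckeDiagMatrix_smul hp.ne_zero, h]
  rw [hw, ← apply_eq_desc]

/-- `a_n(f') = a_{pn}(f)` -/
theorem qCoeff_desc (n : ℕ) : qCoeff (desc hp hL hL' f h0) n = qCoeff f (p * n) := by
  symm
  refine ModularFormClass.qExpansion_coeff_unique (f := desc hp hL hL' f h0)
    (c := fun n => qCoeff f (p * n)) one_pos
    (CongruenceSubgroup.one_mem_strictPeriods_Gamma0 L') (fun τ => ?_) n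
  rw [desc_apply]
  have := hasSum_of_support hp.ne_zero f h0 (heckeMatrix p 0 • τ) τ
    (coe_heckeMatrix_zero_smul hp.ne_zero τ)
  simpa [smul_eq_mul] using this

end

/-! ### the packaged statements -/

/-- **DESC**, uniform: level `L / gcd(L, p)`. -/
theorem exists_descent {L p : ℕ} [NeZero L] (hp : p.Prime) (f : CuspForm (Gamma0 L) 2)
    (h0 : ∀ n, ¬ p ∣ n → qCoeff f n = 0) :
    ∃ f' : CuspForm (Gamma0 (L / Nat.gcd L p)) 2,
      (∀ τ : ℍ, f' τ = f (heckeMatrix p 0 • τ)) ∧ (∀ z : ℍ, f z = f' (heckeDiagMatrix p • z)) ∧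
        ∀ n, qCoeff f' n = qCoeff f (p * n) := by
  have hg : Nat.gcd L p ∣ L := Nat.gcd_dvd_left L p
  have hL : L ∣ L / Nat.gcd L p * p := by
    obtain ⟨k, hk⟩ := Nat.gcd_dvd_right L p
    refine ⟨k, ?_⟩
    calc L / Nat.gcd L p * p = L / Nat.gcd L p * (Nat.gcd L p * k) := by rw [← hk]
      _ = L / Nat.gcd L p * Nat.gcd L p * k := by ring
      _ = L * k := by rw [Nat.div_mul_cancel hg]
  have hL' : L / Nat.gcd L p ≠ 0 := by
    have hLpos : 0 < L := Nat.pos_of_ne_zero (NeZero.ne L)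
    have := Nat.div_pos (Nat.le_of_dvd hLpos hg) (Nat.gcd_pos_of_pos_left p hLpos)
    omega
  exact ⟨desc hp hL hL' f h0, desc_apply hp hL hL' f h0, apply_eq_desc hp hL hL' f h0,
    qCoeff_desc hp hL hL' f h0⟩

/-- **DESC(i)** (Miyake 4.6.5): `p ∣ L`, level `L / p`. -/
theorem exists_descent_of_dvd {L p : ℕ} [NeZero L] (hp : p.Prime) (hpL : p ∣ L)
    (f : CuspForm (Gamma0 L) 2) (h0 : ∀ n, ¬ p ∣ n → qCoeff f n = 0) :
    ∃ f' : CuspForm (Gamma0 (L / p)) 2,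
      (∀ τ : ℍ, f' τ = f (heckeMatrix p 0 • τ)) ∧ (∀ z : ℍ, f z = f' (heckeDiagMatrix p • z)) ∧
        ∀ n, qCoeff f' n = qCoeff f (p * n) := by
  have hL : L ∣ L / p * p := by rw [Nat.div_mul_cancel hpL]
  have hL' : L / p ≠ 0 := by
    have hLpos : 0 < L := Nat.pos_of_ne_zero (NeZero.ne L)
    have := Nat.div_pos (Nat.le_of_dvd hLpos hpL) hp.pos
    omega
  exact ⟨desc hp hL hL' f h0, desc_apply hp hL hL' f h0, apply_eq_desc hp hL hL' f h0,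
    qCoeff_desc hp hL hL' f h0⟩

/-- **DESC(i')**: any `p` (in particular `p ∤ L`), SAME level `L`. -/
theorem exists_descent_same_level {L p : ℕ} [NeZero L] (hp : p.Prime)
    (f : CuspForm (Gamma0 L) 2) (h0 : ∀ n, ¬ p ∣ n → qCoeff f n = 0) :
    ∃ f' : CuspForm (Gamma0 L) 2,
      (∀ τ : ℍ, f' τ = f (heckeMatrix p 0 • τ)) ∧ (∀ z : ℍ, f z = f' (heckeDiagMatrix p • z)) ∧
        ∀ n, qCoeff f' n = qCoeff f (p * n) :=
  ⟨desc hp (Dvd.intro p rfl) (NeZero.ne L) f h0, desc_apply hp _ _ f h0, apply_eq_desc hp _ _ f h0,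
    qCoeff_desc hp _ _ f h0⟩

end Fermat.Agent.GB.B7.Desc
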