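/-
GATE-B / GB-B7-TKILL, leaf (A) (helper52): **QROOT** — the `U_q`-eigenvalue of a `q`-stabilised
eigenform is a Frobenius root, from ONE input: Miyake's Lemma 4.6.5 (`Desc`, hypothesis form =
helper29's `exists_descent`).

* `Desc` : a weight-2 cusp form of level `Γ₀(L)`, `p ∣ L`, whose `q`-expansion is supported on the
  multiples of `p`, is `f'(p z)` with `f'` of level `Γ₀(L / p)` (only the coefficient statement is
  used);
* `desc_same_level` : for ANY level `N`: `f` supported on multiples of `q` ⟹ `∃ g` of level `N`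
  with `a_n(g) = a_{q n}(f)`  (apply `Desc` at level `N q`);
* `exists_vq_same_level` : `q ∤ N`: then also `V_q f` has level `N`  (`q V_q f = T_q f − g`);
* `eq_zero_of_supported` : `q ∤ N`, `f` of level `N` supported on multiples of `q` ⟹ `f = 0`
  (iterate `V_q`, Sturm bound `S23.eq_zero_of_qCoeff_eq_zero_of_le`);
* `qroot` : `F` of level `N q`, `H` of level `N`, `q ∤ N`, `a_1 = 1`, `a_{q n}(F) = α a_n(F)`,
  `a_{q n}(H) = a · a_n(H)` (`q ∤ n`), `a_{q²}(H) = a² − q`, `a_n(F) = a_n(H)` for `q ∤ n`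
  ⟹ `α² − a α + q = 0`;
* `qroot_of_eigenforms` : the same for Prelude `IsNormalizedEigenform`s.
-/
import Mathlib
import Fermat.Agent.S49.Basic
import Fermat.Agent.S23.FinDim
import Fermat.Agent.GE.Mod.Stab
import Fermat.Prelude.Def_FLTPrelim_Modularity

set_option autoImplicit false

open ModularFormClass CongruenceSubgroup UpperHalfPlane

namespace Fermat.Agent.GB.B7.QRoot

open Fermat.Agent.GE.Mod.Stab (restrict G0 G0_mul_le)

/-- **Miyake 4.6.5 (coefficient form)**: the binder discharged by helper29's `exists_descent`. -/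
def Desc : Prop :=
  ∀ (L p : ℕ) [NeZero L], p.Prime → p ∣ L → ∀ f : CuspForm (Gamma0 L) 2,
    (∀ n, ¬ p ∣ n → qCoeff f n = 0) →
      ∃ f' : CuspForm (Gamma0 (L / p)) 2, ∀ n, qCoeff f' n = qCoeff f (p * n)

theorem qCoeff_sub {N : ℕ} (f g : CuspForm (Gamma0 N) 2) (n : ℕ) :
    qCoeff ⇑(f - g) n = qCoeff ⇑f n - qCoeff ⇑g n := by
  have h : f - g = f + (-1 : ℂ) • g := by
    rw [neg_one_smul, sub_eq_add_neg]
  rw [h, Fermat.Agent.S49.qCoeff_add, Fermat.Agent.S49.qCoeff_smul]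
  ring

theorem qCoeff_zeroForm {N : ℕ} (n : ℕ) : qCoeff ⇑(0 : CuspForm (Gamma0 N) 2) n = 0 := by
  have h2 := Fermat.Agent.S49.qCoeff_smul (0 : ℂ) (0 : CuspForm (Gamma0 N) 2) n
  rw [zero_smul, zero_mul] at h2
  exact h2

/-- descent at an arbitrary level: `a_n(g) = a_{q n}(f)` with `g` of the SAME level. -/
theorem desc_same_level (hD : Desc) {N q : ℕ} [NeZero N] (hq : q.Prime)
    (f : CuspForm (Gamma0 N) 2) (h0 : ∀ n, ¬ q ∣ n → qCoeff f n = 0) :
    ∃ g : CuspForm (Gamma0 N) 2, ∀ n, qCoeff g n = qCoeff f (q * n) := by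
  have : NeZero (N * q) := ⟨Nat.mul_ne_zero (NeZero.ne N) hq.ne_zero⟩
  obtain ⟨f', hf'⟩ := hD (N * q) q hq (Dvd.intro_left N rfl) (restrict (G0_mul_le N q) f)
    (fun n hn => h0 n hn)
  have key : ∀ M : ℕ, M = N → (∃ f' : CuspForm (Gamma0 M) 2, ∀ n, qCoeff f' n = qCoeff f (q * n)) →
      ∃ g : CuspForm (Gamma0 N) 2, ∀ n, qCoeff g n = qCoeff f (q * n) := by
    rintro M rfl h
    exact h
  exact key _ (Nat.mul_div_cancel N hq.pos) ⟨f', fun n => hf' n⟩

/-- `V_q f` at the same level, for `q ∤ N` and `f` supported on the multiples of `q`. -/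
theorem exists_vq_same_level (hD : Desc) {N q : ℕ} [NeZero N] (hq : q.Prime) (hqN : ¬ q ∣ N)
    (f : CuspForm (Gamma0 N) 2) (h0 : ∀ n, ¬ q ∣ n → qCoeff f n = 0) :
    ∃ h : CuspForm (Gamma0 N) 2, ∀ n, qCoeff h n = if q ∣ n then qCoeff f (n / q) else 0 := by
  obtain ⟨g, hg⟩ := desc_same_level hD hq f h0
  have hq0 : (q : ℂ) ≠ 0 := by exact_mod_cast hq.ne_zero
  refine ⟨(q : ℂ)⁻¹ • (CuspForm.heckeTLin 2 hq hqN f - g), fun n => ?_⟩
  rw [Fermat.Agent.S49.qCoeff_smul, qCoeff_sub, Fermat.Agent.S49.qCoeff_heckeTLin, hg,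
    mul_comm n q]
  split_ifs with h
  · field_simp
    ring
  · simp

/-- **DESC (ii)**: at a level prime to `q`, a cusp form supported on the multiples of `q` is `0`. -/
theorem eq_zero_of_supported (hD : Desc) {N q : ℕ} [NeZero N] (hq : q.Prime) (hqN : ¬ q ∣ N)
    (f : CuspForm (Gamma0 N) 2) (h0 : ∀ n, ¬ q ∣ n → qCoeff f n = 0) : f = 0 := by
  -- the iterates `V_q^k f`
  have hiter : ∀ k : ℕ, ∃ F : CuspForm (Gamma0 N) 2,
      ∀ n, qCoeff F n = if q ^ k ∣ n then qCoeff f (n / q ^ k) else 0 := by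
    intro k
    induction k with
    | zero => exact ⟨f, fun n => by simp⟩
    | succ k ih =>
      obtain ⟨F, hF⟩ := ih
      have hF0 : ∀ n, ¬ q ∣ n → qCoeff F n = 0 := by
        intro n hn
        rw [hF n]
        split_ifs with h
        · rcases Nat.eq_zero_or_pos k with rfl | hk
          · simpa using h0 n hn
          · exact absurd ((dvd_pow_self q hk.ne').trans h) hn
        · rfl
      obtain ⟨F', hF'⟩ := exists_vq_same_level hD hq hqN F hF0
      refine ⟨F', fun n => ?_⟩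
      rw [hF' n]
      by_cases h1 : q ∣ n
      · obtain ⟨m, rfl⟩ := h1
        rw [if_pos (Dvd.intro m rfl), Nat.mul_div_cancel_left m hq.pos, hF m, pow_succ']
        by_cases h2 : q ^ k ∣ m
        · rw [if_pos h2, if_pos (Nat.mul_dvd_mul_left q h2), Nat.mul_div_mul_left _ _ hq.pos]
        · rw [if_neg h2, if_neg]
          intro h3
          exact h2 ((Nat.mul_dvd_mul_iff_left hq.pos).mp h3)
      · rw [if_neg h1, if_neg]
        intro h3
        exact h1 ((dvd_pow_self q (Nat.succ_ne_zero k)).trans h3)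
  -- take `k` beyond the Sturm bound
  set B := Fermat.Agent.S23.sturmBound N 2 with hB
  obtain ⟨F, hF⟩ := hiter (B + 1)
  have hlt : B < q ^ (B + 1) :=
    (Nat.lt_pow_self hq.one_lt).trans_le (Nat.pow_le_pow_right hq.pos (Nat.le_succ B))
  have hFz : F = 0 := by
    apply Fermat.Agent.S23.eq_zero_of_qCoeff_eq_zero_of_le N 2 F
    intro n hn
    rw [hF n]
    split_ifs with h
    · rcases Nat.eq_zero_or_pos n with rfl | hpos
      · rw [Nat.zero_div]
        exact Fermat.Agent.S49.qCoeff_cusp_zero f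
      · exact absurd (Nat.le_of_dvd hpos h) (by omega)
    · rfl
  apply Fermat.Agent.S49.eq_zero_of_qCoeff_eq_zero
  intro m
  have h1 := hF (q ^ (B + 1) * m)
  rw [if_pos (Dvd.intro m rfl), Nat.mul_div_cancel_left m (pow_pos hq.pos _), hFz] at h1
  rw [← h1]
  exact qCoeff_zeroForm _

/-- **QROOT** (coefficient form). -/
theorem qroot (hD : Desc) {N q : ℕ} [NeZero N] (hq : q.Prime) (hqN : ¬ q ∣ N)
    (F : CuspForm (Gamma0 (N * q)) 2) (H : CuspForm (Gamma0 N) 2) (al a : ℂ)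
    (hF1 : qCoeff F 1 = 1) (hH1 : qCoeff H 1 = 1)
    (hFq : ∀ n, qCoeff F (q * n) = al * qCoeff F n)
    (hHq : ∀ n, ¬ q ∣ n → qCoeff H (q * n) = a * qCoeff H n)
    (hHqq : qCoeff H (q * q) = a * a - q)
    (heq : ∀ n, ¬ q ∣ n → qCoeff F n = qCoeff H n) :
    al ^ 2 - a * al + q = 0 := by
  have : NeZero (N * q) := ⟨Nat.mul_ne_zero (NeZero.ne N) hq.ne_zero⟩
  set Hr : CuspForm (Gamma0 (N * q)) 2 := restrict (G0_mul_le N q) H with hHr
  have hHrc : ∀ n, qCoeff Hr n = qCoeff H n := fun n => rfl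
  -- `E = F - H` is supported on multiples of `q`
  have hE0 : ∀ n, ¬ q ∣ n → qCoeff ⇑(F - Hr) n = 0 := by
    intro n hn
    rw [qCoeff_sub, hHrc, heq n hn, sub_self]
  obtain ⟨f', hf'⟩ := hD (N * q) q hq (Dvd.intro_left N rfl) (F - Hr) hE0
  have key : ∀ M : ℕ, M = N →
      (∃ f' : CuspForm (Gamma0 M) 2, ∀ n, qCoeff f' n = qCoeff ⇑(F - Hr) (q * n)) →
      ∃ g : CuspForm (Gamma0 N) 2, ∀ n, qCoeff g n = qCoeff ⇑(F - Hr) (q * n) := by
    rintro M rfl h
    exact h
  obtain ⟨g, hg⟩ := key _ (Nat.mul_div_cancel N hq.pos) ⟨f', hf'⟩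
  have hg' : ∀ n, qCoeff g n = qCoeff F (q * n) - qCoeff H (q * n) := by
    intro n
    rw [hg n, qCoeff_sub, hHrc]
  -- `f'' = g - (al - a) H`
  have hf''0 : ∀ n, ¬ q ∣ n → qCoeff ⇑(g - (al - a) • H) n = 0 := by
    intro n hn
    rw [qCoeff_sub, Fermat.Agent.S49.qCoeff_smul, hg' n, hFq n, hHq n hn, heq n hn]
    ring
  have hz := eq_zero_of_supported hD hq hqN (g - (al - a) • H) hf''0
  have h1 : qCoeff ⇑(g - (al - a) • H) q = 0 := by
    rw [hz]
    exact qCoeff_zeroForm q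
  rw [qCoeff_sub, Fermat.Agent.S49.qCoeff_smul, hg' q, hFq q, hHqq] at h1
  have hFqq : qCoeff F q = al := by
    have := hFq 1
    rwa [mul_one, hF1, mul_one] at this
  have hHq1 : qCoeff H q = a := by
    have := hHq 1 (fun h => hq.one_lt.ne' (Nat.dvd_one.mp h))
    rwa [mul_one, hH1, mul_one] at this
  rw [hFqq, hHq1] at h1
  linear_combination h1

end Fermat.Agent.GB.B7.QRoot
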