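/-
GATE-B / node GB-B7-DESC (helper10): PLUG of `GB/B7/Desc.lean` into helper52's `GB/B7/QRoot.lean`:
the binder `QRoot.Desc` (Miyake 4.6.5, coefficient form) is a THEOREM, hence `desc_ii`
(`eq_zero_of_supported`) and (QROOT) are binder-free.
-/
import Fermat.Agent.GB.B7.Desc
import Fermat.Agent.GB.B7.QRoot

set_option autoImplicit false

open ModularFormClass CongruenceSubgroup UpperHalfPlane

namespace Fermat.Agent.GB.B7.DescPlug

open Fermat.Agent.GB.B7

/-- **`QRoot.Desc` holds.** -/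
theorem desc : QRoot.Desc := by
  intro L p _ hp hpL f h0
  obtain ⟨f', -, -, h⟩ := Desc.exists_descent_of_dvd hp hpL f h0
  exact ⟨f', h⟩

/-- **DESC (ii)**, binder-free: at a level prime to `q`, a cusp form supported on the multiples of
`q` is `0`. -/
theorem eq_zero_of_supported {N q : ℕ} [NeZero N] (hq : q.Prime) (hqN : ¬ q ∣ N)
    (f : CuspForm (Gamma0 N) 2) (h0 : ∀ n, ¬ q ∣ n → qCoeff f n = 0) : f = 0 :=
  QRoot.eq_zero_of_supported desc hq hqN f h0

/-- **(QROOT)**, binder-free (coefficient form). -/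
theorem qroot {N q : ℕ} [NeZero N] (hq : q.Prime) (hqN : ¬ q ∣ N)
    (F : CuspForm (Gamma0 (N * q)) 2) (H : CuspForm (Gamma0 N) 2) (al a : ℂ)
    (hF1 : qCoeff F 1 = 1) (hH1 : qCoeff H 1 = 1)
    (hFq : ∀ n, qCoeff F (q * n) = al * qCoeff F n)
    (hHq : ∀ n, ¬ q ∣ n → qCoeff H (q * n) = a * qCoeff H n)
    (hHqq : qCoeff H (q * q) = a * a - q)
    (heq : ∀ n, ¬ q ∣ n → qCoeff F n = qCoeff H n) :
    al ^ 2 - a * al + q = 0 :=
  QRoot.qroot desc hq hqN F H al a hF1 hH1 hFq hHq hHqq heq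

end Fermat.Agent.GB.B7.DescPlug
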