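/-
GATE-B / GB-B7-POINT, (D-form) of helper52 5588 (helper83): **a characteristic-zero point of the
weight-2 Hecke algebra is the eigensystem of a normalised eigenform, EXACTLY.**

`χ : heckeAlgebra N 2 S →+* D`, `D` a domain of characteristic zero (e.g. a point of `T_Q` composed
with the twist hom `tw`).  Then there are an INJECTIVE ring hom `ι : χ.range →+* ℂ` and a Prelude
`IsNormalizedEigenform` `G` of level `Γ₀(N)` with
`a_ℓ(G) = ι (χ (T_ℓ))` (`ℓ ∤ N`, `ℓ ∉ S`) and `a_q(G) = ι (χ (U_q))` (`q ∣ N`, `q ∉ S`).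

Proof.  `𝔭 := ker χ` is a prime of the finite `ℤ`-algebra `HA = heckeAlgebra N 2 S` (S22) with
`𝔭 ∩ ℤ = 0`.  Deligne–Serre (S49_helper65.AbstractDS) gives an eigencharacter `θ₀ : HA →+* ℂ`
occurring in `S₂(Γ₀(N))` with `ker θ₀ ≤ 𝔭`; incomparability of primes over `0` in an integral
extension of `ℤ` gives `ker θ₀ = 𝔭`, hence `ι : HA/𝔭 ≅ χ.range ↪ ℂ`.  The joint `θ₀`-eigenspace is
stable under the full (commutative) Hecke algebra, so it contains a common eigenvector of all `T_ℓ`,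
`U_q` (S49.exists_common_eigenvector), which normalises to `G`
(S49_helper65.exists_normalizedEigenform_of_eigenvector).
-/
import Mathlib
import Fermat.Agent.S22
import Fermat.Agent.S23.FinDim
import Fermat.Agent.S49.CommAlg
import Fermat.Agent.S49_helper65.AbstractDS
import Fermat.Agent.S49_helper65.Eigenform

set_option autoImplicit false
set_option linter.unusedSectionVars false

open ModularFormClass CongruenceSubgroup UpperHalfPlane CuspForm

namespace Fermat.Agent.GB.B7.Point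

open Fermat.Agent.S49_helper65

/-! ### abstract part -/

section Abstract

variable {V : Type*} [AddCommGroup V] [Module ℂ V] [FiniteDimensional ℂ V]
variable {T : Type*} [CommRing T] (φ : T →+* Module.End ℂ V)

/-- A common eigenvector inside a stable subspace `W₁` whose annihilator lies in the prime `𝔪`;
its eigencharacter has kernel inside `𝔪` (Deligne–Serre; twin of
`GM.End.exists_eigenvector_mem_of_annOf_le`, restated here to keep the import closure small). -/
theorem exists_eigenvector_of_annOf_le (𝔪 : Ideal T) [h𝔪 : 𝔪.IsPrime] (W₁ : Submodule ℂ V)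
    (hst₁ : StableUnder φ W₁) (hann₁ : annOf φ W₁ ≤ 𝔪) :
    ∃ (g : V) (θ : T →+* ℂ), g ∈ W₁ ∧ g ≠ 0 ∧ (∀ t, φ t g = θ t • g) ∧ RingHom.ker θ ≤ 𝔪 := by
  classical
  let S : Set (Submodule ℂ V) := {W | StableUnder φ W ∧ annOf φ W ≤ 𝔪 ∧ W ≤ W₁}
  have hS : S.Nonempty := ⟨W₁, hst₁, hann₁, le_rfl⟩
  obtain ⟨W₀, ⟨hst, hann, hle⟩, hmin⟩ :=
    (wellFounded_lt (α := Submodule ℂ V)).has_min S hS
  have hmin' : ∀ W : Submodule ℂ V, StableUnder φ W → annOf φ W ≤ 𝔪 → ¬ W < W₀ :=
    fun W h1 h2 hlt => hmin W ⟨h1, h2, hlt.le.trans hle⟩ hlt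
  have hsc := scalar_on_minimal φ 𝔪 W₀ hst hann hmin'
  have hne : W₀ ≠ ⊥ := by
    rintro rfl
    apply h𝔪.ne_top
    rw [Ideal.eq_top_iff_one]
    apply hann
    intro w hw
    rw [Submodule.mem_bot] at hw
    rw [hw, map_zero]
  obtain ⟨g, hgW, hg0⟩ := Submodule.exists_mem_ne_zero_of_ne_bot hne
  choose θ₀ hθ₀ using hsc
  have huniq : ∀ c c' : ℂ, c • g = c' • g → c = c' := by
    intro c c' h
    have : (c - c') • g = 0 := by rw [sub_smul, h, sub_self]
    rcases smul_eq_zero.mp this with h' | h'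
    · exact sub_eq_zero.mp h'
    · exact absurd h' hg0
  let θ : T →+* ℂ :=
    { toFun := θ₀
      map_one' := by
        apply huniq
        rw [← hθ₀ 1 g hgW, map_one, Module.End.one_apply, one_smul]
      map_mul' := by
        intro s t
        apply huniq
        rw [← hθ₀ (s * t) g hgW, map_mul, Module.End.mul_apply, hθ₀ t g hgW, map_smul,
          hθ₀ s g hgW, smul_smul, mul_comm]
      map_zero' := by
        apply huniq
        rw [← hθ₀ 0 g hgW, map_zero, LinearMap.zero_apply, zero_smul]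
      map_add' := by
        intro s t
        apply huniq
        rw [← hθ₀ (s + t) g hgW, map_add, LinearMap.add_apply, hθ₀ s g hgW, hθ₀ t g hgW,
          add_smul] }
  refine ⟨g, θ, hle hgW, hg0, fun t => hθ₀ t g hgW, ?_⟩
  intro t ht
  apply hann
  intro w hw
  have : θ₀ t = 0 := ht
  rw [hθ₀ t w hw, this, zero_smul]

end Abstract

/-- **Incomparability over `0`.**  `T` integral over `ℤ`, `χ : T → D` into a domain of
characteristic zero, `θ : T → ℂ` with `ker θ ≤ ker χ`.  Then `ker χ ≤ ker θ`. -/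
theorem ker_le_ker_of_ker_le {T : Type*} [CommRing T] [Algebra.IsIntegral ℤ T]
    {D : Type*} [CommRing D] [IsDomain D] [CharZero D] (χ : T →+* D) (θ : T →+* ℂ)
    (hle : RingHom.ker θ ≤ RingHom.ker χ) : RingHom.ker χ ≤ RingHom.ker θ := by
  haveI : (RingHom.ker θ).IsPrime := RingHom.ker_isPrime θ
  set B := T ⧸ RingHom.ker θ with hB
  let I : Ideal B := (RingHom.ker χ).map (Ideal.Quotient.mk (RingHom.ker θ))
  have hcomap : I.comap (algebraMap ℤ B) = ⊥ := by
    rw [eq_bot_iff]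
    intro n hn
    rw [Ideal.mem_comap] at hn
    obtain ⟨t, ht, htn⟩ :=
      (Ideal.mem_map_iff_of_surjective _ Ideal.Quotient.mk_surjective).1 hn
    have h1 : t - (n : T) ∈ RingHom.ker θ := by
      rw [← Ideal.Quotient.eq]
      rw [htn]
      simp
    have h2 : (n : T) ∈ RingHom.ker χ := by
      have := (RingHom.ker χ).sub_mem ht (hle h1)
      simpa using this
    rw [RingHom.mem_ker, map_intCast] at h2
    have h3 : n = 0 := by exact_mod_cast h2
    rw [h3]
    exact Ideal.zero_mem _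
  have hI : I = ⊥ := Ideal.eq_bot_of_comap_eq_bot hcomap
  intro t ht
  have h1 : Ideal.Quotient.mk (RingHom.ker θ) t ∈ I := Ideal.mem_map_of_mem _ ht
  rw [hI, Ideal.mem_bot] at h1
  exact Ideal.Quotient.eq_zero_iff_mem.1 h1

/-! ### the Hecke algebra of forms -/

variable {N : ℕ} [NeZero N]

/-- **(D-form), general `S`.** -/
theorem exists_eigenform_of_point_set (S : Set ℕ) {D : Type*} [CommRing D] [IsDomain D]
    [CharZero D] (χ : ↥(heckeAlgebra N 2 S) →+* D) :
    ∃ ι : ↥χ.range →+* ℂ, Function.Injective ι ∧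
      ∃ G : CuspForm (Gamma0 N) 2, G.IsNormalizedEigenform ∧
        (∀ (ℓ : ℕ) (hℓ : ℓ.Prime) (hℓN : ¬ ℓ ∣ N) (hℓS : ℓ ∉ S),
          qCoeff G ℓ = ι (χ.rangeRestrict (heckeAlgebra.T hℓ hℓN hℓS))) ∧
        (∀ (q : ℕ) (hq : q.Prime) (hqN : q ∣ N) (hqS : q ∉ S),
          qCoeff G q = ι (χ.rangeRestrict (heckeAlgebra.U hq hqN hqS))) := by
  classical
  haveI hfd : FiniteDimensional ℂ (CuspForm (Gamma0 N) 2) :=
    Fermat.Agent.S23.finiteDimensional_cuspForm N 2
  haveI hfin : Module.Finite ℤ ↥(heckeAlgebra N 2 S) := Fermat.Agent.S22.result N 2 S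
  haveI hint : Algebra.IsIntegral ℤ ↥(heckeAlgebra N 2 S) := Algebra.IsIntegral.of_finite ℤ _
  let φ : ↥(heckeAlgebra N 2 S) →+* Module.End ℂ (CuspForm (Gamma0 N) 2) :=
    ((heckeAlgebra N 2 S).val : ↥(heckeAlgebra N 2 S) →+* Module.End ℂ (CuspForm (Gamma0 N) 2))
  have hφ : ∀ t : ↥(heckeAlgebra N 2 S),
      φ t = (t : Module.End ℂ (CuspForm (Gamma0 N) 2)) := fun _ => rfl
  haveI h𝔭 : (RingHom.ker χ).IsPrime := RingHom.ker_isPrime χ
  -- step 1: an eigencharacter of `HA` occurring in `S₂`, with kernel inside `ker χ`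
  obtain ⟨f₀, θ₀, -, hf₀, hf₀eig, hker⟩ :=
    exists_eigenvector_of_annOf_le φ (RingHom.ker χ) ⊤ (fun _ _ _ => Submodule.mem_top)
      (by
        intro t ht
        have h0 : t = 0 := by
          apply Subtype.ext
          refine LinearMap.ext fun w => ?_
          exact ht w Submodule.mem_top
        rw [h0]
        exact Ideal.zero_mem _)
  have hkereq : RingHom.ker χ ≤ RingHom.ker θ₀ := ker_le_ker_of_ker_le χ θ₀ hker
  -- step 2: the joint eigenspace
  let E : Submodule ℂ (CuspForm (Gamma0 N) 2) :=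
    { carrier := {f | ∀ t : ↥(heckeAlgebra N 2 S), φ t f = θ₀ t • f}
      add_mem' := by
        intro a b ha hb t
        rw [map_add, ha t, hb t, smul_add]
      zero_mem' := by
        intro t
        rw [map_zero, smul_zero]
      smul_mem' := by
        intro c a ha t
        rw [map_smul, ha t, smul_comm] }
  have hEmem : ∀ f, f ∈ E ↔ ∀ t : ↥(heckeAlgebra N 2 S), φ t f = θ₀ t • f := fun _ => Iff.rfl
  have hE : E ≠ ⊥ := by
    intro h
    have : f₀ ∈ E := hf₀eig
    rw [h, Submodule.mem_bot] at this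
    exact hf₀ this
  have hcomm : ∀ a ∈ heckeGenerators N 2 (∅ : Set ℕ), ∀ b ∈ heckeGenerators N 2 (∅ : Set ℕ),
      Commute a b := fun a ha b hb => commute_of_mem_heckeGenerators ha hb
  have hstab : ∀ a ∈ heckeGenerators N 2 (∅ : Set ℕ), ∀ w ∈ E, a w ∈ E := by
    intro a ha w hw t
    have ha' : a ∈ heckeAlgebra N 2 (∅ : Set ℕ) := Algebra.subset_adjoin ha
    have ht' : (t : Module.End ℂ (CuspForm (Gamma0 N) 2)) ∈ heckeAlgebra N 2 (∅ : Set ℕ) :=
      heckeAlgebra_mono (Set.empty_subset S) t.2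
    have hc : (t : Module.End ℂ (CuspForm (Gamma0 N) 2)) * a
        = a * (t : Module.End ℂ (CuspForm (Gamma0 N) 2)) :=
      congrArg Subtype.val
        (mul_comm (⟨(t : Module.End ℂ (CuspForm (Gamma0 N) 2)), ht'⟩ :
          ↥(heckeAlgebra N 2 (∅ : Set ℕ))) ⟨a, ha'⟩)
    have h1 : φ t (a w) = a (φ t w) := by
      rw [hφ, ← Module.End.mul_apply, hc, Module.End.mul_apply]
    rw [h1, hw t, map_smul]
  obtain ⟨v, hvE, hv0, hv⟩ :=
    Fermat.Agent.S49.exists_common_eigenvector (heckeGenerators N 2 (∅ : Set ℕ)) hcomm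
      (Module.finrank ℂ E) E rfl hE hstab
  have hT : ∀ (ℓ : ℕ) (hℓ : ℓ.Prime) (hℓN : ¬ ℓ ∣ N),
      ∃ μ : ℂ, heckeTLin 2 hℓ hℓN v = μ • v := fun ℓ hℓ hℓN =>
    hv _ (heckeTLin_mem_heckeGenerators hℓ hℓN (Set.notMem_empty ℓ))
  have hU : ∀ (q : ℕ) (hq : q.Prime) (hqN : q ∣ N),
      ∃ μ : ℂ, heckeULin 2 hqN v = μ • v := fun q hq hqN =>
    hv _ (heckeULin_mem_heckeGenerators hq hqN (Set.notMem_empty q))
  let θn : ℕ → ℂ := fun p =>
    if hp : p.Prime then
      (if hpN : p ∣ N then (hU p hp hpN).choose else (hT p hp hpN).choose)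
    else 0
  have hTn : ∀ (ℓ : ℕ) (hℓ : ℓ.Prime) (hℓN : ¬ ℓ ∣ N),
      heckeTLin 2 hℓ hℓN v = θn ℓ • v := by
    intro ℓ hℓ hℓN
    have : θn ℓ = (hT ℓ hℓ hℓN).choose := by
      simp only [θn, dif_pos hℓ, dif_neg hℓN]
    rw [this]
    exact (hT ℓ hℓ hℓN).choose_spec
  have hUn : ∀ (q : ℕ) (hq : q.Prime) (hqN : q ∣ N),
      heckeULin 2 hqN v = θn q • v := by
    intro q hq hqN
    have : θn q = (hU q hq hqN).choose := by
      simp only [θn, dif_pos hq, dif_pos hqN]
    rw [this]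
    exact (hU q hq hqN).choose_spec
  obtain ⟨G, hG, hGθ⟩ := exists_normalizedEigenform_of_eigenvector v hv0 θn hTn
    (fun q hq hqN => hUn q hq hqN)
  have huniq : ∀ c c' : ℂ, c • v = c' • v → c = c' := by
    intro c c' h
    have : (c - c') • v = 0 := by rw [sub_smul, h, sub_self]
    rcases smul_eq_zero.mp this with h' | h'
    · exact sub_eq_zero.mp h'
    · exact absurd h' hv0
  -- step 3: the embedding of the range
  let ι : ↥χ.range →+* ℂ :=
    RingHom.liftOfSurjective (C := ℂ) χ.rangeRestrict χ.rangeRestrict_surjective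
      ⟨θ₀, fun t ht => by
        rw [RingHom.mem_ker] at ht
        have h1 : χ t = 0 := by
          have := congrArg Subtype.val ht
          simpa using this
        exact hkereq h1⟩
  have hι : ∀ t, ι (χ.rangeRestrict t) = θ₀ t := fun t =>
    RingHom.liftOfSurjective_comp_apply (C := ℂ) χ.rangeRestrict χ.rangeRestrict_surjective _ t
  have hιinj : Function.Injective ι := by
    rw [injective_iff_map_eq_zero]
    intro x hx
    obtain ⟨t, rfl⟩ := χ.rangeRestrict_surjective x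
    rw [hι] at hx
    have h1 : χ t = 0 := hker hx
    apply Subtype.ext
    simpa using h1
  refine ⟨ι, hιinj, G, hG, ?_, ?_⟩
  · intro ℓ hℓ hℓN hℓS
    rw [hι, hGθ ℓ hℓ]
    apply huniq
    rw [← hTn ℓ hℓ hℓN]
    have := hvE (heckeAlgebra.T hℓ hℓN hℓS)
    rw [hφ, heckeAlgebra.coe_T] at this
    exact this
  · intro q hq hqN hqS
    rw [hι, hGθ q hq]
    apply huniq
    rw [← hUn q hq hqN]
    have := hvE (heckeAlgebra.U hq hqN hqS)
    rw [hφ, heckeAlgebra.coe_U] at this
    exact this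

/-- **(D-form)** in helper52's spelling (`S' : Finset ℕ`). -/
theorem exists_eigenform_of_point (S' : Finset ℕ) {D : Type*} [CommRing D] [IsDomain D]
    [CharZero D] (χ : ↥(heckeAlgebra N 2 (↑S' : Set ℕ)) →+* D) :
    ∃ ι : ↥χ.range →+* ℂ, Function.Injective ι ∧
      ∃ G : CuspForm (Gamma0 N) 2, G.IsNormalizedEigenform ∧
        (∀ (ℓ : ℕ) (hℓ : ℓ.Prime) (hℓN : ¬ ℓ ∣ N) (hℓS : ℓ ∉ (↑S' : Set ℕ)),
          qCoeff G ℓ = ι (χ.rangeRestrict (heckeAlgebra.T hℓ hℓN hℓS))) ∧
        (∀ (q : ℕ) (hq : q.Prime) (hqN : q ∣ N) (hqS : q ∉ (↑S' : Set ℕ)),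
          qCoeff G q = ι (χ.rangeRestrict (heckeAlgebra.U hq hqN hqS))) :=
  exists_eigenform_of_point_set (↑S' : Set ℕ) χ

end Fermat.Agent.GB.B7.Point
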