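/-
GATE-B / GB-B7-TKILL, leaf (B0) (helper52): **depletion of a weight-2 cusp form on `Γ₀(N)` at one
prime `l`, staying on `Γ₀`**: `depl l f = f − V_l U_l f` of level `Γ₀(N l²)`, with
`a_n(depl l f) = [l ∤ n] a_n(f)`; it preserves Prelude `IsNormalizedEigenform`.
Everything from main: `GE/Mod/Stab` (`restrict`, `Vq`, `qCoeff_Vq`), Prelude `heckeULin`,
`S49.qCoeff_heckeULin`.  (The B5 depletion of helper8 is a coset slash sum; this one is the
`q`-expansion twin and needs no new modularity proof.)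

* `depl`, `qCoeff_depl`;
* `isNormalizedEigenform_depl`;
* `exists_depleted` : depletion at a finite set `D` of primes: level `N * ∏_{l ∈ D} l²`.
-/
import Mathlib
import Fermat.Agent.S49.Basic
import Fermat.Agent.GE.Mod.Stab
import Fermat.Prelude.Def_FLTPrelim_Modularity

set_option autoImplicit false

open ModularFormClass CongruenceSubgroup UpperHalfPlane

namespace Fermat.Agent.GB.B7.Depl

open Fermat.Agent.GE.Mod.Stab (restrict G0 G0_mul_le Vq qCoeff_Vq)

theorem qCoeff_sub' {N : ℕ} (f g : CuspForm (Gamma0 N) 2) (n : ℕ) :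
    qCoeff ⇑(f - g) n = qCoeff ⇑f n - qCoeff ⇑g n := by
  have h : f - g = f + (-1 : ℂ) • g := by
    rw [neg_one_smul, sub_eq_add_neg]
  rw [h, Fermat.Agent.S49.qCoeff_add, Fermat.Agent.S49.qCoeff_smul]
  ring

/-- depletion at the prime `l`: `f − V_l U_l f`, of level `Γ₀(N l l)` -/
noncomputable def depl (l : ℕ) {N : ℕ} [NeZero N] [NeZero l] (f : CuspForm (Gamma0 N) 2) :
    CuspForm (Gamma0 (N * l * l)) 2 :=
  haveI : NeZero (N * l) := ⟨Nat.mul_ne_zero (NeZero.ne N) (NeZero.ne l)⟩
  restrict (G0_mul_le (N * l) l) (restrict (G0_mul_le N l) f) -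
    Vq l (CuspForm.heckeULin 2 (Dvd.intro_left N rfl : l ∣ N * l) (restrict (G0_mul_le N l) f))

theorem qCoeff_depl {l : ℕ} (hl : l.Prime) {N : ℕ} [NeZero N] [NeZero l]
    (f : CuspForm (Gamma0 N) 2) (n : ℕ) :
    qCoeff (depl l f) n = if l ∣ n then 0 else qCoeff f n := by
  haveI : NeZero (N * l) := ⟨Nat.mul_ne_zero (NeZero.ne N) (NeZero.ne l)⟩
  unfold depl
  rw [qCoeff_sub', qCoeff_Vq hl.ne_zero]
  have h1 : ∀ m, qCoeff (restrict (G0_mul_le (N * l) l) (restrict (G0_mul_le N l) f)) m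
      = qCoeff f m := fun m => rfl
  rw [h1]
  split_ifs with h
  · rw [Fermat.Agent.S49.qCoeff_heckeULin hl, Nat.div_mul_cancel h]
    have h2 : ∀ m, qCoeff (restrict (G0_mul_le N l) f) m = qCoeff f m := fun m => rfl
    rw [h2, sub_self]
  · rw [sub_zero]

/-- depletion preserves normalised eigenforms -/
theorem isNormalizedEigenform_depl {l : ℕ} (hl : l.Prime) {N : ℕ} [NeZero N] [NeZero l]
    {f : CuspForm (Gamma0 N) 2} (hf : f.IsNormalizedEigenform) :
    (depl l f).IsNormalizedEigenform := by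
  refine ⟨?_, ?_, ?_, ?_⟩
  · rw [qCoeff_depl hl, if_neg (fun h => hl.one_lt.ne' (Nat.dvd_one.mp h))]
    exact hf.qCoeff_one
  · intro m n hmn
    rw [qCoeff_depl hl, qCoeff_depl hl, qCoeff_depl hl]
    by_cases hm : l ∣ m
    · rw [if_pos (hm.mul_right n), if_pos hm, zero_mul]
    · by_cases hn : l ∣ n
      · rw [if_pos (hn.mul_left m), if_pos hn, mul_zero]
      · rw [if_neg hm, if_neg hn, if_neg, hf.qCoeff_mul_of_coprime m n hmn]
        intro h
        rcases (Nat.Prime.dvd_mul hl).mp h with h | h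
        · exact hm h
        · exact hn h
  · intro p r hp hpN
    have hpl : p ≠ l := by
      rintro rfl
      exact hpN (Dvd.intro_left _ rfl)
    have hpN' : ¬ p ∣ N := fun h => hpN ((h.mul_right l).mul_right l)
    have hnd : ∀ k, ¬ l ∣ p ^ k := by
      intro k h
      exact hpl ((Nat.prime_dvd_prime_iff_eq hl hp).mp (hl.dvd_of_dvd_pow h)).symm
    rw [qCoeff_depl hl, qCoeff_depl hl, qCoeff_depl hl, qCoeff_depl hl,
      if_neg (hnd _), if_neg (hnd _), if_neg (hnd _)]
    have h1 : ¬ l ∣ p := by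
      intro h
      exact hpl ((Nat.prime_dvd_prime_iff_eq hl hp).mp h).symm
    rw [if_neg h1]
    exact hf.qCoeff_prime_pow_of_not_dvd p r hp hpN'
  · intro p r hp hpN
    by_cases hpl : p = l
    · subst hpl
      rw [qCoeff_depl hl, if_pos (dvd_pow_self p (Nat.succ_ne_zero _)), qCoeff_depl hl,
        if_pos (dvd_refl p), zero_mul]
    · have h1 : ¬ l ∣ p := by
        intro h
        exact hpl ((Nat.prime_dvd_prime_iff_eq hl hp).mp h).symm
      have hnd : ∀ k, ¬ l ∣ p ^ k := by
        intro k h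
        exact h1 (hl.dvd_of_dvd_pow h)
      have hpN' : p ∣ N := by
        rcases (Nat.Prime.dvd_mul hp).mp hpN with h | h
        · rcases (Nat.Prime.dvd_mul hp).mp h with h | h
          · exact h
          · exact absurd ((Nat.prime_dvd_prime_iff_eq hp hl).mp h) hpl
        · exact absurd ((Nat.prime_dvd_prime_iff_eq hp hl).mp h) hpl
      rw [qCoeff_depl hl, qCoeff_depl hl, qCoeff_depl hl, if_neg (hnd _), if_neg (hnd _),
        if_neg h1]
      exact hf.qCoeff_prime_pow_of_dvd p r hp hpN'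

/-- **depletion at a finite set of primes**, in existence form: level `N * ∏_{l ∈ D} l * l`. -/
theorem exists_depleted {N : ℕ} [NeZero N] {f : CuspForm (Gamma0 N) 2}
    (hf : f.IsNormalizedEigenform) (D : Finset ℕ) (hD : ∀ l ∈ D, l.Prime) :
    ∃ g : CuspForm (Gamma0 (N * ∏ l ∈ D, l * l)) 2, g.IsNormalizedEigenform ∧
      ∀ n, qCoeff g n = if ∃ l ∈ D, l ∣ n then 0 else qCoeff f n := by
  classical
  induction D using Finset.induction_on with
  | empty =>
    have key : ∀ M : ℕ, M = N → ∃ g : CuspForm (Gamma0 M) 2, g.IsNormalizedEigenform ∧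
        ∀ n, qCoeff g n = if ∃ l ∈ (∅ : Finset ℕ), l ∣ n then 0 else qCoeff f n := by
      rintro M rfl
      exact ⟨f, hf, fun n => by simp⟩
    exact key _ (by simp)
  | insert a s ha ih =>
    obtain ⟨g, hg, hgc⟩ := ih (fun l hl => hD l (Finset.mem_insert_of_mem hl))
    have hap : a.Prime := hD a (Finset.mem_insert_self a s)
    haveI : NeZero a := ⟨hap.ne_zero⟩
    haveI : NeZero (N * ∏ l ∈ s, l * l) := ⟨by
      refine Nat.mul_ne_zero (NeZero.ne N) (Finset.prod_ne_zero_iff.mpr fun l hl => ?_)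
      have := (hD l (Finset.mem_insert_of_mem hl)).ne_zero
      exact Nat.mul_ne_zero this this⟩
    have key : ∀ M : ℕ, M = N * ∏ l ∈ insert a s, l * l →
        (∃ g' : CuspForm (Gamma0 M) 2, g'.IsNormalizedEigenform ∧
          ∀ n, qCoeff g' n = if ∃ l ∈ insert a s, l ∣ n then 0 else qCoeff f n) →
        ∃ g' : CuspForm (Gamma0 (N * ∏ l ∈ insert a s, l * l)) 2, g'.IsNormalizedEigenform ∧
          ∀ n, qCoeff g' n = if ∃ l ∈ insert a s, l ∣ n then 0 else qCoeff f n := by
      rintro M rfl h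
      exact h
    refine key (N * (∏ l ∈ s, l * l) * a * a) ?_ ⟨depl a g, isNormalizedEigenform_depl hap hg,
      fun n => ?_⟩
    · rw [Finset.prod_insert ha]
      ring
    · rw [qCoeff_depl hap, hgc n]
      by_cases h1 : a ∣ n
      · rw [if_pos h1, if_pos ⟨a, Finset.mem_insert_self a s, h1⟩]
      · rw [if_neg h1]
        by_cases h2 : ∃ l ∈ s, l ∣ n
        · obtain ⟨l, hl, hln⟩ := h2
          rw [if_pos ⟨l, hl, hln⟩, if_pos ⟨l, Finset.mem_insert_of_mem hl, hln⟩]
        · rw [if_neg h2, if_neg]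
          rintro ⟨l, hl, hln⟩
          rcases Finset.mem_insert.mp hl with rfl | hl
          · exact h1 hln
          · exact h2 ⟨l, hl, hln⟩

end Fermat.Agent.GB.B7.Depl
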