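/-
GATE-B / GB-B7-TKILL, leaf (B) (helper52): **S35 for eigenforms with `a_q² = 1`** (not necessarily
newforms), in the shape consumed by B7: a GIVEN `ρ : GaloisRepAdic 𝒪'` with the good characteristic
polynomials of an eigensystem `χ : heckeAlgebra N 2 S →+* 𝒪'` carried by a normalised eigenform `G`
of level `N`, `q ∥ N`, `q ≠ lam`, `a_q(G)² = 1`
  ⟹ for every Frobenius lift `σ` at `q`:  charpoly ρ(σ) = X² ∓ (q+1) X + q.

Proof: `h` := newform companion of `G` (GE/Mod/MinLevel), level `M₁ ∣ N`.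
* `q ∣ M₁`: frozen S35 for `h`;
* `q ∤ M₁`: deplete `G` and `h` at the primes of `N` other than `q` (`Depl.exists_depleted`), QROOT
  (`QRoot.qroot`, from the binder `Desc` = Miyake 4.6.5) gives `a_q(h) = a_q(G)(1+q)`, and frozen
  S30 for `h` with `S \ {q}` gives the characteristic polynomial at the now GOOD prime `q`.
In both cases the comparison with the given `ρ` is `GE/Transfer.charpoly_eq_of_frobenius`.
-/
import Mathlib
import Fermat.Agent.GB.B7.QRoot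
import Fermat.Agent.GB.B7.Depl
import Fermat.Agent.GB.B5.Depl.EigenCoeff
import Fermat.Agent.GE.Mod.MinLevel
import Fermat.Agent.GE.Transfer
import Fermat.Agent.GJ.J4.EigChar
import Fermat.Agent.S54.Formal
import Fermat.Agent.S30
import Fermat.Agent.S35

set_option autoImplicit false

open ModularFormClass CongruenceSubgroup UpperHalfPlane Polynomial CuspForm

namespace Fermat.Agent.GB.B7.S35Plus

open Fermat.Agent.GB.B7.QRoot Fermat.Agent.GB.B7.Depl
open Fermat.Agent.GE.Mod.Stab (restrict G0)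

/-- `ℚ̄`. -/
local notation "Qb" => AlgebraicClosure ℚ
/-- `G_ℚ`. -/
local notation "GQ" => (AlgebraicClosure ℚ ≃ₐ[ℚ] AlgebraicClosure ℚ)

/-! ### level bookkeeping -/

theorem exists_cast_level {A B : ℕ} (h : A = B) (f : CuspForm (Gamma0 A) 2) :
    ∃ f' : CuspForm (Gamma0 B) 2, ∀ n, qCoeff f' n = qCoeff f n := by
  subst h
  exact ⟨f, fun _ => rfl⟩

theorem gamma0_le_of_dvd {A B : ℕ} (h : A ∣ B) : Gamma0 B ≤ Gamma0 A := by
  intro γ hγ
  rw [Gamma0_mem] at hγ ⊢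
  rw [ZMod.intCast_zmod_eq_zero_iff_dvd] at hγ ⊢
  exact (Int.natCast_dvd_natCast.mpr h).trans hγ

theorem exists_restrict_level {A B : ℕ} (h : A ∣ B) (f : CuspForm (Gamma0 A) 2) :
    ∃ f' : CuspForm (Gamma0 B) 2, ∀ n, qCoeff f' n = qCoeff f n :=
  ⟨restrict (Subgroup.map_mono (gamma0_le_of_dvd h)) f, fun _ => rfl⟩

/-! ### the arithmetic core: `q ∤ M₁` ⟹ `a_q(h) = a_q(G) (1 + q)` -/

/-- **QROOT for a pair (eigenform, companion of level prime to `q`)**. -/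
theorem qCoeff_companion_eq (hD : Desc) {N M₁ q : ℕ} [NeZero N] (hq : q.Prime) (hqN : q ∣ N)
    (hq2 : ¬ q ^ 2 ∣ N) (hM₁N : M₁ ∣ N) (hqM₁ : ¬ q ∣ M₁)
    {G : CuspForm (Gamma0 N) 2} (hG : G.IsNormalizedEigenform)
    {h : CuspForm (Gamma0 M₁) 2} (hh : h.IsNormalizedEigenform)
    (hhG : ∀ ℓ : ℕ, ℓ.Prime → ¬ ℓ ∣ N → qCoeff h ℓ = qCoeff G ℓ) :
    qCoeff G q ^ 2 - qCoeff h q * qCoeff G q + q = 0 := by
  classical
  have hN0 : N ≠ 0 := NeZero.ne N
  have hM₁0 : M₁ ≠ 0 := fun h0 => hN0 (by rw [h0] at hM₁N; exact Nat.eq_zero_of_zero_dvd hM₁N)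
  haveI : NeZero M₁ := ⟨hM₁0⟩
  -- the set of bad primes other than `q`
  set D : Finset ℕ := N.primeFactors.erase q with hDdef
  have hDprime : ∀ l ∈ D, l.Prime := fun l hl =>
    Nat.prime_of_mem_primeFactors (Finset.mem_of_mem_erase hl)
  have hDq : ∀ l ∈ D, l ≠ q := fun l hl => Finset.ne_of_mem_erase hl
  set P : ℕ := ∏ l ∈ D, l * l with hP
  have hP0 : P ≠ 0 := Finset.prod_ne_zero_iff.mpr fun l hl =>
    Nat.mul_ne_zero (hDprime l hl).ne_zero (hDprime l hl).ne_zero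
  have hqP : ¬ q ∣ P := by
    intro hdiv
    obtain ⟨l, hl, hql⟩ := (Prime.dvd_finset_prod_iff hq.prime _).mp hdiv
    have : q ∣ l := by
      rcases (Nat.Prime.dvd_mul hq).mp hql with h1 | h1 <;> exact h1
    exact hDq l hl ((Nat.prime_dvd_prime_iff_eq hq (hDprime l hl)).mp this).symm
  obtain ⟨F, hF, hFc⟩ := exists_depleted hG D hDprime
  obtain ⟨H, hH, hHc⟩ := exists_depleted hh D hDprime
  -- levels
  set N' : ℕ := N / q with hN'
  have hNq : N = N' * q := (Nat.div_mul_cancel hqN).symm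
  have hqN' : ¬ q ∣ N' := by
    intro hdiv
    apply hq2
    rw [hNq, pow_two]
    exact Nat.mul_dvd_mul_right hdiv q
  set N₀ : ℕ := N' * P with hN₀
  have hN'0 : N' ≠ 0 := fun h0 => hN0 (by rw [hNq, h0, zero_mul])
  haveI : NeZero N₀ := ⟨Nat.mul_ne_zero hN'0 hP0⟩
  have hqN₀ : ¬ q ∣ N₀ := by
    intro hdiv
    rcases (Nat.Prime.dvd_mul hq).mp hdiv with h1 | h1
    · exact hqN' h1
    · exact hqP h1
  have hM₁N' : M₁ ∣ N' := by
    have hcop : Nat.Coprime M₁ q := (Nat.coprime_comm.mp ((Nat.Prime.coprime_iff_not_dvd hq).mpr hqM₁))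
    have : M₁ ∣ N' * q := hNq ▸ hM₁N
    exact hcop.dvd_of_dvd_mul_right this
  obtain ⟨F', hF'c⟩ := exists_cast_level (show N * P = N₀ * q by rw [hN₀, hNq]; ring) F
  obtain ⟨H', hH'c⟩ := exists_restrict_level (show M₁ * P ∣ N₀ from Nat.mul_dvd_mul_right hM₁N' P) H
  -- no prime of `D` divides `q`
  have hDq' : ¬ ∃ l ∈ D, l ∣ q := by
    rintro ⟨l, hl, hlq⟩
    exact hDq l hl ((Nat.prime_dvd_prime_iff_eq (hDprime l hl) hq).mp hlq)
  have hFq : qCoeff F q = qCoeff G q := by rw [hFc, if_neg hDq']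
  have hHq : qCoeff H q = qCoeff h q := by rw [hHc, if_neg hDq']
  have hqNP : q ∣ N * P := hqN.mul_right P
  have hqM₁P : ¬ q ∣ M₁ * P := by
    intro hdiv
    rcases (Nat.Prime.dvd_mul hq).mp hdiv with h1 | h1
    · exact hqM₁ h1
    · exact hqP h1
  have key := qroot hD hq hqN₀ F' H' (qCoeff G q) (qCoeff h q) ?_ ?_ ?_ ?_ ?_ ?_
  · exact key
  · rw [hF'c]; exact hF.qCoeff_one
  · rw [hH'c]; exact hH.qCoeff_one
  · intro n
    rw [hF'c, hF'c, mul_comm q n,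
      Fermat.Agent.GJ.EigChar.qCoeff_mul_prime_of_dvd hF hq hqNP n, hFq]
  · intro n hn
    rw [hH'c, hH'c, mul_comm q n]
    have := Fermat.Agent.GJ.EigChar.qCoeff_mul_prime_of_not_dvd hH hq hqM₁P n
    rw [if_neg hn, add_zero] at this
    rw [this, hHq]
  · rw [hH'c]
    have := Fermat.Agent.GJ.EigChar.qCoeff_mul_prime_of_not_dvd hH hq hqM₁P q
    rw [if_pos (dvd_refl q), Nat.div_self hq.pos, hH.qCoeff_one, mul_one, hHq] at this
    linear_combination this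
  · intro n hn
    rw [hF'c, hH'c, hFc, hHc]
    by_cases hex : ∃ l ∈ D, l ∣ n
    · rw [if_pos hex, if_pos hex]
    · rw [if_neg hex, if_neg hex]
      rcases Nat.eq_zero_or_pos n with rfl | hnpos
      · rw [Fermat.Agent.S49.qCoeff_cusp_zero, Fermat.Agent.S49.qCoeff_cusp_zero]
      · have hcop : n.Coprime N := by
          apply Nat.Coprime.symm
          rw [Nat.coprime_comm]
          apply Nat.coprime_of_dvd
          intro k hk hkn hkN
          by_cases hkq : k = q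
          · exact hn (hkq ▸ hkn)
          · exact hex ⟨k, Finset.mem_erase.mpr ⟨hkq, Nat.mem_primeFactors.mpr ⟨hk, hkN, hN0⟩⟩, hkn⟩
        exact Fermat.Agent.GB.B5.Depl.qCoeff_eq_of_coprime hG hh N (fun _ _ hp => hp)
          (fun p _ hp => hp.trans hM₁N) (fun ℓ hℓ hℓN => (hhG ℓ hℓ hℓN).symm) n hnpos.ne' hcop

/-- with `a_q(G)² = 1`: `a_q(h) = a_q(G) (1 + q)`. -/
theorem qCoeff_companion_eq' (hD : Desc) {N M₁ q : ℕ} [NeZero N] (hq : q.Prime) (hqN : q ∣ N)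
    (hq2 : ¬ q ^ 2 ∣ N) (hM₁N : M₁ ∣ N) (hqM₁ : ¬ q ∣ M₁)
    {G : CuspForm (Gamma0 N) 2} (hG : G.IsNormalizedEigenform)
    {h : CuspForm (Gamma0 M₁) 2} (hh : h.IsNormalizedEigenform)
    (hhG : ∀ ℓ : ℕ, ℓ.Prime → ¬ ℓ ∣ N → qCoeff h ℓ = qCoeff G ℓ)
    (hsq : qCoeff G q ^ 2 = 1) :
    qCoeff h q = qCoeff G q * (1 + q) := by
  have h1 := qCoeff_companion_eq hD hq hqN hq2 hM₁N hqM₁ hG hh hhG
  have h2 : qCoeff h q * qCoeff G q = 1 + q := by
    rw [hsq] at h1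
    linear_combination -h1
  calc qCoeff h q = qCoeff h q * (qCoeff G q ^ 2) := by rw [hsq, mul_one]
    _ = (qCoeff h q * qCoeff G q) * qCoeff G q := by ring
    _ = qCoeff G q * (1 + q) := by rw [h2]; ring


/-! ### the Galois side -/

section Galois

/-- an injective ring homomorphism is an isomorphism onto its range -/
noncomputable def rangeEquiv {O' : Type} [CommRing O'] {A : Subring O'} (ι : A →+* ℂ)
    (hι : Function.Injective ι) : A ≃+* ι.range :=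
  RingEquiv.ofBijective ι.rangeRestrict
    ⟨fun a b h => hι (by simpa using congrArg Subtype.val h), ι.rangeRestrict_surjective⟩

/-- the inverse of an injective ring homomorphism `ι : A →+* ℂ` (`A` a subring of `O'`) on its
range, valued in `O'`. -/
noncomputable def invOnRange {O' : Type} [CommRing O'] {A : Subring O'} (ι : A →+* ℂ)
    (hι : Function.Injective ι) : ι.range →+* O' :=
  (Subring.subtype A).comp ((rangeEquiv ι hι).symm : ι.range →+* A)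

theorem invOnRange_apply {O' : Type} [CommRing O'] {A : Subring O'} (ι : A →+* ℂ)
    (hι : Function.Injective ι) (a : A) (h : ι a ∈ ι.range) :
    invOnRange ι hι ⟨ι a, h⟩ = (a : O') := by
  have h1 : (⟨ι a, h⟩ : ι.range) = rangeEquiv ι hι a := rfl
  show (Subring.subtype A) ((rangeEquiv ι hι).symm ⟨ι a, h⟩) = _
  rw [h1, RingEquiv.symm_apply_apply]
  rfl

theorem invOnRange_intCast {O' : Type} [CommRing O'] {A : Subring O'} (ι : A →+* ℂ)
    (hι : Function.Injective ι) (n : ℤ) (h : (n : ℂ) ∈ ι.range) :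
    invOnRange ι hι ⟨(n : ℂ), h⟩ = (n : O') := by
  have h1 : ι (n : A) = (n : ℂ) := map_intCast ι n
  have h2 : (⟨(n : ℂ), h⟩ : ι.range) = ⟨ι (n : A), h1 ▸ h⟩ := Subtype.ext h1.symm
  rw [h2, invOnRange_apply]
  simp

variable {N : ℕ} [NeZero N]

/-- **S35 for eigenforms with `a_q² = 1`**, for a given `ρ`. -/
theorem charpoly_frob_of_sq_eq_one (hD : Desc)
    (lam : ℕ) [Fact lam.Prime] (S : Finset ℕ)
    (O' : Type) [CommRing O'] [IsDomain O'] [IsDiscreteValuationRing O']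
    [IsAdicComplete (IsLocalRing.maximalIdeal O') O'] [Finite (IsLocalRing.ResidueField O')]
    [CharZero O'] (hlamO' : (lam : O') ∈ IsLocalRing.maximalIdeal O')
    (hlamS : lam ∈ S) (hNS : ∀ r : ℕ, r.Prime → r ∣ N → r ∈ S)
    (χ : CuspForm.heckeAlgebra N 2 (↑S : Set ℕ) →+* O')
    {G : CuspForm (Gamma0 N) 2} (hG : G.IsNormalizedEigenform)
    (ι : χ.range →+* ℂ) (hι : Function.Injective ι)
    (hGχ : ∀ (ℓ : ℕ) (hℓ : ℓ.Prime) (hℓN : ¬ ℓ ∣ N) (hℓS : ℓ ∉ (↑S : Set ℕ)),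
      ι (χ.rangeRestrict (CuspForm.heckeAlgebra.T hℓ hℓN hℓS)) = qCoeff G ℓ)
    (q : ℕ) (hq : q.Prime) (hqlam : q ≠ lam) (hqN : q ∣ N) (hq2 : ¬ q ^ 2 ∣ N)
    (hsq : qCoeff G q ^ 2 = 1)
    (ρ : GaloisRepAdic O')
    (hρ : ∀ (ℓ : ℕ) (hℓ : ℓ.Prime) (hℓN : ¬ ℓ ∣ N) (hℓS : ℓ ∉ (↑S : Set ℕ)),
      ∀ A : ValuationSubring Qb, A.LiesOverPrime ℓ → ∀ σ : GQ, A.IsFrobeniusAt σ ℓ →
        LinearMap.charpoly (ρ.ρ σ) =
          X ^ 2 - C (χ (CuspForm.heckeAlgebra.T hℓ hℓN hℓS)) * X + C ((ℓ : O'))) :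
    ∀ A : ValuationSubring Qb, A.LiesOverPrime q → ∀ σ : GQ, A.IsFrobeniusAt σ q →
      LinearMap.charpoly (ρ.ρ σ) = X ^ 2 - C ((q : O') + 1) * X + C ((q : O')) ∨
      LinearMap.charpoly (ρ.ρ σ) = X ^ 2 + C ((q : O') + 1) * X + C ((q : O')) := by
  classical
  intro A hA σ hσ
  have hN0 : N ≠ 0 := NeZero.ne N
  obtain ⟨M₁, hM₁N, h, hh, hhG⟩ :=
    Fermat.Agent.GE.Mod.MinLevel.exists_isNewform_of_isNormalizedEigenform hG
  have hM₁0 : M₁ ≠ 0 := fun h0 => hN0 (by rw [h0] at hM₁N; exact Nat.eq_zero_of_zero_dvd hM₁N)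
  haveI : NeZero M₁ := ⟨hM₁0⟩
  set R : Subring ℂ := ι.range with hR
  set e : R →+* O' := invOnRange ι hι with he
  -- good coefficients of `h` lie in `R`, and `e` sends them to `χ (T_ℓ)`
  have hgoodR : ∀ (ℓ : ℕ) (hℓ : ℓ.Prime) (hℓN : ¬ ℓ ∣ N) (hℓS : ℓ ∉ (↑S : Set ℕ)),
      ∃ hm : qCoeff h ℓ ∈ R, e ⟨qCoeff h ℓ, hm⟩ = χ (CuspForm.heckeAlgebra.T hℓ hℓN hℓS) := by
    intro ℓ hℓ hℓN hℓS
    have h1 : qCoeff h ℓ = ι (χ.rangeRestrict (CuspForm.heckeAlgebra.T hℓ hℓN hℓS)) := by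
      rw [hGχ ℓ hℓ hℓN hℓS, hhG ℓ hℓ hℓN]
    have hm : qCoeff h ℓ ∈ R := h1 ▸ ⟨_, rfl⟩
    refine ⟨hm, ?_⟩
    have h2 : (⟨qCoeff h ℓ, hm⟩ : R) =
        ⟨ι (χ.rangeRestrict (CuspForm.heckeAlgebra.T hℓ hℓN hℓS)), ⟨_, rfl⟩⟩ := Subtype.ext h1
    rw [h2, he, invOnRange_apply]
    rfl
  have hHaus : ∀ (O'' : Type) [CommRing O''] [IsLocalRing O'']
      [IsAdicComplete (IsLocalRing.maximalIdeal O'') O''],
      IsHausdorff (IsLocalRing.maximalIdeal O'') O'' := fun O'' _ _ _ => inferInstance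
  by_cases hqM₁ : q ∣ M₁
  · -- CASE A: frozen S35 for the newform `h`
    have hM₁S : ∀ r : ℕ, r.Prime → r ∣ M₁ → r ∈ S := fun r hr hrM => hNS r hr (hrM.trans hM₁N)
    set chih : CuspForm.heckeAlgebra M₁ 2 (↑S : Set ℕ) →+* ℂ :=
      Fermat.Agent.GJ.EigChar.lam hh.1 with hchih
    have hchihT : ∀ (ℓ : ℕ) (hℓ : ℓ.Prime) (hℓM : ¬ ℓ ∣ M₁) (hℓS : ℓ ∉ (↑S : Set ℕ)),
        chih (CuspForm.heckeAlgebra.T hℓ hℓM hℓS) = qCoeff h ℓ :=
      fun ℓ hℓ hℓM hℓS => Fermat.Agent.GJ.EigChar.lam_T hh.1 hℓ hℓM hℓS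
    have hmem : ∀ t, chih t ∈ R := by
      intro t
      refine Fermat.Agent.S54.pi_mem_of_T_mem chih (fun r hr hrM => hM₁S r hr hrM) R ?_ t
      intro ℓ hℓ hℓM hℓS
      rw [hchihT ℓ hℓ hℓM hℓS]
      have hℓN : ¬ ℓ ∣ N := fun hd => hℓS (hNS ℓ hℓ hd)
      exact (hgoodR ℓ hℓ hℓN hℓS).1
    have hle : chih.range ≤ R := by
      rintro _ ⟨t, rfl⟩
      exact hmem t
    set iota : chih.range →+* O' := e.comp (Subring.inclusion hle) with hiota
    have hq2M : ¬ q ^ 2 ∣ M₁ := fun hd => hq2 (hd.trans hM₁N)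
    obtain ⟨O'', i1, i2, i3, i4, i5, i6, i7, i8, i9, hinj, ρ'', hρ1, hρ2⟩ :=
      Fermat.Agent.S35.result hh lam S O' hlamO' chih hchihT iota hlamS hM₁S
    have hcmp : ∀ τ : GQ, LinearMap.charpoly ((ρ.baseChangeAlong (algebraMap O' O'') i9).ρ τ) =
        LinearMap.charpoly (ρ''.ρ τ) := by
      intro τ
      refine Fermat.Agent.GE.Transfer.charpoly_eq_of_frobenius _ _ S ?_ τ
      intro ℓ hℓ hℓS B hB τ' hτ'
      have hℓS' : ℓ ∉ (↑S : Set ℕ) := by simpa using hℓS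
      have hℓN : ¬ ℓ ∣ N := fun hd => hℓS (hNS ℓ hℓ hd)
      have hℓM : ¬ ℓ ∣ M₁ := fun hd => hℓN (hd.trans hM₁N)
      rw [Fermat.Agent.S54.charpoly_baseChangeAlong, hρ ℓ hℓ hℓN hℓS' B hB τ' hτ',
        hρ1 ℓ hℓ hℓM hℓS' B hB τ' hτ']
      obtain ⟨hm, hem⟩ := hgoodR ℓ hℓ hℓN hℓS'
      have h3 : (iota.comp chih.rangeRestrict) (CuspForm.heckeAlgebra.T hℓ hℓM hℓS') =
          χ (CuspForm.heckeAlgebra.T hℓ hℓN hℓS') := by
        rw [← hem, hiota]
        show e (Subring.inclusion hle (chih.rangeRestrict _)) = _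
        congr 1
        apply Subtype.ext
        exact hchihT ℓ hℓ hℓM hℓS'
      rw [h3]
      simp [Polynomial.map_sub, Polynomial.map_add, Polynomial.map_mul, Polynomial.map_pow]
    have hfin := hρ2 q hq hqlam hqM₁ hq2M A hA σ hσ
    rw [← hcmp σ, Fermat.Agent.S54.charpoly_baseChangeAlong] at hfin
    have hmapinj := Polynomial.map_injective (algebraMap O' O'') hinj
    rcases hfin with h1 | h1
    · left
      apply hmapinj
      rw [h1]
      simp [Polynomial.map_sub, Polynomial.map_add, Polynomial.map_mul, Polynomial.map_pow]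
    · right
      apply hmapinj
      rw [h1]
      simp [Polynomial.map_sub, Polynomial.map_add, Polynomial.map_mul, Polynomial.map_pow]
  · -- CASE B: `q ∤ M₁`; QROOT + frozen S30 with `S \ {q}`
    have hcoef := qCoeff_companion_eq' hD hq hqN hq2 hM₁N hqM₁ hG hh.1 hhG hsq
    have hpm : qCoeff G q = 1 ∨ qCoeff G q = -1 := by
      have : (qCoeff G q - 1) * (qCoeff G q + 1) = 0 := by linear_combination hsq
      rcases mul_eq_zero.mp this with h1 | h1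
      · left; linear_combination h1
      · right; linear_combination h1
    -- the integer `a_q(h) = ±(1+q)`
    obtain ⟨z, hz, hzO⟩ : ∃ z : ℤ, qCoeff h q = (z : ℂ) ∧
        ((z : O') = (q : O') + 1 ∨ (z : O') = -((q : O') + 1)) := by
      rcases hpm with h1 | h1
      · refine ⟨(q : ℤ) + 1, ?_, Or.inl (by push_cast; ring)⟩
        rw [hcoef, h1]; push_cast; ring
      · refine ⟨-((q : ℤ) + 1), ?_, Or.inr (by push_cast; ring)⟩
        rw [hcoef, h1]; push_cast; ring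
    set S₁ : Finset ℕ := S.erase q with hS₁
    have hlamS₁ : lam ∈ S₁ := Finset.mem_erase.mpr ⟨fun h0 => hqlam h0.symm, hlamS⟩
    have hM₁S₁ : ∀ r : ℕ, r.Prime → r ∣ M₁ → r ∈ S₁ := fun r hr hrM =>
      Finset.mem_erase.mpr ⟨fun h0 => hqM₁ (h0 ▸ hrM), hNS r hr (hrM.trans hM₁N)⟩
    set chih : CuspForm.heckeAlgebra M₁ 2 (↑S₁ : Set ℕ) →+* ℂ :=
      Fermat.Agent.GJ.EigChar.lam hh.1 with hchih
    have hchihT : ∀ (ℓ : ℕ) (hℓ : ℓ.Prime) (hℓM : ¬ ℓ ∣ M₁) (hℓS : ℓ ∉ (↑S₁ : Set ℕ)),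
        chih (CuspForm.heckeAlgebra.T hℓ hℓM hℓS) = qCoeff h ℓ :=
      fun ℓ hℓ hℓM hℓS => Fermat.Agent.GJ.EigChar.lam_T hh.1 hℓ hℓM hℓS
    have hmem : ∀ t, chih t ∈ R := by
      intro t
      refine Fermat.Agent.S54.pi_mem_of_T_mem chih (fun r hr hrM => hM₁S₁ r hr hrM) R ?_ t
      intro ℓ hℓ hℓM hℓS
      rw [hchihT ℓ hℓ hℓM hℓS]
      by_cases hℓq : ℓ = q
      · rw [hℓq, hz]
        exact intCast_mem R z
      · have hℓS' : ℓ ∉ (↑S : Set ℕ) := by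
          intro hmemS
          apply hℓS
          simp only [hS₁, Finset.coe_erase, Set.mem_diff, Set.mem_singleton_iff]
          exact ⟨hmemS, hℓq⟩
        have hℓN : ¬ ℓ ∣ N := fun hd => hℓS' (hNS ℓ hℓ hd)
        exact (hgoodR ℓ hℓ hℓN hℓS').1
    set χh : CuspForm.heckeAlgebra M₁ 2 (↑S₁ : Set ℕ) →+* O' :=
      e.comp (chih.codRestrict R hmem) with hχh
    obtain ⟨O'', i1, i2, i3, i4, i5, i6, i7, i8, i9, hinj, ρ'', hρ1, -⟩ :=
      Fermat.Agent.S30.result lam M₁ S₁ hlamS₁ hM₁S₁ O' hlamO' χh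
    have hcmp : ∀ τ : GQ, LinearMap.charpoly ((ρ.baseChangeAlong (algebraMap O' O'') i9).ρ τ) =
        LinearMap.charpoly (ρ''.ρ τ) := by
      intro τ
      refine Fermat.Agent.GE.Transfer.charpoly_eq_of_frobenius _ _ S ?_ τ
      intro ℓ hℓ hℓS B hB τ' hτ'
      have hℓS' : ℓ ∉ (↑S : Set ℕ) := by simpa using hℓS
      have hℓS₁ : ℓ ∉ (↑S₁ : Set ℕ) := by
        intro hmemS
        apply hℓS'
        simp only [hS₁, Finset.coe_erase, Set.mem_diff] at hmemS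
        exact hmemS.1
      have hℓN : ¬ ℓ ∣ N := fun hd => hℓS (hNS ℓ hℓ hd)
      have hℓM : ¬ ℓ ∣ M₁ := fun hd => hℓN (hd.trans hM₁N)
      rw [Fermat.Agent.S54.charpoly_baseChangeAlong, hρ ℓ hℓ hℓN hℓS' B hB τ' hτ',
        hρ1 ℓ hℓ hℓM hℓS₁ B hB τ' hτ']
      obtain ⟨hm, hem⟩ := hgoodR ℓ hℓ hℓN hℓS'
      have h3 : χh (CuspForm.heckeAlgebra.T hℓ hℓM hℓS₁) =
          χ (CuspForm.heckeAlgebra.T hℓ hℓN hℓS') := by
        rw [← hem, hχh]
        show e (chih.codRestrict R hmem _) = _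
        congr 1
        apply Subtype.ext
        exact hchihT ℓ hℓ hℓM hℓS₁
      rw [h3]
      simp [Polynomial.map_sub, Polynomial.map_add, Polynomial.map_mul, Polynomial.map_pow]
    have hqS₁ : q ∉ (↑S₁ : Set ℕ) := by
      simp [hS₁]
    have hfin := hρ1 q hq hqM₁ hqS₁ A hA σ hσ
    rw [← hcmp σ, Fermat.Agent.S54.charpoly_baseChangeAlong] at hfin
    have hχhq : χh (CuspForm.heckeAlgebra.T hq hqM₁ hqS₁) = (z : O') := by
      rw [hχh]
      show e (chih.codRestrict R hmem _) = _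
      have h4 : (chih.codRestrict R hmem (CuspForm.heckeAlgebra.T hq hqM₁ hqS₁) : R) =
          ⟨(z : ℂ), intCast_mem R z⟩ := by
        apply Subtype.ext
        show chih _ = _
        rw [hchihT q hq hqM₁ hqS₁, hz]
      rw [h4, he, invOnRange_intCast]
    rw [hχhq] at hfin
    have hmapinj := Polynomial.map_injective (algebraMap O' O'') hinj
    rcases hzO with h1 | h1
    · left
      apply hmapinj
      rw [hfin, h1]
      simp [Polynomial.map_sub, Polynomial.map_add, Polynomial.map_mul, Polynomial.map_pow]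
    · right
      apply hmapinj
      rw [hfin, h1]
      simp [Polynomial.map_sub, Polynomial.map_add, Polynomial.map_mul, Polynomial.map_pow]
      ring

end Galois

end Fermat.Agent.GB.B7.S35Plus
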