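/-
GATE-B / S43, node GB-B7-TKILL, leaf (E) (helper52): **`(tr ρ_Q(Frob_q))² = (1+q)²` on `M¹_Q`**,
abstract core in hypothesis form.

`TQ` a local `𝒪`-algebra carrying `ρ_Q : GaloisRepAdic TQ` with good Frobenius characteristic
polynomials `X² − τ_ℓ X + ℓ` (`ℓ ∉ Sbig`), acting on a finite free `𝒪`-module `M₁` through
`a₁ : TQ →ₐ[𝒪] End_𝒪 M₁` with REDUCED image; `tw₁ : heckeAlgebra N₁ 2 ↑S' →+* End_𝒪 M₁` the twisted
Hecke action of B4-TWIST (`q ∉ S'`, so `U_q` is a generator), compatible with `a₁` at the `T_ℓ`, and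
`tw₁ (U_q)² = 1` (`(U2)`: all of `M₁` is `q`-new).  Then for EVERY Frobenius `σ` at `q`:
`a₁ ((tr ρ_Q σ)² − (1+q)²) = 0`  (= `kill₁` of B9, the `htr` of `GB/Local/Kill1`).

Proof: `B := (TQ ⊗[ℤ] heckeAlgebra) ⧸ ker(action)` is a commutative finite free `𝒪`-algebra inside
`End_𝒪 M₁`; at each DVR point `ψ_i : B → Rq i` (helper83, `GB/Glue/Points`) the character
`ψ_i ∘ tw₁` comes from a normalised eigenform `G` (`GB/B7/Point`) with `a_q(G)² = 1`, so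
`S35Plus.charpoly_frob_of_sq_eq_one DescPlug.desc` gives `tr = ±(q+1)` for the push-forward of `ρ_Q`
to `Rq i`; hence the element is nilpotent in `B`, hence zero as the image of `TQ` is reduced.
-/
import Mathlib
import Fermat.Agent.GB.B7.S35Plus
import Fermat.Agent.GB.B7.DescPlug
import Fermat.Agent.GB.B7.Point
import Fermat.Agent.GB.Glue.Points
import Fermat.Agent.GK.Tate.S34Dens

set_option autoImplicit false
set_option linter.unusedSectionVars false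
set_option linter.style.haveILetI false

open Polynomial IsLocalRing CuspForm CongruenceSubgroup ModularFormClass UpperHalfPlane
open scoped TensorProduct

namespace Fermat.Agent.GB.B7.TKill

open Fermat.Agent.GB.Glue

/-- `G_ℚ`. -/
local notation "GQ" => AlgebraicClosure ℚ ≃ₐ[ℚ] AlgebraicClosure ℚ
/-- `ℚ̄`. -/
local notation "Qb" => AlgebraicClosure ℚ

/-! ### generic lemmas -/

/-- an `𝒪`-algebra homomorphism from a local ring to a nontrivial integral `𝒪`-algebra is local -/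
theorem isLocalHom_of_algHom {O T R' : Type*} [CommRing O] [CommRing T] [CommRing R']
    [Algebra O T] [Algebra O R'] [IsLocalRing T] [Nontrivial R'] [Algebra.IsIntegral O R']
    (g : T →ₐ[O] R') : IsLocalHom (g : T →+* R') := by
  set f : T →+* R' := (g : T →+* R') with hf
  have hint : f.IsIntegral := by
    have h1 : (algebraMap O R').IsIntegral :=
      algebraMap_isIntegral_iff.mpr (inferInstanceAs (Algebra.IsIntegral O R'))
    have h2 : algebraMap O R' = f.comp (algebraMap O T) := by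
      ext a
      exact (g.commutes a).symm
    rw [h2] at h1
    exact RingHom.IsIntegral.tower_top _ _ h1
  have hloc1 : IsLocalHom f.kerLift := hint.kerLift.isLocalHom f.kerLift_injective
  have hker : RingHom.ker f ≤ Ideal.jacobson ⊥ := by
    rw [IsLocalRing.jacobson_eq_maximalIdeal ⊥ bot_ne_top]
    refine IsLocalRing.le_maximalIdeal ?_
    rw [Ne, Ideal.eq_top_iff_one, RingHom.mem_ker, map_one]
    exact one_ne_zero
  have hloc2 : IsLocalHom (Ideal.Quotient.mk (RingHom.ker f)) :=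
    isLocalHom_of_le_jacobson_bot _ hker
  refine ⟨fun a ha => ?_⟩
  have h3 : IsUnit (f.kerLift (Ideal.Quotient.mk (RingHom.ker f) a)) := by
    rw [RingHom.kerLift_mk]
    exact ha
  exact hloc2.map_nonunit a (hloc1.map_nonunit _ h3)

section PointsNil

variable {𝒪 : Type} [CommRing 𝒪] [IsDomain 𝒪] [IsDiscreteValuationRing 𝒪]
  [IsAdicComplete (maximalIdeal 𝒪) 𝒪] [CharZero 𝒪]
  {T : Type} [CommRing T] [Algebra 𝒪 T] [Module.Finite 𝒪 T]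

/-- the DVR points detect nilpotents (no reducedness assumed) -/
theorem isNilpotent_of_forall_ψ [Module.Free 𝒪 T] {t : T}
    (h : ∀ i : Points.Idx 𝒪 T, Points.ψ i t = 0) : IsNilpotent t := by
  have : IsArtinianRing (Points.TK 𝒪 T) := IsArtinianRing.of_finite (FractionRing 𝒪) _
  have hnil : ((1 : FractionRing 𝒪) ⊗ₜ[𝒪] t : Points.TK 𝒪 T) ∈ nilradical (Points.TK 𝒪 T) := by
    rw [IsArtinianRing.nilradical_eq_iInf, Ideal.mem_iInf]
    exact fun i => (Points.ψ_eq_zero_iff i t).1 (h i)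
  obtain ⟨n, hn⟩ := mem_nilradical.1 hnil
  have hinj : Function.Injective
      (Algebra.TensorProduct.includeRight : T →ₐ[𝒪] FractionRing 𝒪 ⊗[𝒪] T) :=
    Algebra.TensorProduct.includeRight_injective (IsFractionRing.injective 𝒪 (FractionRing 𝒪))
  refine ⟨n, ?_⟩
  apply hinj
  rw [map_pow, map_zero]
  exact hn

end PointsNil

/-- trace of a base change -/
theorem trace_baseChangeAlong {A B : Type} [CommRing A] [IsLocalRing A] [CommRing B]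
    [IsLocalRing B] (φ : A →+* B) (hφ : IsLocalHom φ) (ρ : GaloisRepAdic A) (σ : GQ) :
    (ρ.baseChangeAlong φ hφ).trace σ = φ (ρ.trace σ) := by
  let _ : Algebra A B := φ.toAlgebra
  exact LinearMap.trace_baseChange (ρ.ρ σ) B

/-- a "square-zero implies zero" image has no nilpotents -/
theorem eq_zero_of_pow_eq_zero {R E : Type*} [CommRing R] [Ring E] (a : R →+* E)
    (hred : ∀ t : R, a t * a t = 0 → a t = 0) (t : R) (n : ℕ) (h : a t ^ n = 0) : a t = 0 := by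
  induction n using Nat.strong_induction_on generalizing t with
  | _ n ih =>
    rcases Nat.lt_or_ge n 2 with hn | hn
    · interval_cases n
      · rw [pow_zero] at h
        rw [← mul_one (a t), h, mul_zero]
      · rwa [pow_one] at h
    · have hm : (n + 1) / 2 < n := by omega
      have h2 : n ≤ (n + 1) / 2 + (n + 1) / 2 := by omega
      have h3 : a (t ^ ((n + 1) / 2)) * a (t ^ ((n + 1) / 2)) = 0 := by
        rw [← map_mul, ← pow_add, map_pow]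
        exact pow_eq_zero_of_le h2 h
      have h4 := hred _ h3
      rw [map_pow] at h4
      exact ih _ hm t h4


/-! ### the commutative algebra `B` generated by `a₁ (TQ)` and `tw₁ (heckeAlgebra)` -/

section AlgB

variable {O : Type} [CommRing O]
  {TQ : Type} [CommRing TQ] [Algebra O TQ]
  {A₁ : Type} [CommRing A₁]
  {M₁ : Type} [AddCommGroup M₁] [Module O M₁]
  (a₁ : TQ →ₐ[O] Module.End O M₁) (tw₁ : A₁ →+* Module.End O M₁)
  (hcomm : ∀ t s, Commute (a₁ t) (tw₁ s))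

/-- the joint action of `TQ ⊗[ℤ] A₁` -/
noncomputable def actC : TQ ⊗[ℤ] A₁ →ₐ[O] Module.End O M₁ :=
  Algebra.TensorProduct.lift a₁ tw₁.toIntAlgHom
    (show ∀ x y, Commute (a₁ x) (tw₁.toIntAlgHom y) from fun x y => hcomm x y)

theorem actC_tmul (t : TQ) (s : A₁) : actC a₁ tw₁ hcomm (t ⊗ₜ[ℤ] s) = a₁ t * tw₁ s := by
  unfold actC
  rw [Algebra.TensorProduct.lift_tmul]
  rfl

/-- the image algebra, as a quotient -/
def AlgB : Type := (TQ ⊗[ℤ] A₁) ⧸ RingHom.ker (actC a₁ tw₁ hcomm : TQ ⊗[ℤ] A₁ →+* Module.End O M₁)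

noncomputable instance : CommRing (AlgB a₁ tw₁ hcomm) :=
  inferInstanceAs (CommRing ((TQ ⊗[ℤ] A₁) ⧸
    RingHom.ker (actC a₁ tw₁ hcomm : TQ ⊗[ℤ] A₁ →+* Module.End O M₁)))

noncomputable instance : Algebra O (AlgB a₁ tw₁ hcomm) :=
  inferInstanceAs (Algebra O ((TQ ⊗[ℤ] A₁) ⧸
    RingHom.ker (actC a₁ tw₁ hcomm : TQ ⊗[ℤ] A₁ →+* Module.End O M₁)))

/-- `B → End_O M₁` -/
noncomputable def valB : AlgB a₁ tw₁ hcomm →ₐ[O] Module.End O M₁ :=
  Ideal.kerLiftAlg (actC a₁ tw₁ hcomm)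

theorem valB_injective : Function.Injective (valB a₁ tw₁ hcomm) :=
  Ideal.kerLiftAlg_injective (actC a₁ tw₁ hcomm)

/-- `TQ → B` -/
noncomputable def jB : TQ →ₐ[O] AlgB a₁ tw₁ hcomm :=
  (Ideal.Quotient.mkₐ O _).comp Algebra.TensorProduct.includeLeft

/-- `A₁ → B` -/
noncomputable def cB : A₁ →+* AlgB a₁ tw₁ hcomm :=
  (Ideal.Quotient.mk _).comp
    (Algebra.TensorProduct.includeRight : A₁ →ₐ[ℤ] TQ ⊗[ℤ] A₁).toRingHom

theorem valB_jB (t : TQ) : valB a₁ tw₁ hcomm (jB a₁ tw₁ hcomm t) = a₁ t := by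
  show Ideal.kerLiftAlg (actC a₁ tw₁ hcomm) (Ideal.Quotient.mk _ (t ⊗ₜ[ℤ] (1 : A₁))) = _
  rw [Ideal.kerLiftAlg_mk, actC_tmul, map_one, mul_one]

theorem valB_cB (s : A₁) : valB a₁ tw₁ hcomm (cB a₁ tw₁ hcomm s) = tw₁ s := by
  show Ideal.kerLiftAlg (actC a₁ tw₁ hcomm) (Ideal.Quotient.mk _ ((1 : TQ) ⊗ₜ[ℤ] s)) = _
  rw [Ideal.kerLiftAlg_mk, actC_tmul, map_one, one_mul]

theorem finite_algB [IsNoetherianRing O] [Module.Finite O M₁] [Module.Free O M₁] :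
    Module.Finite O (AlgB a₁ tw₁ hcomm) :=
  Module.Finite.of_injective (valB a₁ tw₁ hcomm).toLinearMap (valB_injective a₁ tw₁ hcomm)

theorem isTorsionFree_algB [IsDomain O] [Module.Finite O M₁] [Module.Free O M₁] :
    Module.IsTorsionFree O (AlgB a₁ tw₁ hcomm) :=
  Function.Injective.moduleIsTorsionFree (valB a₁ tw₁ hcomm) (valB_injective a₁ tw₁ hcomm)
    (fun r m => map_smul (valB a₁ tw₁ hcomm) r m)

theorem free_algB [IsDomain O] [IsPrincipalIdealRing O] [Module.Finite O M₁] [Module.Free O M₁] :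
    Module.Free O (AlgB a₁ tw₁ hcomm) := by
  haveI := finite_algB a₁ tw₁ hcomm
  haveI := isTorsionFree_algB a₁ tw₁ hcomm
  exact Module.free_of_finite_type_torsion_free'

end AlgB


/-! ### one point -/

section OnePoint

variable {TQ : Type} [CommRing TQ] [IsLocalRing TQ] {N₁ : ℕ} [NeZero N₁]

/-- **B7 at one DVR point.**  `x : TQ → R'` a local homomorphism to a complete DVR of
characteristic `0`, `χ'` a character of the Hecke algebra of `Γ₀(N₁)` away from `S'` (`q ∉ S'`)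
with `χ' (U_q)² = 1` and `x (τ_ℓ) = χ' (T_ℓ)`: then `x (tr ρ(σ))² = (1+q)²` for every Frobenius
`σ` at `q`. -/
theorem point_trace_sq
    (lam : ℕ) [Fact lam.Prime]
    {R' : Type} [CommRing R'] [IsDomain R'] [IsDiscreteValuationRing R']
    [IsAdicComplete (maximalIdeal R') R'] [Finite (ResidueField R')] [CharZero R']
    (hlamR' : (lam : R') ∈ maximalIdeal R')
    (ρ : GaloisRepAdic TQ) (x : TQ →+* R') (hx : IsLocalHom x)
    (S' Sbig : Finset ℕ) (hsub : (↑S' : Set ℕ) ⊆ ↑Sbig) (hlamS : lam ∈ Sbig)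
    (hNS : ∀ r : ℕ, r.Prime → r ∣ N₁ → r ∈ Sbig)
    (q : ℕ) (hq : q.Prime) (hqlam : q ≠ lam) (hqN : q ∣ N₁) (hq2 : ¬ q ^ 2 ∣ N₁)
    (hqS' : q ∉ (↑S' : Set ℕ))
    (χ' : heckeAlgebra N₁ 2 (↑S' : Set ℕ) →+* R')
    (hU : χ' (heckeAlgebra.U hq hqN hqS') ^ 2 = 1)
    (τ : ℕ → TQ)
    (hτ : ∀ (ℓ : ℕ) (hℓ : ℓ.Prime) (hℓN : ¬ ℓ ∣ N₁) (hℓS : ℓ ∉ (↑Sbig : Set ℕ)),
      x (τ ℓ) = χ' (heckeAlgebra.T hℓ hℓN (fun h => hℓS (hsub h))))
    (hρ : ∀ ℓ : ℕ, ℓ.Prime → ¬ ℓ ∣ N₁ → ℓ ∉ (↑Sbig : Set ℕ) →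
      ∀ A : ValuationSubring Qb, A.LiesOverPrime ℓ → ∀ σ : GQ, A.IsFrobeniusAt σ ℓ →
        LinearMap.charpoly (ρ.ρ σ) = X ^ 2 - C (τ ℓ) * X + C ((ℓ : TQ))) :
    ∀ A : ValuationSubring Qb, A.LiesOverPrime q → ∀ σ : GQ, A.IsFrobeniusAt σ q →
      x (ρ.trace σ) ^ 2 = (1 + (q : R')) ^ 2 := by
  intro A hA σ hσ
  obtain ⟨ι, hι, G, hG, hGT, hGU⟩ := Point.exists_eigenform_of_point S' χ'
  let incl : heckeAlgebra N₁ 2 (↑Sbig : Set ℕ) →+* heckeAlgebra N₁ 2 (↑S' : Set ℕ) :=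
    (Subalgebra.inclusion (heckeAlgebra_mono (N := N₁) (k := 2) hsub)).toRingHom
  let χ : heckeAlgebra N₁ 2 (↑Sbig : Set ℕ) →+* R' := χ'.comp incl
  have hrange : χ.range ≤ χ'.range := by
    rintro _ ⟨y, rfl⟩
    exact ⟨incl y, rfl⟩
  let ι' : χ.range →+* ℂ := ι.comp (Subring.inclusion hrange)
  have hι' : Function.Injective ι' := hι.comp (Subring.inclusion_injective hrange)
  have hincl : ∀ (ℓ : ℕ) (hℓ : ℓ.Prime) (hℓN : ¬ ℓ ∣ N₁) (hℓS : ℓ ∉ (↑Sbig : Set ℕ)),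
      incl (heckeAlgebra.T hℓ hℓN hℓS) = heckeAlgebra.T hℓ hℓN (fun h => hℓS (hsub h)) :=
    fun ℓ hℓ hℓN hℓS => Subtype.ext rfl
  have hGχ : ∀ (ℓ : ℕ) (hℓ : ℓ.Prime) (hℓN : ¬ ℓ ∣ N₁) (hℓS : ℓ ∉ (↑Sbig : Set ℕ)),
      ι' (χ.rangeRestrict (heckeAlgebra.T hℓ hℓN hℓS)) = qCoeff G ℓ := by
    intro ℓ hℓ hℓN hℓS
    rw [hGT ℓ hℓ hℓN (fun h => hℓS (hsub h))]
    show ι (Subring.inclusion hrange (χ.rangeRestrict (heckeAlgebra.T hℓ hℓN hℓS))) = _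
    congr 1
  have hsq : qCoeff G q ^ 2 = 1 := by
    rw [hGU q hq hqN hqS', ← map_pow]
    have h1 : χ'.rangeRestrict (heckeAlgebra.U hq hqN hqS') ^ 2 = 1 := by
      apply Subtype.ext
      show χ' (heckeAlgebra.U hq hqN hqS') ^ 2 = 1
      exact hU
    rw [h1, map_one]
  have hρi : ∀ (ℓ : ℕ) (hℓ : ℓ.Prime) (hℓN : ¬ ℓ ∣ N₁) (hℓS : ℓ ∉ (↑Sbig : Set ℕ)),
      ∀ A : ValuationSubring Qb, A.LiesOverPrime ℓ → ∀ σ : GQ, A.IsFrobeniusAt σ ℓ →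
        LinearMap.charpoly ((ρ.baseChangeAlong x hx).ρ σ) =
          X ^ 2 - C (χ (heckeAlgebra.T hℓ hℓN hℓS)) * X + C ((ℓ : R')) := by
    intro ℓ hℓ hℓN hℓS A hA σ hσ
    have e2 : χ (heckeAlgebra.T hℓ hℓN hℓS) = x (τ ℓ) := by
      rw [hτ ℓ hℓ hℓN hℓS, ← hincl]
      rfl
    rw [S54.charpoly_baseChangeAlong, hρ ℓ hℓ hℓN hℓS A hA σ hσ, e2]
    rw [Polynomial.map_add, Polynomial.map_sub, Polynomial.map_mul, Polynomial.map_pow,
      Polynomial.map_X, Polynomial.map_C, Polynomial.map_C, map_natCast]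
  have key := S35Plus.charpoly_frob_of_sq_eq_one DescPlug.desc lam Sbig R'
    hlamR' hlamS hNS χ hG ι' hι' hGχ q hq hqlam hqN hq2
    hsq (ρ.baseChangeAlong x hx) hρi A hA σ hσ
  have hcp := GK.Tate.charpoly_eq_of_finrank_two (ρ.baseChangeAlong x hx).finrank_eq
    ((ρ.baseChangeAlong x hx).ρ σ)
  have htr : (ρ.baseChangeAlong x hx).trace σ = x (ρ.trace σ) := trace_baseChangeAlong x hx ρ σ
  rw [← htr]
  have h12 : ¬ ((1 : ℕ) = 2) := by decide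
  rcases key with key | key
  · rw [key] at hcp
    have h1 := congrArg (fun P : R'[X] => P.coeff 1) hcp
    simp only [coeff_add, coeff_sub, coeff_X_pow, coeff_C_mul, coeff_X_one, mul_one,
      coeff_C, h12, one_ne_zero, if_false, zero_sub, add_zero, neg_inj] at h1
    show LinearMap.trace _ _ ((ρ.baseChangeAlong x hx).ρ σ) ^ 2 = _
    rw [← h1]
    ring
  · rw [key] at hcp
    have h1 := congrArg (fun P : R'[X] => P.coeff 1) hcp
    simp only [coeff_add, coeff_sub, coeff_X_pow, coeff_C_mul, coeff_X_one, mul_one,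
      coeff_C, h12, one_ne_zero, if_false, zero_sub, add_zero, zero_add] at h1
    show LinearMap.trace _ _ ((ρ.baseChangeAlong x hx).ρ σ) ^ 2 = _
    have h2 : LinearMap.trace _ _ ((ρ.baseChangeAlong x hx).ρ σ) = -((q : R') + 1) := by
      rw [h1, neg_neg]
    rw [h2]
    ring

end OnePoint

/-! ### the main theorem -/

section Main

variable {O : Type} [CommRing O] [IsDomain O] [IsDiscreteValuationRing O]
  [IsAdicComplete (maximalIdeal O) O] [CharZero O] [Finite (ResidueField O)]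
  {TQ : Type} [CommRing TQ] [IsLocalRing TQ] [Algebra O TQ]
  {M₁ : Type} [AddCommGroup M₁] [Module O M₁] [Module.Finite O M₁] [Module.Free O M₁]
  {N₁ : ℕ} [NeZero N₁]

/-- B7 at one point of the algebra `B`. -/
theorem point_kill
    (lam : ℕ) [Fact lam.Prime]
    {R' : Type} [CommRing R'] [IsDomain R'] [IsDiscreteValuationRing R']
    [IsAdicComplete (maximalIdeal R') R'] [Finite (ResidueField R')] [CharZero R']
    [Algebra O R'] [Algebra.IsIntegral O R']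
    (hlamR' : (lam : R') ∈ maximalIdeal R')
    (ρ : GaloisRepAdic TQ)
    (a₁ : TQ →ₐ[O] Module.End O M₁)
    (S' Sbig : Finset ℕ) (hS : S' ⊆ Sbig) (hlamS : lam ∈ Sbig)
    (hNS : ∀ r : ℕ, r.Prime → r ∣ N₁ → r ∈ Sbig)
    (q : ℕ) (hq : q.Prime) (hqlam : q ≠ lam) (hqN : q ∣ N₁) (hq2 : ¬ q ^ 2 ∣ N₁)
    (hqS' : q ∉ (↑S' : Set ℕ))
    (tw₁ : heckeAlgebra N₁ 2 (↑S' : Set ℕ) →+* Module.End O M₁)
    (hcomm : ∀ t s, Commute (a₁ t) (tw₁ s))
    (hU : tw₁ (heckeAlgebra.U hq hqN hqS') ^ 2 = 1)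
    (τ : ℕ → TQ)
    (hτ : ∀ (ℓ : ℕ) (hℓ : ℓ.Prime) (hℓN : ¬ ℓ ∣ N₁) (hℓS : ℓ ∉ (↑Sbig : Set ℕ)),
      a₁ (τ ℓ) = tw₁ (heckeAlgebra.T hℓ hℓN (fun h => hℓS (Finset.coe_subset.2 hS h))))
    (hρ : ∀ ℓ : ℕ, ℓ.Prime → ¬ ℓ ∣ N₁ → ℓ ∉ (↑Sbig : Set ℕ) →
      ∀ A : ValuationSubring Qb, A.LiesOverPrime ℓ → ∀ σ : GQ, A.IsFrobeniusAt σ ℓ →
        LinearMap.charpoly (ρ.ρ σ) = X ^ 2 - C (τ ℓ) * X + C ((ℓ : TQ)))
    (pt : AlgB a₁ tw₁ hcomm →ₐ[O] R')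
    (A : ValuationSubring Qb) (hA : A.LiesOverPrime q) (σ : GQ) (hσ : A.IsFrobeniusAt σ q) :
    pt (jB a₁ tw₁ hcomm (ρ.trace σ ^ 2 - (1 + (q : TQ)) ^ 2)) = 0 := by
  have hsub : (↑S' : Set ℕ) ⊆ ↑Sbig := Finset.coe_subset.2 hS
  let x : TQ →ₐ[O] R' := pt.comp (jB a₁ tw₁ hcomm)
  have hx : IsLocalHom (x : TQ →+* R') := isLocalHom_of_algHom x
  have hcU : cB a₁ tw₁ hcomm (heckeAlgebra.U hq hqN hqS') ^ 2 = 1 := by
    apply valB_injective a₁ tw₁ hcomm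
    rw [map_pow, valB_cB, hU, map_one]
  have hjτ : ∀ (ℓ : ℕ) (hℓ : ℓ.Prime) (hℓN : ¬ ℓ ∣ N₁) (hℓS : ℓ ∉ (↑Sbig : Set ℕ)),
      jB a₁ tw₁ hcomm (τ ℓ) =
        cB a₁ tw₁ hcomm (heckeAlgebra.T hℓ hℓN (fun h => hℓS (hsub h))) := by
    intro ℓ hℓ hℓN hℓS
    apply valB_injective a₁ tw₁ hcomm
    rw [valB_jB, valB_cB, hτ ℓ hℓ hℓN hℓS]
  have key := point_trace_sq lam hlamR' ρ
    (x : TQ →+* R') hx S' Sbig hsub hlamS hNS q hq hqlam hqN hq2 hqS'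
    ((pt : AlgB a₁ tw₁ hcomm →+* R').comp (cB a₁ tw₁ hcomm))
    (by
      show pt (cB a₁ tw₁ hcomm (heckeAlgebra.U hq hqN hqS')) ^ 2 = 1
      rw [← map_pow, hcU, map_one])
    τ
    (by
      intro ℓ hℓ hℓN hℓS
      show pt (jB a₁ tw₁ hcomm (τ ℓ)) = pt (cB a₁ tw₁ hcomm _)
      rw [hjτ ℓ hℓ hℓN hℓS])
    hρ A hA σ hσ
  have h5 : pt (jB a₁ tw₁ hcomm (ρ.trace σ ^ 2 - (1 + (q : TQ)) ^ 2)) =
      x (ρ.trace σ) ^ 2 - (1 + (q : R')) ^ 2 := by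
    show x (ρ.trace σ ^ 2 - (1 + (q : TQ)) ^ 2) = _
    rw [map_sub, map_pow, map_pow, map_add, map_one, map_natCast]
  rw [h5]
  exact sub_eq_zero.2 key

/-- **B7, abstract core.** -/
theorem trace_sq_kill
    (lam : ℕ) [Fact lam.Prime] (hlamO : (lam : O) ∈ maximalIdeal O)
    (ρ : GaloisRepAdic TQ)
    (a₁ : TQ →ₐ[O] Module.End O M₁)
    (hred : ∀ t : TQ, a₁ t * a₁ t = 0 → a₁ t = 0)
    (S' Sbig : Finset ℕ) (hS : S' ⊆ Sbig) (hlamS : lam ∈ Sbig)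
    (hNS : ∀ r : ℕ, r.Prime → r ∣ N₁ → r ∈ Sbig)
    (q : ℕ) (hq : q.Prime) (hqlam : q ≠ lam) (hqN : q ∣ N₁) (hq2 : ¬ q ^ 2 ∣ N₁)
    (hqS' : q ∉ (↑S' : Set ℕ))
    (tw₁ : heckeAlgebra N₁ 2 (↑S' : Set ℕ) →+* Module.End O M₁)
    (hcomm : ∀ t s, Commute (a₁ t) (tw₁ s))
    (hU : tw₁ (heckeAlgebra.U hq hqN hqS') ^ 2 = 1)
    (τ : ℕ → TQ)
    (hτ : ∀ (ℓ : ℕ) (hℓ : ℓ.Prime) (hℓN : ¬ ℓ ∣ N₁) (hℓS : ℓ ∉ (↑Sbig : Set ℕ)),
      a₁ (τ ℓ) = tw₁ (heckeAlgebra.T hℓ hℓN (fun h => hℓS (Finset.coe_subset.2 hS h))))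
    (hρ : ∀ ℓ : ℕ, ℓ.Prime → ¬ ℓ ∣ N₁ → ℓ ∉ (↑Sbig : Set ℕ) →
      ∀ A : ValuationSubring Qb, A.LiesOverPrime ℓ → ∀ σ : GQ, A.IsFrobeniusAt σ ℓ →
        LinearMap.charpoly (ρ.ρ σ) = X ^ 2 - C (τ ℓ) * X + C ((ℓ : TQ))) :
    ∀ A : ValuationSubring Qb, A.LiesOverPrime q → ∀ σ : GQ, A.IsFrobeniusAt σ q →
      a₁ (ρ.trace σ ^ 2 - (1 + (q : TQ)) ^ 2) = 0 := by
  intro A hA σ hσ
  haveI : Module.Finite O (AlgB a₁ tw₁ hcomm) := finite_algB a₁ tw₁ hcomm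
  haveI : Module.Free O (AlgB a₁ tw₁ hcomm) := free_algB a₁ tw₁ hcomm
  -- enough: nilpotent in `B`
  have hnil : IsNilpotent (jB a₁ tw₁ hcomm (ρ.trace σ ^ 2 - (1 + (q : TQ)) ^ 2)) :=
    isNilpotent_of_forall_ψ (𝒪 := O) (T := AlgB a₁ tw₁ hcomm) (fun i =>
      point_kill lam (Points.natCast_mem_maximalIdeal_Rq i hlamO) ρ a₁ S' Sbig hS hlamS hNS
        q hq hqlam hqN hq2 hqS' tw₁ hcomm hU τ hτ hρ (Points.ψ i) A hA σ hσ)
  obtain ⟨n, hn⟩ := hnil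
  have h1 : a₁ (ρ.trace σ ^ 2 - (1 + (q : TQ)) ^ 2) ^ n = 0 := by
    rw [← valB_jB a₁ tw₁ hcomm, ← map_pow, hn, map_zero]
  exact eq_zero_of_pow_eq_zero (a₁ : TQ →+* Module.End O M₁) hred _ n h1

end Main

end Fermat.Agent.GB.B7.TKill
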