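/-
GATE-B / S43, node GB-B7-TWU (helper52): **the twist ring homomorphism WITH `U`-generators.**

helper44's `Asm2.exists_tw_of_maps` / `Tw.exists_tw_of_chains` produce
`tw : heckeAlgebra N' 2 S →+* End_O (Hom_par(Γ_H(N), O))` under `hS : every prime of N' lies in S`,
so that only the `T_ℓ` are generators.  B7 needs the prime `q ∥ N` (not a twisting prime) OUTSIDE
`S`, so that `U_q` is a generator and `tw (U_q) = ⟨d_q⟩ ∘ U_q`.  This file re-runs the two
assemblies with the uniform generator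

  `genH θ A l := U_l` if `l ∣ N`, `T_l` otherwise            (on `Hom(Γ_H(N), A)`),

intertwined with `cohGen N' · l` on `Hom(Γ₀(N'), ·)`; no hypothesis `hS`.

* `genH`, `genH_of_dvd`, `genH_of_not_dvd`, `genH_smul`, `genH_comp_hom`, `diaH_genH`,
  `isParabolicHom_genH`;
* `exists_twU_of_maps`  : hypothesis form (twin of `Asm.exists_tw_of_maps`);
* `exists_twU_of_chains`: chain form (twin of `Tw.exists_tw_of_chains`); the primes `l ∉ S` with
  `l ∣ N'` must divide `N` and be prime to all chain primes.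
-/
import Mathlib
import Fermat.Agent.GB.B4.Twist.Tw

set_option autoImplicit false
set_option linter.unusedSectionVars false
set_option linter.style.haveILetI false

noncomputable section

open scoped MatrixGroups
open CongruenceSubgroup Matrix Matrix.SpecialLinearGroup ModularCurve.Period CuspForm
open Fermat.Agent.S16_helper49 Fermat.Agent.GM.B Fermat.Agent.GM.EisClass
open Fermat.Agent.GB.B3 Fermat.Agent.GB.B3.EisGamma0 Fermat.Agent.GB.B3.GamH
open Fermat.Agent.GJ.J2.ZStruct Fermat.Agent.GJ.J2.Lat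
open Fermat.Agent.GB.B4.Twist.Chain Fermat.Agent.GB.B4.Twist.ChainD
open Fermat.Agent.GB.B4.Twist.Asm

namespace Fermat.Agent.GB.B7.TwU

/-- local instance (Prop-valued class) -/
local instance factPrimeOfPrimes (l : Nat.Primes) : Fact (l : ℕ).Prime := ⟨l.2⟩

/-- local instance (Prop-valued class) -/
local instance neZeroOfPrimes (l : Nat.Primes) : NeZero (l : ℕ) := ⟨l.2.ne_zero⟩

/-! ### the uniform generator on `Hom(Γ_H, A)` -/

section GenH

variable {N : ℕ} {Δ : Type} [CommGroup Δ] (θ : (ZMod N)ˣ →* Δ) (A : Type*) [AddCommGroup A]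

/-- `U_l` if `l ∣ N`, `T_l` otherwise, on `Hom(Γ_H(N), A)` -/
def genH (l : Nat.Primes) : (Additive (GammaH θ) →+ A) →+ (Additive (GammaH θ) →+ A) :=
  if h : (l : ℕ) ∣ N then UH θ A h else TH θ A h

theorem genH_of_dvd (l : Nat.Primes) (h : (l : ℕ) ∣ N) : genH θ A l = UH θ A h := dif_pos h

theorem genH_of_not_dvd (l : Nat.Primes) (h : ¬ (l : ℕ) ∣ N) : genH θ A l = TH θ A h := dif_neg h

variable {A}

theorem isParabolicHom_genH (l : Nat.Primes) {ψ : Additive (GammaH θ) →+ A}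
    (hψ : IsParabolicHom (GammaH θ) ψ) : IsParabolicHom (GammaH θ) (genH θ A l ψ) := by
  by_cases h : (l : ℕ) ∣ N
  · rw [genH_of_dvd θ A l h]
    exact op_isParabolicHom (uSysH θ h) ψ hψ
  · rw [genH_of_not_dvd θ A l h]
    exact op_isParabolicHom (heckeSysH θ h) ψ hψ

theorem genH_smul {K : Type*} [Monoid K] [DistribMulAction K A] (l : Nat.Primes) (a : K)
    (ψ : Additive (GammaH θ) →+ A) : genH θ A l (a • ψ) = a • genH θ A l ψ := by
  by_cases h : (l : ℕ) ∣ N
  · rw [genH_of_dvd θ A l h]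
    exact Fermat.Agent.GB.B4.Twist.Asm.op_smul (uSysH θ h) a ψ
  · rw [genH_of_not_dvd θ A l h]
    exact Fermat.Agent.GB.B4.Twist.Asm.op_smul (heckeSysH θ h) a ψ

theorem genH_comp_hom {B : Type*} [AddCommGroup B] (f : A →+ B) (l : Nat.Primes)
    (ψ : Additive (GammaH θ) →+ A) : genH θ B l (f.comp ψ) = f.comp (genH θ A l ψ) := by
  by_cases h : (l : ℕ) ∣ N
  · rw [genH_of_dvd θ A l h, genH_of_dvd θ B l h, UH_comp_hom]
  · rw [genH_of_not_dvd θ A l h, genH_of_not_dvd θ B l h, TH_comp_hom]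

theorem diaH_genH (l : Nat.Primes) (d : Gamma0 N) (ψ : Additive (GammaH θ) →+ A) :
    diaH θ A d (genH θ A l ψ) = genH θ A l (diaH θ A d ψ) := by
  by_cases h : (l : ℕ) ∣ N
  · rw [genH_of_dvd θ A l h, diaH_UH]
  · rw [genH_of_not_dvd θ A l h, diaH_TH]

end GenH

/-! ### the assembly, hypothesis form -/

section Maps

variable {N N' : ℕ} [NeZero N] [NeZero N'] {Δ : Type} [CommGroup Δ] [Fintype Δ]
  (θ : (ZMod N)ˣ →* Δ)
  (S : Set ℕ)
  {O : Type*} [CommRing O] {K : Type*} [Field K] [CharZero K] [Algebra O K]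
  (hinj : Function.Injective (algebraMap O K))
  {X : Type*} [Fintype X]

variable (εX : X → Δ → K)
  (e : X → (Additive (GammaH θ) →+ K) →+ (Additive (GammaH θ) →+ K))
  (D : X → (Additive (GammaH θ) →+ K) →+ (Additive (Gamma0 N') →+ K))
  (c : X → PrimesOff S → K)
  (dℓ : PrimesOff S → Gamma0 N)

include hinj in
/-- **the twist ring homomorphism with `U`-generators, hypothesis form** -/
theorem exists_twU_of_maps
    (he_sum : ∀ φ : Additive (GammaH θ) →+ K, ∑ x, e x φ = φ)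
    (he_smul : ∀ x (a : K) (φ : Additive (GammaH θ) →+ K), e x (a • φ) = a • e x φ)
    (he_par : ∀ x (φ : Additive (GammaH θ) →+ K), IsParabolicHom (GammaH θ) φ →
      IsParabolicHom (GammaH θ) (e x φ))
    (he_eig : ∀ x (φ : Additive (GammaH θ) →+ K) (d : Gamma0 N),
      diaH θ K d (e x φ) = εX x (chi θ d) • e x φ)
    (he_gen : ∀ x (l : PrimesOff S) (φ : Additive (GammaH θ) →+ K),
      e x (genH θ K l.1 φ) = genH θ K l.1 (e x φ))
    (he_dia : ∀ x (d : Gamma0 N) (φ : Additive (GammaH θ) →+ K),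
      e x (diaH θ K d φ) = diaH θ K d (e x φ))
    (hD_smul : ∀ x (a : K) (φ : Additive (GammaH θ) →+ K), D x (a • φ) = a • D x φ)
    (hD_par : ∀ x (φ : Additive (GammaH θ) →+ K), IsParabolicHom (GammaH θ) φ →
      IsParabolicHom (Gamma0 N') (D x φ))
    (hD_inj : ∀ x (φ : Additive (GammaH θ) →+ K),
      (∀ d : Gamma0 N, diaH θ K d φ = εX x (chi θ d) • φ) → D x φ = 0 → φ = 0)
    (hD_gen : ∀ x (l : PrimesOff S) (φ : Additive (GammaH θ) →+ K),
      D x (genH θ K l.1 φ) = c x l • cohGen N' K l.1 (D x φ))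
    (hc : ∀ x (l : PrimesOff S), εX x (chi θ (dℓ l)) * c x l = 1) :
    ∃ tw : ↥(heckeAlgebra N' 2 S) →+* Module.End O ↥(parabolicHoms O (GammaH θ) O),
      (∀ (l : PrimesOff S) (v : ↥(parabolicHoms O (GammaH θ) O)),
        ((tw (formsGenS N' S l) v : ↥(parabolicHoms O (GammaH θ) O)) :
            Additive (GammaH θ) →+ O)
          = diaH θ O (dℓ l) (genH θ O l.1 (v : Additive (GammaH θ) →+ O))) ∧
      (∀ {ℓ : ℕ} (hℓ : ℓ.Prime) (hℓN' : ¬ ℓ ∣ N') (hℓS : ℓ ∉ S)
          (v : ↥(parabolicHoms O (GammaH θ) O)),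
        ((tw (heckeAlgebra.T hℓ hℓN' hℓS) v : ↥(parabolicHoms O (GammaH θ) O)) :
            Additive (GammaH θ) →+ O)
          = diaH θ O (dℓ ⟨⟨ℓ, hℓ⟩, hℓS⟩)
              (genH θ O ⟨ℓ, hℓ⟩ (v : Additive (GammaH θ) →+ O))) ∧
      (∀ {q : ℕ} (hq : q.Prime) (hqN' : q ∣ N') (hqS : q ∉ S)
          (v : ↥(parabolicHoms O (GammaH θ) O)),
        ((tw (heckeAlgebra.U hq hqN' hqS) v : ↥(parabolicHoms O (GammaH θ) O)) :
            Additive (GammaH θ) →+ O)
          = diaH θ O (dℓ ⟨⟨q, hq⟩, hqS⟩)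
              (genH θ O ⟨q, hq⟩ (v : Additive (GammaH θ) →+ O))) := by
  classical
  have hA : ∀ (n : ℤ) (a : X → K), n ≠ 0 → n • a = 0 → a = 0 := by
    intro n a hn h
    funext x
    have hx := congrFun h x
    rw [Pi.smul_apply, zsmul_eq_mul, Pi.zero_apply] at hx
    rcases mul_eq_zero.mp hx with h' | h'
    · exact absurd (by exact_mod_cast h') hn
    · exact h'
  let V := ↥(parabolicHoms O (GammaH θ) O)
  let τ : PrimesOff S → Module.End O V := fun l =>
    { toFun := fun v => ⟨diaH θ O (dℓ l) (genH θ O l.1 v.1),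
        isParabolicHom_diaH _ (isParabolicHom_genH θ l.1 v.2)⟩
      map_add' := fun v w => by
        apply Subtype.ext
        show diaH θ O (dℓ l) (genH θ O l.1 (v.1 + w.1)) = _
        rw [map_add, map_add]
        rfl
      map_smul' := fun o v => by
        apply Subtype.ext
        show diaH θ O (dℓ l) (genH θ O l.1 (o • v.1)) = o • diaH θ O (dℓ l) (genH θ O l.1 v.1)
        rw [genH_smul, diaH_smul] }
  let Rx : X → V → (Additive (Gamma0 N') →+ K) := fun x v =>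
    D x (e x (extK (K := K) (GammaH θ) v.1))
  let R : V →ₗ[O] (Additive (Gamma0 N') →+ (X → K)) :=
    { toFun := fun v => AddMonoidHom.pi fun x => Rx x v
      map_add' := fun v w => by
        refine AddMonoidHom.ext fun g => funext fun x => ?_
        show D x (e x (extK (K := K) (GammaH θ) (v.1 + w.1))) g = _
        rw [map_add, map_add, map_add]
        rfl
      map_smul' := fun o v => by
        refine AddMonoidHom.ext fun g => funext fun x => ?_
        show D x (e x (extK (K := K) (GammaH θ) (o • v.1))) g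
          = o • (D x (e x (extK (K := K) (GammaH θ) v.1)) g)
        rw [extK_smul, he_smul, hD_smul, AddMonoidHom.smul_apply, smul_eq_mul,
          ← Algebra.smul_def] }
  have hRx : ∀ (v : V) (x : X),
      (Pi.evalAddMonoidHom (fun _ : X => K) x).comp (R v) = Rx x v := fun v x => rfl
  have heig : ∀ (x : X) (v : V) (d : Gamma0 N),
      diaH θ K d (e x (extK (K := K) (GammaH θ) v.1))
        = εX x (chi θ d) • e x (extK (K := K) (GammaH θ) v.1) := fun x v d => he_eig x _ d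
  have hR : Function.Injective R := by
    rw [injective_iff_map_eq_zero]
    intro v hv
    have h1 : ∀ x, e x (extK (K := K) (GammaH θ) v.1) = 0 := by
      intro x
      apply hD_inj x _ (heig x v)
      have : Rx x v = 0 := by rw [← hRx, hv]; rfl
      exact this
    have h2 : extK (K := K) (GammaH θ) v.1 = 0 := by
      rw [← he_sum (extK (K := K) (GammaH θ) v.1)]
      exact Finset.sum_eq_zero fun x _ => h1 x
    apply Subtype.ext
    apply extK_injective hinj
    rw [h2]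
    exact (map_zero _).symm
  have hpar : ∀ v, IsParabolicHom (Gamma0 N') (R v) := by
    intro v g hg
    funext x
    show Rx x v (Additive.ofMul g) = 0
    exact hD_par x _ (he_par x _ (isParabolicHom_extK _ v.2)) g hg
  have hτ : ∀ (l : PrimesOff S) (v : V), R (τ l v) = cohGen N' (X → K) l.1 (R v) := by
    intro l v
    refine AddMonoidHom.ext fun g => funext fun x => ?_
    have e1 : (cohGen N' (X → K) l.1 (R v)) g x
        = ((Pi.evalAddMonoidHom (fun _ : X => K) x).comp (cohGen N' (X → K) l.1 (R v))) g := rfl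
    rw [e1, ← cohGen_comp, hRx]
    show Rx x (τ l v) g = _
    have e2 : Rx x (τ l v) = cohGen N' K l.1 (Rx x v) := by
      show D x (e x (extK (K := K) (GammaH θ)
        (diaH θ O (dℓ l) (genH θ O l.1 v.1)))) = _
      rw [extK_eq_comp, ← diaH_comp_hom, ← genH_comp_hom, ← extK_eq_comp, he_dia, he_gen]
      set w := e x (extK (K := K) (GammaH θ) v.1) with hw
      have hw1 : diaH θ K (dℓ l) (genH θ K l.1 w)
          = εX x (chi θ (dℓ l)) • genH θ K l.1 w := by
        rw [diaH_genH, heig x v (dℓ l), genH_smul]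
      rw [hw1, hD_smul, hD_gen, smul_smul, hc, one_smul]
    rw [e2]
  obtain ⟨tw, h1, h2, h3, -, -, -⟩ := Fermat.Agent.GB.B4.Twist.TwHom.exists_twist_hom' N' S hA R hR hpar τ hτ
  refine ⟨tw, fun l v => ?_, fun hℓ hℓN' hℓS v => ?_, fun hq hqN' hqS v => ?_⟩
  · rw [h1 l]
    rfl
  · rw [h2 hℓ hℓN' hℓS]
    rfl
  · rw [h3 hq hqN' hqS]
    rfl

end Maps

/-! ### the assembly, chain form -/

section CastU

variable {M M' : ℕ} (h : M = M') {A : Type*} [AddCommGroup A]

theorem castHom_cohU {q : ℕ} [NeZero q] (hq : q ∣ M) (hq' : q ∣ M')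
    (φ : Additive (Gamma0 M) →+ A) :
    castHom h A (cohU hq A φ) = cohU hq' A (castHom h A φ) := by
  subst h
  rfl

end CastU

section Chains

variable {N N' : ℕ} [NeZero N] [NeZero N'] {Δ : Type} [CommGroup Δ] [Fintype Δ]
  (θ : (ZMod N)ˣ →* Δ) (hθ : Function.Surjective θ)
  (S : Set ℕ) (hNN' : N ∣ N')
  {O : Type*} [CommRing O] {K : Type*} [Field K] [CharZero K] [Algebra O K]
  (hinj : Function.Injective (algebraMap O K))
  [Fintype (Δ →* Kˣ)] [HasEnoughRootsOfUnity K (Monoid.exponent Δ)]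

variable (Lε : (Δ →* Kˣ) → List (TwDatum K Δ)) (dℓ : PrimesOff S → Gamma0 N)

include hθ hinj hNN' in
/-- **the twist ring homomorphism with `U`-generators, chain form**: twin of helper44's
`Tw.exists_tw_of_chains` without `hS`; the primes `l ∉ S` dividing `N'` must divide `N` and be
prime to all chain primes (`hSU`). -/
theorem exists_twU_of_chains
    (hSU : ∀ l : PrimesOff S, (l.1 : ℕ) ∣ N' →
      (l.1 : ℕ) ∣ N ∧ ∀ ε, ∀ d ∈ Lε ε, Nat.Coprime (l.1 : ℕ) d.r)
    (hadm : ∀ ε, Adm N θ (Lε ε))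
    (hlev : ∀ ε, chainLevel N (Lε ε) = N')
    (hsq : ∀ ε, ∀ d ∈ Lε ε, ¬ d.r ^ 2 ∣ N)
    (hnd : ∀ ε, (Lε ε).Pairwise (fun d e => d.r ≠ e.r))
    (hψ : ∀ ε, ∀ d ∈ Lε ε, (∀ v : (ZMod d.r)ˣ, d.ψ (v : ZMod d.r) = 1) ∨
      ∃ v : (ZMod d.r)ˣ, d.ψ (v : ZMod d.r) ^ 2 ≠ 1)
    (hν : ∀ (ε : Δ →* Kˣ) (δ : Δ), ((Lε ε).map (fun d => d.ν)).prod δ = ε δ)
    (hc : ∀ (ε : Δ →* Kˣ) (l : PrimesOff S),
      ((ε (chi θ (dℓ l)) : Kˣ) : K) * chainPsi (Lε ε) (l.1 : ℕ) = 1) :
    ∃ tw : ↥(heckeAlgebra N' 2 S) →+* Module.End O ↥(parabolicHoms O (GammaH θ) O),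
      (∀ (l : PrimesOff S) (v : ↥(parabolicHoms O (GammaH θ) O)),
        ((tw (formsGenS N' S l) v : ↥(parabolicHoms O (GammaH θ) O)) :
            Additive (GammaH θ) →+ O)
          = diaH θ O (dℓ l) (genH θ O l.1 (v : Additive (GammaH θ) →+ O))) ∧
      (∀ {ℓ : ℕ} (hℓ : ℓ.Prime) (hℓN' : ¬ ℓ ∣ N') (hℓS : ℓ ∉ S)
          (v : ↥(parabolicHoms O (GammaH θ) O)),
        ((tw (heckeAlgebra.T hℓ hℓN' hℓS) v : ↥(parabolicHoms O (GammaH θ) O)) :
            Additive (GammaH θ) →+ O)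
          = diaH θ O (dℓ ⟨⟨ℓ, hℓ⟩, hℓS⟩)
              (genH θ O ⟨ℓ, hℓ⟩ (v : Additive (GammaH θ) →+ O))) ∧
      (∀ {q : ℕ} (hq : q.Prime) (hqN' : q ∣ N') (hqS : q ∉ S)
          (v : ↥(parabolicHoms O (GammaH θ) O)),
        ((tw (heckeAlgebra.U hq hqN' hqS) v : ↥(parabolicHoms O (GammaH θ) O)) :
            Additive (GammaH θ) →+ O)
          = diaH θ O (dℓ ⟨⟨q, hq⟩, hqS⟩)
              (genH θ O ⟨q, hq⟩ (v : Additive (GammaH θ) →+ O))) := by
  classical
  have hcard : (Fintype.card Δ : K) ≠ 0 := Nat.cast_ne_zero.mpr Fintype.card_ne_zero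
  haveI hNZ : ∀ ε, NeZero (chainLevel N (Lε ε)) := fun ε => by rw [hlev ε]; infer_instance
  have hsurj : ∀ ε, Function.Surjective (chainθ N θ (Lε ε)) := by
    intro ε
    rw [chainθ_eq]
    exact hθ.comp (ZMod.unitsMap_surjective _)
  choose rep' hrep' using fun ε => exists_rep (chainθ N θ (Lε ε)) (hsurj ε)
  let ρ : Δ →* Module.End K (Additive (GammaH θ) →+ K) :=
    Fermat.Agent.GB.B4.Twist.DiaRep.diaRep (R := K) (A := K) θ hθ
  let e : (Δ →* Kˣ) → (Additive (GammaH θ) →+ K) →+ (Additive (GammaH θ) →+ K) :=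
    fun ε => (Fermat.Agent.GB.B4.Twist.EpsDecomp.proj ρ ε :
      (Additive (GammaH θ) →+ K) →ₗ[K] _).toAddMonoidHom
  let D : (Δ →* Kˣ) → (Additive (GammaH θ) →+ K) →+ (Additive (Gamma0 N') →+ K) :=
    fun ε => (castHom (hlev ε) K).comp (chainD N θ (Lε ε) (hadm ε) (rep' ε) (hrep' ε))
  have he_apply : ∀ ε φ, e ε φ = Fermat.Agent.GB.B4.Twist.DiaRep.comp θ hθ ε φ := fun ε φ => rfl
  refine exists_twU_of_maps θ S hinj (fun ε δ => ((ε δ : Kˣ) : K)) e D
    (fun ε l => chainPsi (Lε ε) (l.1 : ℕ)) dℓ ?_ ?_ ?_ ?_ ?_ ?_ ?_ ?_ ?_ ?_ hc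
  · -- he_sum
    intro φ
    simp_rw [he_apply]
    exact Fermat.Agent.GB.B4.Twist.DiaRep.sum_comp θ hθ hcard φ
  · -- he_smul
    intro ε a φ
    exact map_smul (Fermat.Agent.GB.B4.Twist.EpsDecomp.proj ρ ε) a φ
  · -- he_par
    intro ε φ hφ
    exact Fermat.Agent.GB.B4.Twist.DiaRep.comp_par θ hθ ε φ hφ
  · -- he_eig
    intro ε φ d
    have h1 := Fermat.Agent.GB.B4.Twist.EpsDecomp.proj_mem_eigen ρ ε φ (chi θ d)
    have h2 : ρ (chi θ d) = Fermat.Agent.GB.B4.Twist.DiaRep.diaL θ d :=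
      Fermat.Agent.GB.B4.Twist.DiaRep.diaRep_chi θ hθ d
    rw [h2] at h1
    exact h1
  · -- he_gen
    intro ε l φ
    by_cases h : (l.1 : ℕ) ∣ N
    · rw [genH_of_dvd θ K l.1 h]
      exact Fermat.Agent.GB.B4.Twist.DiaRep.comp_UH θ hθ h ε φ
    · rw [genH_of_not_dvd θ K l.1 h]
      exact Fermat.Agent.GB.B4.Twist.DiaRep.comp_TH θ hθ h ε φ
  · -- he_dia
    intro ε d φ
    have h1 := Fermat.Agent.GB.B4.Twist.EpsDecomp.commute_proj ρ
      (Fermat.Agent.GB.B4.Twist.DiaRep.diaL θ d) (fun δ => by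
      rw [← Fermat.Agent.GB.B4.Twist.DiaRep.diaRep_chi θ hθ d]
      show ρ (chi θ d) * ρ δ = ρ δ * ρ (chi θ d)
      rw [← map_mul, ← map_mul, mul_comm]) ε
    have h2 := LinearMap.congr_fun h1 φ
    rw [Module.End.mul_apply, Module.End.mul_apply] at h2
    exact h2.symm
  · -- hD_smul
    intro ε a φ
    show castHom (hlev ε) K (chainD N θ (Lε ε) (hadm ε) (rep' ε) (hrep' ε) (a • φ)) = _
    rw [chainD_apply, map_smul, coresH_smul, castHom_smul]
    rfl
  · -- hD_par
    intro ε φ hφ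
    exact isParabolicHom_castHom (hlev ε) (chainD_par N θ (Lε ε) (hadm ε) (rep' ε) (hrep' ε) φ hφ)
  · -- hD_inj
    intro ε φ hφ h0
    have h1 : chainD N θ (Lε ε) (hadm ε) (rep' ε) (hrep' ε) φ = 0 :=
      (castHom_eq_zero_iff (hlev ε) _).mp h0
    refine Fermat.Agent.GB.B4.Twist.ChainInj.chainD_injective N θ (Lε ε) (hadm ε) (rep' ε)
      (hrep' ε) (hsq ε) (hnd ε) (hψ ε) ?_ ?_ φ ?_ h1
    · intro n a hn h
      rw [nsmul_eq_mul] at h
      rcases mul_eq_zero.mp h with h' | h'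
      · exact absurd (Nat.cast_eq_zero.mp h') hn
      · exact h'
    · intro c a hc' h
      rcases smul_eq_zero.mp h with h' | h'
      · exact absurd h' hc'
      · exact h'
    · intro x k
      have h2 := DFunLike.congr_fun (hφ x) (Additive.ofMul k)
      rw [diaH_apply, AddMonoidHom.smul_apply] at h2
      rw [h2, hν]
  · -- hD_gen
    intro ε l φ
    by_cases h : (l.1 : ℕ) ∣ N
    · have h' : (l.1 : ℕ) ∣ N' := h.trans hNN'
      rw [genH_of_dvd θ K l.1 h, cohGen_of_dvd N' K l.1 h']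
      show castHom (hlev ε) K (chainD N θ (Lε ε) (hadm ε) (rep' ε) (hrep' ε)
        (UH θ K h φ)) = _
      have h1 := chainD_UH N θ (Lε ε) (hadm ε) (rep' ε) (hrep' ε) h
        (fun d hd => (hSU l h').2 ε d hd) φ
      rw [h1, castHom_smul,
        castHom_cohU (hlev ε) (h.trans (dvd_chainLevel N (Lε ε))) h']
      rfl
    · have h' : ¬ (l.1 : ℕ) ∣ N' := fun h'' => h (hSU l h'').1
      rw [genH_of_not_dvd θ K l.1 h, cohGen_of_not_dvd N' K l.1 h']
      show castHom (hlev ε) K (chainD N θ (Lε ε) (hadm ε) (rep' ε) (hrep' ε)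
        (GamH.TH θ K h φ)) = _
      have hℓ : ¬ (l.1 : ℕ) ∣ chainLevel N (Lε ε) := by
        rw [hlev ε]
        exact h'
      have h1 := chainD_TH N θ (Lε ε) (hadm ε) (rep' ε) (hrep' ε) hℓ φ
      have h2 : GamH.TH θ K h φ = GamH.TH θ K (not_dvd_base hℓ) φ := rfl
      rw [h2, h1, castHom_smul, castHom_cohT (hlev ε) hℓ h']
      rfl

end Chains

end Fermat.Agent.GB.B7.TwU

end
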