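/-
GATE-B / S43, node GB-B7-TKILL (helper52): **the twisted Hecke action with `U_q` on the
`𝔪`-primary part of `Hom(Γ_H, O)`, and `tw (U_q)² = 1` on a `q`-new primary part.**

Inputs on main: `TwU`/`TwUInst` (the ring hom `tw` on the parabolic classes with
`tw (U_q) = ⟨d_q⟩ ∘ U_q`), helper83/helper97 `UqSq.UH_UH_of_ker` + `UqEquivAll`, helper95
`LocTransportInst(D)` (`coresq_eq_zero`, `coresDq_eq_zero`), helper74 `Loc`/`LocBridge`.

* `exists_isLoc_preimage` : on the `𝔪`-primary part every `s ∉ 𝔪` is onto (complete local base);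
* `actP`, `coe_actP` : the action of the Hecke symbols on the parabolic classes;
* `commute_diaV_twU`, `commute_THV_twU`, `commute_UHV_twU` : the diamonds, `T_ℓ'`, `U_r'` commute with
  every `tw t` (twins of helper44's `TwFinal.commute_*_tw`, generator formula with `genH`);
* `isLoc_apply` : an endomorphism of the parabolic classes commuting with the symbols preserves the
  `𝔪`-primary part (under (BND): the primary part is parabolic);
* `twLoc` : the ring hom `t ↦ tw t` restricted to `Base.locSub (actH Sy O θ) 𝔪`; `coe_twLoc`;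
* `UH_UH_of_zero` : `U_q² = ⟨q⟩` on the primary part at level `N q` when the primary part at level
  `N` vanishes (general `θ'`);
* `dia_U_dia_U` : `⟨d⟩ U_q ⟨d⟩ U_q = 1` there, for `χ(d)² θ(q) = 1`;
* `twLoc_U_sq` : `twLoc (U_q) ^ 2 = 1`  — the `hU` binder of `TKill.trace_sq_kill`.
-/
import Mathlib
import Fermat.Agent.GB.B7.TwUInst
import Fermat.Agent.GB.B3.LocTransportInstD
import Fermat.Agent.GB.B3.Base
import Fermat.Agent.GB.B3.LocBridge

set_option autoImplicit false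
set_option linter.unusedSectionVars false
set_option linter.style.haveILetI false

noncomputable section

open scoped MatrixGroups
open CongruenceSubgroup Matrix Matrix.SpecialLinearGroup ModularCurve.Period CuspForm
open Fermat.Agent.S16_helper49 Fermat.Agent.GM.B Fermat.Agent.GM.EisClass
open Fermat.Agent.GB.B3 Fermat.Agent.GB.B3.EisGamma0 Fermat.Agent.GB.B3.GamH
open Fermat.Agent.GB.B3.RealLevel Fermat.Agent.GB.B3.HeckeActH Fermat.Agent.GB.B3.HeckeAct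
open Fermat.Agent.GB.B3.CycInst
open Fermat.Agent.GJ.J2.ZStruct Fermat.Agent.GJ.J2.Lat
open Fermat.Agent.GB.B4.Twist.Asm Fermat.Agent.GB.B4.Twist.TwFinal
open Fermat.Agent.GB.B7.TwU

namespace Fermat.Agent.GB.B7.UqOne

/-! ### surjectivity of `s ∉ 𝔪` on the primary part -/

section Preimage

variable {O : Type} [CommRing O] [IsLocalRing O] [IsNoetherianRing O]
  [IsAdicComplete (IsLocalRing.maximalIdeal O) O]
  {A : Type} [CommRing A] [Algebra O A]
  {L : Type*} [AddCommGroup L] [Module O L] [Module.Finite O L]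

/-- on the `𝔪`-primary part every `s ∉ 𝔪` is onto -/
theorem exists_isLoc_preimage (act : A →ₐ[O] Module.End O L) (𝔪 : Ideal A) [𝔪.IsMaximal]
    {y : L} (hy : IsLoc act 𝔪 y) {s : A} (hs : s ∉ 𝔪) :
    ∃ y' : L, IsLoc act 𝔪 y' ∧ act s y' = y := by
  letI := Fermat.Agent.GB.B3.LocBridge.moduleOfAct act
  haveI := Fermat.Agent.GB.B3.LocBridge.isScalarTower_moduleOfAct act
  obtain ⟨u, hu⟩ := Fermat.Agent.GB.B3.Loc2.exists_inv_on_locPart O (L := L) 𝔪 hs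
  have hy' : y ∈ Fermat.Agent.GB.B3.Loc.locPart 𝔪 L :=
    (Fermat.Agent.GB.B3.LocBridge.isLoc_iff_mem_locPart act (fun _ _ => rfl) 𝔪 y).1 hy
  refine ⟨act u y, Base.act_mem_locSub act 𝔪 u hy, ?_⟩
  have h1 := hu y hy'
  show s • u • y = y
  rw [smul_comm]
  exact h1

end Preimage

/-! ### the symbols on the parabolic classes -/

section Par

variable {N : ℕ} [NeZero N] (Sy : Symbols N) {Δ : Type} [CommGroup Δ] (θ : (ZMod N)ˣ →* Δ)
  (O : Type) [CommRing O]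

/-- the operators of the symbols on the parabolic classes -/
def fP : Sy.ι₁ ⊕ Sy.ι₂ → Module.End O ↥(parabolicHoms O (GammaH θ) O)
  | Sum.inl i => haveI := Sy.factℓ i; THV θ O (Sy.hℓN i)
  | Sum.inr j => haveI := Sy.neZeroR j; UHV θ O (Sy.hrN j)

theorem coe_fP (x : Sy.ι₁ ⊕ Sy.ι₂) (v : ↥(parabolicHoms O (GammaH θ) O)) :
    ((fP Sy θ O x v : ↥(parabolicHoms O (GammaH θ) O)) : Additive (GammaH θ) →+ O)
      = (sysH Sy θ x).op O (v : Additive (GammaH θ) →+ O) := by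
  rcases x with i | j
  · rfl
  · rfl

theorem fP_comm (x y : Sy.ι₁ ⊕ Sy.ι₂) : fP Sy θ O x * fP Sy θ O y = fP Sy θ O y * fP Sy θ O x := by
  refine LinearMap.ext fun v => Subtype.ext ?_
  rw [Module.End.mul_apply, Module.End.mul_apply, coe_fP, coe_fP, coe_fP, coe_fP]
  exact opsCommute_sysH Sy O θ x y _

/-- **the action of the Hecke symbols on the parabolic classes** -/
def actP : Sy.𝕋 O →ₐ[O] Module.End O ↥(parabolicHoms O (GammaH θ) O) :=
  polyAct (fP Sy θ O) (fP_comm Sy θ O)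

/-- … is the restriction of `actH` -/
theorem coe_actP (s : Sy.𝕋 O) (v : ↥(parabolicHoms O (GammaH θ) O)) :
    ((actP Sy θ O s v : ↥(parabolicHoms O (GammaH θ) O)) : Additive (GammaH θ) →+ O)
      = actH Sy O θ s (v : Additive (GammaH θ) →+ O) := by
  have h := polyAct_intertwine (fP Sy θ O) (fP_comm Sy θ O)
    (fun x => opLin O (sysH Sy θ x)) (opLin_comm (opsCommute_sysH Sy O θ))
    (parabolicHoms O (GammaH θ) O).subtype (fun x v => coe_fP Sy θ O x v) s v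
  exact h

/-- an endomorphism of the parabolic classes commuting with the operators of the symbols commutes
with the whole action -/
theorem commute_actP (X : Module.End O ↥(parabolicHoms O (GammaH θ) O))
    (hX : ∀ x, X * fP Sy θ O x = fP Sy θ O x * X) (s : Sy.𝕋 O) :
    X * actP Sy θ O s = actP Sy θ O s * X :=
  polyAct_commute_of (fP Sy θ O) (fP_comm Sy θ O) X hX s

end Par

/-! ### endomorphisms commuting with the symbols preserve the primary part -/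

section IsLocApply

variable {N : ℕ} [NeZero N] (Sy : Symbols N) {Δ : Type} [CommGroup Δ] (θ : (ZMod N)ˣ →* Δ)
  {O : Type} [CommRing O] [IsDomain O] [IsPrincipalIdealRing O] [IsLocalRing O]
  [IsAdicComplete (IsLocalRing.maximalIdeal O) O]
  (𝔪 : Ideal (Sy.𝕋 O)) [𝔪.IsMaximal]
  (hbnd : ∀ y : Additive (GammaH θ) →+ O, IsLoc (actH Sy O θ) 𝔪 y →
    y ∈ parabolicHoms O (GammaH θ) O)

include hbnd in
/-- **an endomorphism of the parabolic classes commuting with the symbols preserves the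
`𝔪`-primary part** -/
theorem isLoc_apply (X : Module.End O ↥(parabolicHoms O (GammaH θ) O))
    (hX : ∀ x, X * fP Sy θ O x = fP Sy θ O x * X)
    {y : Additive (GammaH θ) →+ O} (hy : IsLoc (actH Sy O θ) 𝔪 y) :
    IsLoc (actH Sy O θ) 𝔪
      ((X ⟨y, hbnd y hy⟩ : ↥(parabolicHoms O (GammaH θ) O)) : Additive (GammaH θ) →+ O) := by
  haveI hfi : (GammaH θ).FiniteIndex := StepInst.finiteIndex_GammaH θ
  haveI : Module.Finite O (Additive (GammaH θ) →+ O) := HomFree.homFinite_SL2Z (GammaH θ) O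
  intro s hs
  obtain ⟨y', hy', hsy⟩ := exists_isLoc_preimage (actH Sy O θ) 𝔪 hy hs
  refine ⟨((X ⟨y', hbnd y' hy'⟩ : ↥(parabolicHoms O (GammaH θ) O)) :
    Additive (GammaH θ) →+ O), ?_⟩
  rw [← coe_actP, ← Module.End.mul_apply, ← commute_actP Sy θ O X hX s, Module.End.mul_apply]
  congr 2
  apply Subtype.ext
  rw [coe_actP]
  exact hsy

end IsLocApply

/-! ### the generators `genH` commute with `T_ℓ'`, `U_r'` -/

section GenComm

variable {N : ℕ} [NeZero N] {Δ : Type} [CommGroup Δ] (θ : (ZMod N)ˣ →* Δ)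
  (A : Type*) [AddCommGroup A]

/-- local instance (Prop-valued class) -/
local instance factPrimeOfPrimes' (l : Nat.Primes) : Fact (l : ℕ).Prime := ⟨l.2⟩

/-- local instance (Prop-valued class) -/
local instance neZeroOfPrimes' (l : Nat.Primes) : NeZero (l : ℕ) := ⟨l.2.ne_zero⟩

theorem TH_genH {ℓ' : ℕ} [Fact ℓ'.Prime] (hℓ'N : ¬ ℓ' ∣ N) (l : Nat.Primes)
    (ψ : Additive (GammaH θ) →+ A) :
    TH θ A hℓ'N (genH θ A l ψ) = genH θ A l (TH θ A hℓ'N ψ) := by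
  by_cases h : (l : ℕ) ∣ N
  · rw [genH_of_dvd θ A l h]
    exact (CommGammaH.UH_TH_comm θ A hℓ'N h l.2.one_lt ψ).symm
  · rw [genH_of_not_dvd θ A l h]
    exact CommGammaH.TH_comm θ A h hℓ'N ψ

theorem UH_genH {r : ℕ} [NeZero r] (hr : r.Prime) (hrN : r ∣ N) (l : Nat.Primes)
    (ψ : Additive (GammaH θ) →+ A) :
    UH θ A hrN (genH θ A l ψ) = genH θ A l (UH θ A hrN ψ) := by
  by_cases h : (l : ℕ) ∣ N
  · rw [genH_of_dvd θ A l h]
    by_cases hlr : (l : ℕ) = r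
    · subst hlr
      rfl
    · exact CommGammaH.UH_comm θ A h hrN l.2.one_lt hr.one_lt
        ((Nat.coprime_primes l.2 hr).mpr hlr) ψ
  · rw [genH_of_not_dvd θ A l h]
    exact CommGammaH.UH_TH_comm θ A h hrN hr.one_lt ψ

end GenComm

/-! ### the commutant of the twisted action with `U`-generators -/

section Commutant

variable {N : ℕ} [NeZero N] {Δ : Type} [CommGroup Δ] (θ : (ZMod N)ˣ →* Δ)
  {O : Type*} [CommRing O] {N' : ℕ} [NeZero N'] (S : Set ℕ) (dℓ : PrimesOff S → Gamma0 N)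
  (tw : ↥(heckeAlgebra N' 2 S) →+* Module.End O ↥(parabolicHoms O (GammaH θ) O))
  (htw : ∀ (l : PrimesOff S) (v : ↥(parabolicHoms O (GammaH θ) O)),
    ((tw (formsGenS N' S l) v : ↥(parabolicHoms O (GammaH θ) O)) : Additive (GammaH θ) →+ O)
      = diaH θ O (dℓ l) (genH θ O l.1 (v : Additive (GammaH θ) →+ O)))

include htw in
/-- the diamond operators commute with the twisted Hecke action -/
theorem commute_diaV_twU (d : Gamma0 N) (t : ↥(heckeAlgebra N' 2 S)) :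
    Commute (diaV θ O d) (tw t) := by
  refine commute_of_commute_gens (E := Module.End O ↥(parabolicHoms O (GammaH θ) O)) S tw _
    (fun l => ?_) t
  refine LinearMap.ext fun v => Subtype.ext ?_
  rw [Module.End.mul_apply, Module.End.mul_apply, coe_diaV, htw, htw, coe_diaV,
    diaH_comm, diaH_genH]

include htw in
/-- the operators `T_ℓ'` (`ℓ' ∤ N`) commute with the twisted Hecke action -/
theorem commute_THV_twU {ℓ' : ℕ} [Fact ℓ'.Prime] (hℓ'N : ¬ ℓ' ∣ N)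
    (t : ↥(heckeAlgebra N' 2 S)) : Commute (THV θ O hℓ'N) (tw t) := by
  refine commute_of_commute_gens (E := Module.End O ↥(parabolicHoms O (GammaH θ) O)) S tw _
    (fun l => ?_) t
  refine LinearMap.ext fun v => Subtype.ext ?_
  rw [Module.End.mul_apply, Module.End.mul_apply, coe_THV, htw, htw, coe_THV,
    ← diaH_TH, TH_genH]

include htw in
/-- the operators `U_r` (`r ∣ N` prime) commute with the twisted Hecke action -/
theorem commute_UHV_twU {r : ℕ} [NeZero r] (hr : r.Prime) (hrN : r ∣ N)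
    (t : ↥(heckeAlgebra N' 2 S)) : Commute (UHV θ O hrN) (tw t) := by
  refine commute_of_commute_gens (E := Module.End O ↥(parabolicHoms O (GammaH θ) O)) S tw _
    (fun l => ?_) t
  refine LinearMap.ext fun v => Subtype.ext ?_
  rw [Module.End.mul_apply, Module.End.mul_apply, coe_UHV, htw, htw, coe_UHV,
    ← diaH_UH, UH_genH θ O hr hrN]

end Commutant

/-! ### the twisted action on the primary part -/

section TwLoc

variable {N : ℕ} [NeZero N] (Sy : Symbols N) {Δ : Type} [CommGroup Δ] (θ : (ZMod N)ˣ →* Δ)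
  {O : Type} [CommRing O] [IsDomain O] [IsPrincipalIdealRing O] [IsLocalRing O]
  [IsAdicComplete (IsLocalRing.maximalIdeal O) O]
  (𝔪 : Ideal (Sy.𝕋 O)) [𝔪.IsMaximal]
  (hbnd : ∀ y : Additive (GammaH θ) →+ O, IsLoc (actH Sy O θ) 𝔪 y →
    y ∈ parabolicHoms O (GammaH θ) O)
  {N' : ℕ} [NeZero N'] (S : Set ℕ) (dℓ : PrimesOff S → Gamma0 N)
  (tw : ↥(heckeAlgebra N' 2 S) →+* Module.End O ↥(parabolicHoms O (GammaH θ) O))
  (htw : ∀ (l : PrimesOff S) (v : ↥(parabolicHoms O (GammaH θ) O)),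
    ((tw (formsGenS N' S l) v : ↥(parabolicHoms O (GammaH θ) O)) : Additive (GammaH θ) →+ O)
      = diaH θ O (dℓ l) (genH θ O l.1 (v : Additive (GammaH θ) →+ O)))

include htw in
theorem tw_comm_fP (t : ↥(heckeAlgebra N' 2 S)) (x : Sy.ι₁ ⊕ Sy.ι₂) :
    tw t * fP Sy θ O x = fP Sy θ O x * tw t := by
  rcases x with i | j
  · haveI := Sy.factℓ i
    exact (commute_THV_twU θ S dℓ tw htw (Sy.hℓN i) t).eq.symm
  · haveI := Sy.neZeroR j
    exact (commute_UHV_twU θ S dℓ tw htw (Sy.hr j) (Sy.hrN j) t).eq.symm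

/-- the inclusion of the primary part into the parabolic classes (under (BND)) -/
def upL : ↥(Base.locSub (actH Sy O θ) 𝔪) →ₗ[O] ↥(parabolicHoms O (GammaH θ) O) :=
  LinearMap.codRestrict (parabolicHoms O (GammaH θ) O) (Base.locSub (actH Sy O θ) 𝔪).subtype
    (fun y => hbnd y.1 y.2)

theorem coe_upL (y : ↥(Base.locSub (actH Sy O θ) 𝔪)) :
    ((upL Sy θ 𝔪 hbnd y : ↥(parabolicHoms O (GammaH θ) O)) : Additive (GammaH θ) →+ O)
      = (y : Additive (GammaH θ) →+ O) := rfl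

/-- **the twisted Hecke action on the `𝔪`-primary part** -/
def twLoc : ↥(heckeAlgebra N' 2 S) →+* Module.End O ↥(Base.locSub (actH Sy O θ) 𝔪) where
  toFun t := LinearMap.codRestrict (Base.locSub (actH Sy O θ) 𝔪)
    ((parabolicHoms O (GammaH θ) O).subtype ∘ₗ tw t ∘ₗ upL Sy θ 𝔪 hbnd)
    (fun y => isLoc_apply Sy θ 𝔪 hbnd (tw t) (tw_comm_fP Sy θ S dℓ tw htw t) y.2)
  map_one' := by
    refine LinearMap.ext fun y => Subtype.ext ?_
    show ((tw 1 (upL Sy θ 𝔪 hbnd y) : ↥(parabolicHoms O (GammaH θ) O)) :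
      Additive (GammaH θ) →+ O) = _
    rw [map_one]
    rfl
  map_mul' t t' := by
    refine LinearMap.ext fun y => Subtype.ext ?_
    show ((tw (t * t') (upL Sy θ 𝔪 hbnd y) : ↥(parabolicHoms O (GammaH θ) O)) :
      Additive (GammaH θ) →+ O) = _
    rw [map_mul]
    rfl
  map_zero' := by
    refine LinearMap.ext fun y => Subtype.ext ?_
    show ((tw 0 (upL Sy θ 𝔪 hbnd y) : ↥(parabolicHoms O (GammaH θ) O)) :
      Additive (GammaH θ) →+ O) = _
    rw [map_zero]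
    rfl
  map_add' t t' := by
    refine LinearMap.ext fun y => Subtype.ext ?_
    show ((tw (t + t') (upL Sy θ 𝔪 hbnd y) : ↥(parabolicHoms O (GammaH θ) O)) :
      Additive (GammaH θ) →+ O) = _
    rw [map_add]
    rfl

theorem coe_twLoc (t : ↥(heckeAlgebra N' 2 S)) (y : ↥(Base.locSub (actH Sy O θ) 𝔪)) :
    ((twLoc Sy θ 𝔪 hbnd S dℓ tw htw t y : ↥(Base.locSub (actH Sy O θ) 𝔪)) :
        Additive (GammaH θ) →+ O)
      = ((tw t (upL Sy θ 𝔪 hbnd y) : ↥(parabolicHoms O (GammaH θ) O)) :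
        Additive (GammaH θ) →+ O) := rfl

/-- `twLoc` commutes with the action of the symbols on the primary part -/
theorem twLoc_comm_act (t : ↥(heckeAlgebra N' 2 S)) (s : Sy.𝕋 O) :
    Commute (twLoc Sy θ 𝔪 hbnd S dℓ tw htw t) (Base.locSubAct (actH Sy O θ) 𝔪 s) := by
  refine LinearMap.ext fun y => Subtype.ext ?_
  rw [Module.End.mul_apply, Module.End.mul_apply, coe_twLoc]
  show _ = actH Sy O θ s ((twLoc Sy θ 𝔪 hbnd S dℓ tw htw t y :
    ↥(Base.locSub (actH Sy O θ) 𝔪)) : Additive (GammaH θ) →+ O)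
  rw [coe_twLoc, ← coe_actP, ← Module.End.mul_apply,
    ← commute_actP Sy θ O (tw t) (tw_comm_fP Sy θ S dℓ tw htw t) s, Module.End.mul_apply]
  congr 2
  apply Subtype.ext
  rw [coe_actP]
  rfl

end TwLoc

/-! ### `U_q² = ⟨q⟩` and `(⟨d⟩ U_q)² = 1` on a `q`-new primary part -/

section USq

open Fermat.Agent.GB.B7.UqSq Fermat.Agent.GB.B3.LocTransport Fermat.Agent.GB.B3.LocTransportInst
  Fermat.Agent.GB.B3.LocTransportInstD

variable {N q : ℕ} [NeZero N] [Fact q.Prime] (Sy : Symbols (N * q)) (hrN : ∀ j, Sy.r j ∣ N)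
  (hqN : ¬ q ∣ N) {Δ : Type} [CommGroup Δ] (θ' : (ZMod N)ˣ →* Δ)
  {O : Type} [CommRing O] (𝔪 : Ideal (Sy.𝕋 O))
  (hzero : ∀ y : Additive (GammaH θ') →+ O,
    IsLoc (actH (restrict Sy hrN) O θ') 𝔪 y → y = 0)

include hzero hqN in
/-- **`U_q² = ⟨d_q⟩`** on the primary part at level `N q` when the primary part at level `N`
vanishes (`θ'` arbitrary) -/
theorem UH_UH_of_zero {x : Additive (GammaH (thQ θ' q)) →+ O}
    (hx : IsLoc (actH Sy O (thQ θ' q)) 𝔪 x)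
    (u : (ZMod N)ˣ) (hu : (u : ZMod N) = (q : ZMod N))
    (dq : Gamma0 (N * q)) (hdq : chi (thQ θ' q) dq = θ' u) :
    UH (thQ θ' q) O (Fermat.Agent.GM.B5.dvd_mul_self_right (N := N) (q := q))
        (UH (thQ θ' q) O (Fermat.Agent.GM.B5.dvd_mul_self_right (N := N) (q := q)) x)
      = diaH (thQ θ' q) O dq x :=
  UH_UH_of_ker θ' hqN x (coresq_eq_zero Sy hrN θ' hqN 𝔪 hzero hx)
    (coresDq_eq_zero Sy hrN θ' hqN 𝔪 hzero hx) u hu dq hdq

include hzero hqN in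
/-- **`⟨d⟩ U_q ⟨d⟩ U_q = 1`** on the primary part, for `χ(d)² · θ(ũ) = 1`, `ũ ≡ q mod N` -/
theorem dia_U_dia_U {x : Additive (GammaH (thQ θ' q)) →+ O}
    (hx : IsLoc (actH Sy O (thQ θ' q)) 𝔪 x)
    (d : Gamma0 (N * q)) (ũ : (ZMod (N * q))ˣ)
    (hũ : ((ZMod.unitsMap (Nat.dvd_mul_right N q) ũ : (ZMod N)ˣ) : ZMod N) = (q : ZMod N))
    (hd : chi (thQ θ' q) d ^ 2 * thQ θ' q ũ = 1) (hq' : q ∣ N * q) :
    diaH (thQ θ' q) O d (UH (thQ θ' q) O hq'
        (diaH (thQ θ' q) O d (UH (thQ θ' q) O hq' x))) = x := by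
  haveI : NeZero (N * q) := ⟨Nat.mul_ne_zero (NeZero.ne N) (Fact.out : q.Prime).ne_zero⟩
  obtain ⟨dq, hdq⟩ := dUnits_surjective (N := N * q) ũ
  have hdq' : chi (thQ θ' q) dq = θ' (ZMod.unitsMap (Nat.dvd_mul_right N q) ũ) := by
    rw [chi_apply, hdq]
    rfl
  have h1 := UH_UH_of_zero Sy hrN hqN θ' 𝔪 hzero hx _ hũ dq hdq'
  rw [← diaH_UH, h1, ← diaH_mul, ← diaH_mul]
  refine diaH_of_ker (thQ θ' q) _ ?_ x
  rw [map_mul, map_mul, hdq', mul_comm (θ' _), mul_assoc, ← mul_assoc, ← pow_two]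
  exact hd

end USq

/-! ### `twLoc (U_q) ^ 2 = 1` -/

section TwLocSq

open Fermat.Agent.GB.B7.UqSq Fermat.Agent.GB.B3.LocTransport

variable {N q : ℕ} [NeZero N] [hqF : Fact q.Prime] (Sy : Symbols (N * q)) (hrN : ∀ j, Sy.r j ∣ N)
  (hqN : ¬ q ∣ N) {Δ : Type} [CommGroup Δ] (θ' : (ZMod N)ˣ →* Δ)
  {O : Type} [CommRing O] [IsDomain O] [IsPrincipalIdealRing O] [IsLocalRing O]
  [IsAdicComplete (IsLocalRing.maximalIdeal O) O]
  (𝔪 : Ideal (Sy.𝕋 O)) [𝔪.IsMaximal]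
  (hzero : ∀ y : Additive (GammaH θ') →+ O,
    IsLoc (actH (restrict Sy hrN) O θ') 𝔪 y → y = 0)
  [NeZero (N * q)]
  (hbnd : ∀ y : Additive (GammaH (thQ θ' q)) →+ O, IsLoc (actH Sy O (thQ θ' q)) 𝔪 y →
    y ∈ parabolicHoms O (GammaH (thQ θ' q)) O)
  {N' : ℕ} [NeZero N'] (S : Set ℕ) (dℓ : PrimesOff S → Gamma0 (N * q))
  (tw : ↥(heckeAlgebra N' 2 S) →+* Module.End O ↥(parabolicHoms O (GammaH (thQ θ' q)) O))
  (htw : ∀ (l : PrimesOff S) (v : ↥(parabolicHoms O (GammaH (thQ θ' q)) O)),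
    ((tw (formsGenS N' S l) v : ↥(parabolicHoms O (GammaH (thQ θ' q)) O)) :
        Additive (GammaH (thQ θ' q)) →+ O)
      = diaH (thQ θ' q) O (dℓ l) (genH (thQ θ' q) O l.1
          (v : Additive (GammaH (thQ θ' q)) →+ O)))

include hzero hqN in
/-- **`tw (U_q)² = 1` on the `𝔪`-primary part** (the `hU` binder of `TKill.trace_sq_kill`) -/
theorem twLoc_U_sq (hqN' : q ∣ N') (hqS : q ∉ S)
    (htwU : ∀ v : ↥(parabolicHoms O (GammaH (thQ θ' q)) O),
      ((tw (heckeAlgebra.U hqF.out hqN' hqS) v : ↥(parabolicHoms O (GammaH (thQ θ' q)) O)) :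
          Additive (GammaH (thQ θ' q)) →+ O)
        = diaH (thQ θ' q) O (dℓ ⟨⟨q, hqF.out⟩, hqS⟩)
            (genH (thQ θ' q) O ⟨q, hqF.out⟩ (v : Additive (GammaH (thQ θ' q)) →+ O)))
    (ũ : (ZMod (N * q))ˣ)
    (hũ : ((ZMod.unitsMap (Nat.dvd_mul_right N q) ũ : (ZMod N)ˣ) : ZMod N) = (q : ZMod N))
    (hd : chi (thQ θ' q) (dℓ ⟨⟨q, hqF.out⟩, hqS⟩) ^ 2 * thQ θ' q ũ = 1) :
    twLoc Sy (thQ θ' q) 𝔪 hbnd S dℓ tw htw (heckeAlgebra.U hqF.out hqN' hqS) ^ 2 = 1 := by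
  have hq' : q ∣ N * q := Dvd.intro_left N rfl
  refine LinearMap.ext fun y => Subtype.ext ?_
  rw [pow_two, Module.End.mul_apply, coe_twLoc, htwU, genH_of_dvd (thQ θ' q) O ⟨q, hqF.out⟩ hq',
    coe_upL, coe_twLoc, htwU, genH_of_dvd (thQ θ' q) O ⟨q, hqF.out⟩ hq', coe_upL]
  exact dia_U_dia_U Sy hrN hqN θ' 𝔪 hzero y.2 _ ũ hũ hd hq'

end TwLocSq

/-! ### the package at a stage of the B3 tower -/

section Package

open Fermat.Agent.GB.B7.UqSq Fermat.Agent.GB.B3.LocTransport Fermat.Agent.GB.B3.Tower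
  Fermat.Agent.GB.B3.TWChars Fermat.Agent.GB.B7.TwUInst Fermat.Agent.GB.B4.Twist.L6Loc

variable {N q : ℕ} [NeZero N] [hqF : Fact q.Prime] (Sy : Symbols (N * q)) (hrN : ∀ j, Sy.r j ∣ N)
  (hqN : ¬ q ∣ N) {Δ : Type} [CommGroup Δ]
  {O : Type} [CommRing O] [IsDomain O] [IsPrincipalIdealRing O] [IsLocalRing O]
  [IsAdicComplete (IsLocalRing.maximalIdeal O) O]
  (𝔪 : Ideal (Sy.𝕋 O)) [𝔪.IsMaximal] [NeZero (N * q)]

include hqN in
/-- `twLoc_U_sq` for a character `θ` given with an equation `θ = thQ θ' q` -/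
theorem twLoc_U_sq' (θ : (ZMod (N * q))ˣ →* Δ) (θ' : (ZMod N)ˣ →* Δ) (hθ : θ = thQ θ' q)
    (hzero : ∀ y : Additive (GammaH θ') →+ O,
      IsLoc (actH (restrict Sy hrN) O θ') 𝔪 y → y = 0)
    (hbnd : ∀ y : Additive (GammaH θ) →+ O, IsLoc (actH Sy O θ) 𝔪 y →
      y ∈ parabolicHoms O (GammaH θ) O)
    {N' : ℕ} [NeZero N'] (S : Set ℕ) (dℓ : PrimesOff S → Gamma0 (N * q))
    (tw : ↥(heckeAlgebra N' 2 S) →+* Module.End O ↥(parabolicHoms O (GammaH θ) O))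
    (htw : ∀ (l : PrimesOff S) (v : ↥(parabolicHoms O (GammaH θ) O)),
      ((tw (formsGenS N' S l) v : ↥(parabolicHoms O (GammaH θ) O)) : Additive (GammaH θ) →+ O)
        = diaH θ O (dℓ l) (genH θ O l.1 (v : Additive (GammaH θ) →+ O)))
    (hqN' : q ∣ N') (hqS : q ∉ S)
    (htwU : ∀ v : ↥(parabolicHoms O (GammaH θ) O),
      ((tw (heckeAlgebra.U hqF.out hqN' hqS) v : ↥(parabolicHoms O (GammaH θ) O)) :
          Additive (GammaH θ) →+ O)
        = diaH θ O (dℓ ⟨⟨q, hqF.out⟩, hqS⟩)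
            (genH θ O ⟨q, hqF.out⟩ (v : Additive (GammaH θ) →+ O)))
    (ũ : (ZMod (N * q))ˣ)
    (hũ : ((ZMod.unitsMap (Nat.dvd_mul_right N q) ũ : (ZMod N)ˣ) : ZMod N) = (q : ZMod N))
    (hd : chi θ (dℓ ⟨⟨q, hqF.out⟩, hqS⟩) ^ 2 * θ ũ = 1) :
    twLoc Sy θ 𝔪 hbnd S dℓ tw htw (heckeAlgebra.U hqF.out hqN' hqS) ^ 2 = 1 := by
  subst hθ
  exact twLoc_U_sq Sy hrN hqN θ' 𝔪 hzero hbnd S dℓ tw htw hqN' hqS htwU ũ hũ hd

include hqN in
/-- a unit of `ZMod (N q)` congruent to `q` modulo `N` -/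
theorem exists_unit_q :
    ∃ ũ : (ZMod (N * q))ˣ,
      ((ZMod.unitsMap (Nat.dvd_mul_right N q) ũ : (ZMod N)ˣ) : ZMod N) = (q : ZMod N) := by
  have hcop : Nat.Coprime q N := (Nat.Prime.coprime_iff_not_dvd hqF.out).mpr hqN
  obtain ⟨ũ, hũ⟩ := ZMod.unitsMap_surjective (Nat.dvd_mul_right N q) (ZMod.unitOfCoprime q hcop)
  exact ⟨ũ, by rw [hũ, ZMod.coe_unitOfCoprime]⟩

/-- its residues modulo the divisors of `N` -/
theorem cast_unit_q {ũ : (ZMod (N * q))ˣ}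
    (hũ : ((ZMod.unitsMap (Nat.dvd_mul_right N q) ũ : (ZMod N)ˣ) : ZMod N) = (q : ZMod N))
    {r : ℕ} (hr : r ∣ N) : (((ũ : ZMod (N * q))).cast : ZMod r) = ((q : ℕ) : ZMod r) := by
  have h1 := congrArg (fun f => f ũ) (ZMod.unitsMap_comp hr (Nat.dvd_mul_right N q))
  simp only [MonoidHom.comp_apply] at h1
  rw [cast_unit_eq (hr.trans (Nat.dvd_mul_right N q)) ũ, ← h1, ← cast_unit_eq hr, hũ,
    ZMod.cast_natCast hr]

include hqN in
/-- **B7 package, general form**: from a twisted action `tw` on the parabolic classes of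
`Γ_H(θ)`, `θ = thQ θ' q`, with the generator formulas of `TwU`, the action `tw₁` on the
`𝔪`-primary part with **`tw₁ (U_q)² = 1`**. -/
theorem exists_tw₁_of_tw (θ : (ZMod (N * q))ˣ →* Δ) (θ' : (ZMod N)ˣ →* Δ) (hθ : θ = thQ θ' q)
    (hzero : ∀ y : Additive (GammaH θ') →+ O,
      IsLoc (actH (restrict Sy hrN) O θ') 𝔪 y → y = 0)
    (hbnd : ∀ y : Additive (GammaH θ) →+ O, IsLoc (actH Sy O θ) 𝔪 y →
      y ∈ parabolicHoms O (GammaH θ) O)
    {N₁ : ℕ} [NeZero N₁] (S : Set ℕ) (hqS : q ∉ S) (dℓ : PrimesOff S → Gamma0 (N * q))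
    (tw : ↥(heckeAlgebra N₁ 2 S) →+* Module.End O ↥(parabolicHoms O (GammaH θ) O))
    (h1 : ∀ (l : PrimesOff S) (v : ↥(parabolicHoms O (GammaH θ) O)),
      ((tw (formsGenS N₁ S l) v : ↥(parabolicHoms O (GammaH θ) O)) : Additive (GammaH θ) →+ O)
        = diaH θ O (dℓ l) (genH θ O l.1 (v : Additive (GammaH θ) →+ O)))
    (h2 : ∀ {ℓ : ℕ} (hℓ : ℓ.Prime) (hℓN₁ : ¬ ℓ ∣ N₁) (hℓS : ℓ ∉ S)
        (v : ↥(parabolicHoms O (GammaH θ) O)),
      ((tw (heckeAlgebra.T hℓ hℓN₁ hℓS) v : ↥(parabolicHoms O (GammaH θ) O)) :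
          Additive (GammaH θ) →+ O)
        = diaH θ O (dℓ ⟨⟨ℓ, hℓ⟩, hℓS⟩) (genH θ O ⟨ℓ, hℓ⟩ (v : Additive (GammaH θ) →+ O)))
    (h3 : ∀ {q' : ℕ} (hq' : q'.Prime) (hq'N₁ : q' ∣ N₁) (hq'S : q' ∉ S)
        (v : ↥(parabolicHoms O (GammaH θ) O)),
      ((tw (heckeAlgebra.U hq' hq'N₁ hq'S) v : ↥(parabolicHoms O (GammaH θ) O)) :
          Additive (GammaH θ) →+ O)
        = diaH θ O (dℓ ⟨⟨q', hq'⟩, hq'S⟩) (genH θ O ⟨q', hq'⟩ (v : Additive (GammaH θ) →+ O)))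
    (hdq : ∀ ũ : (ZMod (N * q))ˣ,
      ((ZMod.unitsMap (Nat.dvd_mul_right N q) ũ : (ZMod N)ˣ) : ZMod N) = (q : ZMod N) →
        chi θ (dℓ ⟨⟨q, hqF.out⟩, hqS⟩) ^ 2 * θ ũ = 1) :
    ∃ tw₁ : ↥(heckeAlgebra N₁ 2 S) →+* Module.End O ↥(Base.locSub (actH Sy O θ) 𝔪),
      (∀ {ℓ : ℕ} (hℓ : ℓ.Prime) (hℓN₁ : ¬ ℓ ∣ N₁) (hℓS : ℓ ∉ S) (hℓN : ¬ ℓ ∣ N * q)
          (y : ↥(Base.locSub (actH Sy O θ) 𝔪)),
        haveI : Fact ℓ.Prime := ⟨hℓ⟩
        ((tw₁ (heckeAlgebra.T hℓ hℓN₁ hℓS) y : ↥(Base.locSub (actH Sy O θ) 𝔪)) :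
            Additive (GammaH θ) →+ O)
          = diaH θ O (dℓ ⟨⟨ℓ, hℓ⟩, hℓS⟩) (TH θ O hℓN (y : Additive (GammaH θ) →+ O))) ∧
      (∀ hqN₁ : q ∣ N₁, tw₁ (heckeAlgebra.U hqF.out hqN₁ hqS) ^ 2 = 1) ∧
      (∀ t s, Commute (tw₁ t) (Base.locSubAct (actH Sy O θ) 𝔪 s)) ∧
      (∀ (t : ↥(heckeAlgebra N₁ 2 S)) (d : Gamma0 (N * q))
          (y y' : ↥(Base.locSub (actH Sy O θ) 𝔪)),
        (y' : Additive (GammaH θ) →+ O) = diaH θ O d (y : Additive (GammaH θ) →+ O) →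
          ((tw₁ t y' : ↥(Base.locSub (actH Sy O θ) 𝔪)) : Additive (GammaH θ) →+ O)
            = diaH θ O d ((tw₁ t y : ↥(Base.locSub (actH Sy O θ) 𝔪)) :
                Additive (GammaH θ) →+ O)) ∧
      (∀ (t : ↥(heckeAlgebra N₁ 2 S)) {ℓ' : ℕ} [Fact ℓ'.Prime] (hℓ'N : ¬ ℓ' ∣ N * q)
          (y y' : ↥(Base.locSub (actH Sy O θ) 𝔪)),
        (y' : Additive (GammaH θ) →+ O) = TH θ O hℓ'N (y : Additive (GammaH θ) →+ O) →
          ((tw₁ t y' : ↥(Base.locSub (actH Sy O θ) 𝔪)) : Additive (GammaH θ) →+ O)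
            = TH θ O hℓ'N ((tw₁ t y : ↥(Base.locSub (actH Sy O θ) 𝔪)) :
                Additive (GammaH θ) →+ O)) := by
  classical
  refine ⟨twLoc Sy θ 𝔪 hbnd S dℓ tw h1, ?_, ?_, ?_, ?_, ?_⟩
  · intro ℓ hℓ hℓN₁ hℓS hℓN y
    rw [coe_twLoc, h2 hℓ hℓN₁ hℓS, genH_of_not_dvd θ O ⟨ℓ, hℓ⟩ hℓN, coe_upL]
  · intro hqN₁
    obtain ⟨ũ, hũ⟩ := exists_unit_q (N := N) (q := q) hqN
    exact twLoc_U_sq' Sy hrN hqN 𝔪 θ θ' hθ hzero hbnd S dℓ tw h1 hqN₁ hqS
      (fun v => h3 hqF.out hqN₁ hqS v) ũ hũ (hdq ũ hũ)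
  · intro t s
    exact twLoc_comm_act Sy θ 𝔪 hbnd S dℓ tw h1 t s
  · intro t d y y' hy
    rw [coe_twLoc, coe_twLoc, ← coe_diaV, ← Module.End.mul_apply,
      (commute_diaV_twU θ S dℓ tw h1 d t).eq, Module.End.mul_apply]
    congr 2
    apply Subtype.ext
    rw [coe_diaV, coe_upL, coe_upL]
    exact hy
  · intro t ℓ' _ hℓ'N y y' hy
    rw [coe_twLoc, coe_twLoc, ← coe_THV, ← Module.End.mul_apply,
      (commute_THV_twU θ S dℓ tw h1 hℓ'N t).eq, Module.End.mul_apply]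
    congr 2
    apply Subtype.ext
    rw [coe_THV, coe_upL, coe_upL]
    exact hy

variable {p K : ℕ} [hpF : Fact p.Prime] {r e N'' : ℕ → ℕ} (H : PrimeData (N * q) p K r e N'')

include hqN in
/-- **B7 package at the stage `θ = Theta (Δs p e) H.psi k` of the B3 tower at level `N q`**
(`q` not among the first `k` primes): the twisted action `tw₁` of `heckeAlgebra N₁ 2 S`
(`N₁ = N q ∏_{i<k} r i`, `q ∉ S`) on the `𝔪`-primary part, with `tw₁ (T_ℓ) = ⟨dℓ ℓ⟩ T_ℓ`,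
**`tw₁ (U_q)² = 1`**, commuting with the symbols, the diamonds and all `T_ℓ'`.
Hypotheses: (BND) the primary part is parabolic; `θ = thQ θ' q` and the primary part at level `N`
(for `θ'`) vanishes. -/
theorem exists_tw₁ (hp2 : p ≠ 2) (k : ℕ) (hk : k ≤ K) (hrk : ∀ i : Fin k, r i ∣ N)
    (θ' : (ZMod N)ˣ →* (∀ i : Fin k, Multiplicative (ZMod (p ^ e i))))
    (hθ : Theta (fun i => Multiplicative (ZMod (p ^ e i))) H.psi k = thQ θ' q)
    (hzero : ∀ y : Additive (GammaH θ') →+ O,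
      IsLoc (actH (restrict Sy hrN) O θ') 𝔪 y → y = 0)
    (hbnd : ∀ y : Additive (GammaH (Theta (fun i => Multiplicative (ZMod (p ^ e i))) H.psi k)) →+ O,
      IsLoc (actH Sy O (Theta (fun i => Multiplicative (ZMod (p ^ e i))) H.psi k)) 𝔪 y →
        y ∈ parabolicHoms O (GammaH (Theta (fun i => Multiplicative (ZMod (p ^ e i))) H.psi k)) O)
    [CharZero O]
    {N₁ : ℕ} [NeZero N₁] (hN₁ : N₁ = N * q * ∏ i : Fin k, r i)
    (S : Set ℕ) (hS : ∀ i : Fin k, r i ∈ S) (hqS : q ∉ S)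
    (dℓ : PrimesOff S → Gamma0 (N * q))
    (hdℓ : ∀ (l : PrimesOff S) (u : (ZMod (N * q))ˣ),
      (∀ i : Fin k, (((u : ZMod (N * q))).cast : ZMod (r i)) = ((l.1 : ℕ) : ZMod (r i))) →
        chi (Theta (fun i => Multiplicative (ZMod (p ^ e i))) H.psi k) (dℓ l) ^ 2
          * Theta (fun i => Multiplicative (ZMod (p ^ e i))) H.psi k u = 1) :
    ∃ tw₁ : ↥(heckeAlgebra N₁ 2 S) →+* Module.End O ↥(Base.locSub
        (actH Sy O (Theta (fun i => Multiplicative (ZMod (p ^ e i))) H.psi k)) 𝔪),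
      (∀ {ℓ : ℕ} (hℓ : ℓ.Prime) (hℓN₁ : ¬ ℓ ∣ N₁) (hℓS : ℓ ∉ S) (hℓN : ¬ ℓ ∣ N * q)
          (y : ↥(Base.locSub
            (actH Sy O (Theta (fun i => Multiplicative (ZMod (p ^ e i))) H.psi k)) 𝔪)),
        haveI : Fact ℓ.Prime := ⟨hℓ⟩
        ((tw₁ (heckeAlgebra.T hℓ hℓN₁ hℓS) y : ↥(Base.locSub
            (actH Sy O (Theta (fun i => Multiplicative (ZMod (p ^ e i))) H.psi k)) 𝔪)) :
            Additive (GammaH (Theta (fun i => Multiplicative (ZMod (p ^ e i))) H.psi k)) →+ O)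
          = diaH (Theta (fun i => Multiplicative (ZMod (p ^ e i))) H.psi k) O
              (dℓ ⟨⟨ℓ, hℓ⟩, hℓS⟩)
              (TH (Theta (fun i => Multiplicative (ZMod (p ^ e i))) H.psi k) O hℓN
                (y : Additive (GammaH
                  (Theta (fun i => Multiplicative (ZMod (p ^ e i))) H.psi k)) →+ O))) ∧
      (∀ hqN₁ : q ∣ N₁, tw₁ (heckeAlgebra.U hqF.out hqN₁ hqS) ^ 2 = 1) ∧
      (∀ t s, Commute (tw₁ t) (Base.locSubAct
        (actH Sy O (Theta (fun i => Multiplicative (ZMod (p ^ e i))) H.psi k)) 𝔪 s)) ∧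
      (∀ (t : ↥(heckeAlgebra N₁ 2 S)) (d : Gamma0 (N * q)) (y y' : ↥(Base.locSub
          (actH Sy O (Theta (fun i => Multiplicative (ZMod (p ^ e i))) H.psi k)) 𝔪)),
        (y' : Additive (GammaH (Theta (fun i => Multiplicative (ZMod (p ^ e i))) H.psi k)) →+ O)
            = diaH (Theta (fun i => Multiplicative (ZMod (p ^ e i))) H.psi k) O d
              (y : Additive (GammaH
                (Theta (fun i => Multiplicative (ZMod (p ^ e i))) H.psi k)) →+ O) →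
          ((tw₁ t y' : ↥(Base.locSub
              (actH Sy O (Theta (fun i => Multiplicative (ZMod (p ^ e i))) H.psi k)) 𝔪)) :
              Additive (GammaH (Theta (fun i => Multiplicative (ZMod (p ^ e i))) H.psi k)) →+ O)
            = diaH (Theta (fun i => Multiplicative (ZMod (p ^ e i))) H.psi k) O d
              ((tw₁ t y : ↥(Base.locSub
                (actH Sy O (Theta (fun i => Multiplicative (ZMod (p ^ e i))) H.psi k)) 𝔪)) :
                Additive (GammaH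
                  (Theta (fun i => Multiplicative (ZMod (p ^ e i))) H.psi k)) →+ O)) ∧
      (∀ (t : ↥(heckeAlgebra N₁ 2 S)) {ℓ' : ℕ} [Fact ℓ'.Prime] (hℓ'N : ¬ ℓ' ∣ N * q)
          (y y' : ↥(Base.locSub
            (actH Sy O (Theta (fun i => Multiplicative (ZMod (p ^ e i))) H.psi k)) 𝔪)),
        (y' : Additive (GammaH (Theta (fun i => Multiplicative (ZMod (p ^ e i))) H.psi k)) →+ O)
            = TH (Theta (fun i => Multiplicative (ZMod (p ^ e i))) H.psi k) O hℓ'N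
              (y : Additive (GammaH
                (Theta (fun i => Multiplicative (ZMod (p ^ e i))) H.psi k)) →+ O) →
          ((tw₁ t y' : ↥(Base.locSub
              (actH Sy O (Theta (fun i => Multiplicative (ZMod (p ^ e i))) H.psi k)) 𝔪)) :
              Additive (GammaH (Theta (fun i => Multiplicative (ZMod (p ^ e i))) H.psi k)) →+ O)
            = TH (Theta (fun i => Multiplicative (ZMod (p ^ e i))) H.psi k) O hℓ'N
              ((tw₁ t y : ↥(Base.locSub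
                (actH Sy O (Theta (fun i => Multiplicative (ZMod (p ^ e i))) H.psi k)) 𝔪)) :
                Additive (GammaH
                  (Theta (fun i => Multiplicative (ZMod (p ^ e i))) H.psi k)) →+ O)) := by
  classical
  obtain ⟨tw, h1, h2, h3⟩ := exists_twU_primeData (O := O) H hpF.out hp2 k hk hN₁ S hS dℓ hdℓ
  exact exists_tw₁_of_tw Sy hrN hqN 𝔪 _ θ' hθ hzero hbnd S hqS dℓ tw h1 h2 h3
    (fun ũ hũ => hdℓ ⟨⟨q, hqF.out⟩, hqS⟩ ũ (fun i => cast_unit_q hũ (hrk i)))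

end Package

end Fermat.Agent.GB.B7.UqOne

end
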