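/-
GATE-B / S43, node GB-B7-TKILL (helper52): **the level-`N` side of `UqOne.exists_tw₁`.**

`UqOne.exists_tw₁` (stage `θ_k = Theta (Δs p e) H.psi k` of the B3 tower at level `N q`, framed
prime `q` NOT among the first `k` primes) has the binders
`θ' : (ZMod N)ˣ →* ∀ i : Fin k, Δs p e i`, `hθ : θ_k = thQ θ' q` and
`hzero : Hom(Γ_H(θ'), O)_𝔪 = 0`.  Here they are discharged from the vanishing of
`Hom(Γ₀(N), O)_𝔪` (the minimal level hypothesis):

* `resHH_actH`, `resHH_injective`, `isLoc_eq_zero_comp` : the primary part does not change along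
  an INJECTIVE change of the target group of the character;
* `eCut`, `primeData_restrict` : the Taylor–Wiles data at level `N` (exponents cut off at `k`:
  `PrimeData.e_out` forces another exponent function than the one at level `N q`);
* `castΔ`, `castPi`, `theta'` : the character `θ'` (the stage `k` of the tower at level `N`,
  transported to the exponents `e`), `theta_eq_thQ : θ_k = thQ θ' q`;
* `hzero_theta'` : `Hom(Γ₀(N), O)_𝔪 = 0 ⟹ Hom(Γ_H(θ'), O)_𝔪 = 0`;
* `exists_theta'` : both, existential form = the binders of `UqOne.exists_tw₁`.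
-/
import Mathlib
import Fermat.Agent.GB.B7.UqOne

set_option autoImplicit false
set_option linter.unusedSectionVars false
set_option linter.style.haveILetI false

noncomputable section

open scoped MatrixGroups
open CongruenceSubgroup
open Fermat.Agent.GM.B
open Fermat.Agent.GB.B3 Fermat.Agent.GB.B3.EisGamma0 Fermat.Agent.GB.B3.GamH
open Fermat.Agent.GB.B3.RealLevel Fermat.Agent.GB.B3.HeckeActH Fermat.Agent.GB.B3.HeckeAct
open Fermat.Agent.GB.B3.TWChars Fermat.Agent.GB.B3.Tower Fermat.Agent.GB.B3.FinalTW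
open Fermat.Agent.GB.B3.LocTransport Fermat.Agent.GB.B7.UqSq

namespace Fermat.Agent.GB.B7.ThetaQ

/-! ### an injective change of the target group does not change the primary part -/

section Inj

variable {N : ℕ} (Sy : Symbols N) {Δ Δ'' : Type} [CommGroup Δ] [CommGroup Δ'']
  (θ : (ZMod N)ˣ →* Δ) (π : Δ →* Δ'') {O : Type} [CommRing O]

theorem resHH_apply {A : Type*} [AddCommGroup A] (φ : Additive (GammaH (π.comp θ)) →+ A)
    (k : GammaH θ) :
    resHH θ π A φ (Additive.ofMul k) = φ (Additive.ofMul (upIncl (chi θ) π k)) :=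
  resKK_op_apply (chi θ) π φ k

theorem resHH_smul (c : O) (φ : Additive (GammaH (π.comp θ)) →+ O) :
    resHH θ π O (c • φ) = c • resHH θ π O φ := by
  refine AddMonoidHom.ext fun x => ?_
  obtain ⟨k, rfl⟩ : ∃ k' : GammaH θ, Additive.ofMul k' = x := ⟨Additive.toMul x, rfl⟩
  rw [resHH_apply, AddMonoidHom.smul_apply, AddMonoidHom.smul_apply, resHH_apply]

/-- the restriction is equivariant for the Hecke symbols -/
theorem resHH_actH (t : Sy.𝕋 O) (φ : Additive (GammaH (π.comp θ)) →+ O) :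
    resHH θ π O (actH Sy O (π.comp θ) t φ) = actH Sy O θ t (resHH θ π O φ) := by
  refine equivariant_of_X (actH Sy O (π.comp θ)) (actH Sy O θ) (resHH θ π O)
    (resHH_smul θ π) ?_ t φ
  rintro (i | j) x
  · haveI := Sy.factℓ i
    rw [actH_X_inl, actH_X_inl, TH_resHH]
  · haveI := Sy.neZeroR j
    rw [actH_X_inr, actH_X_inr, UH_resHH]

theorem resHH_injective (hπ : Function.Injective π) :
    Function.Injective (resHH θ π O) := by
  intro φ φ' h
  refine AddMonoidHom.ext fun x => ?_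
  obtain ⟨k, rfl⟩ : ∃ k' : GammaH (π.comp θ), Additive.ofMul k' = x := ⟨Additive.toMul x, rfl⟩
  have h1 : (π.comp (chi θ)) (kerIncl (π.comp (chi θ)) k) = 1 := chi_kerIncl (π.comp (chi θ)) k
  have hk : chi θ (kerIncl (π.comp (chi θ)) k) = 1 := by
    apply hπ
    rw [map_one]
    exact h1
  let k' : GammaH θ := kerMk (chi θ) (kerIncl (π.comp (chi θ)) k) hk
  have h3 := DFunLike.congr_fun h (Additive.ofMul k')
  exact ((resHH_apply θ π φ k').symm.trans h3).trans (resHH_apply θ π φ' k')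

/-- **the primary part vanishes for `π ∘ θ` as soon as it does for `θ`** (`π` injective) -/
theorem isLoc_eq_zero_comp (hπ : Function.Injective π) (𝔪 : Ideal (Sy.𝕋 O))
    (hzero : ∀ y : Additive (GammaH θ) →+ O, IsLoc (actH Sy O θ) 𝔪 y → y = 0)
    (y : Additive (GammaH (π.comp θ)) →+ O) (hy : IsLoc (actH Sy O (π.comp θ)) 𝔪 y) : y = 0 := by
  apply resHH_injective θ π hπ
  rw [map_zero]
  exact hzero _ (isLoc_map (actH Sy O (π.comp θ)) (actH Sy O θ) (resHH θ π O)
    (fun t x => resHH_actH Sy θ π t x) 𝔪 hy)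

end Inj

/-! ### the Taylor–Wiles data at level `N` -/

section Restrict

/-- the exponents cut off at `k` -/
def eCut (e : ℕ → ℕ) (k : ℕ) : ℕ → ℕ := fun i => if i < k then e i else 0

theorem eCut_of_lt (e : ℕ → ℕ) {k i : ℕ} (hi : i < k) : eCut e k i = e i := if_pos hi

theorem eCut_of_le (e : ℕ → ℕ) {k i : ℕ} (hi : k ≤ i) : eCut e k i = 0 := if_neg (not_lt.mpr hi)

variable {N q p K : ℕ} [NeZero N] [NeZero (N * q)] {r e N'' : ℕ → ℕ}

/-- **the Taylor–Wiles data at level `N`** from the data at level `N q`: the first `k` primes, all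
dividing `N` -/
theorem primeData_restrict (H : PrimeData (N * q) p K r e N'') (k : ℕ) (hk : k ≤ K)
    (hrk : ∀ i : Fin k, r i ∣ N) :
    PrimeData N p k r (eCut e k) (fun i => N / r i) where
  prime i hi := H.prime i (lt_of_lt_of_le hi hk)
  fact i hi := (Nat.mul_div_cancel' (hrk ⟨i, hi⟩)).symm
  cop i hi := by
    have hiK := lt_of_lt_of_le hi hk
    have h1 : Nat.Coprime (r i) (N'' i) := H.cop i hiK
    have h2 : N * q = r i * N'' i := H.fact i hiK
    have h3 : N = r i * (N / r i) := (Nat.mul_div_cancel' (hrk ⟨i, hi⟩)).symm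
    have hr0 : 0 < r i := (H.prime i hiK).pos
    have h4 : N'' i = N / r i * q := by
      apply Nat.eq_of_mul_eq_mul_left hr0
      rw [← h2, ← mul_assoc, ← h3]
    exact Nat.Coprime.coprime_dvd_right ⟨q, h4⟩ h1
  cong i hi := by
    rw [eCut_of_lt e hi]
    exact H.cong i (lt_of_lt_of_le hi hk)
  inj i j hi hj hij := H.inj i j (lt_of_lt_of_le hi hk) (lt_of_lt_of_le hj hk) hij
  e_out i hi := eCut_of_le e hi

end Restrict

/-! ### the transport of the exponents -/

section Cast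

/-- `ℤ/m' → ℤ/m` for `m' = m`, multiplicatively -/
def castΔ {m m' : ℕ} (h : m' = m) : Multiplicative (ZMod m') →* Multiplicative (ZMod m) :=
  AddMonoidHom.toMultiplicative (ZMod.ringEquivCongr h).toRingHom.toAddMonoidHom

theorem castΔ_injective {m m' : ℕ} (h : m' = m) : Function.Injective (castΔ h) := by
  intro x y hxy
  exact (ZMod.ringEquivCongr h).injective hxy

theorem castΔ_cycChar (G : Type*) [Group G] [IsCyclic G] {m m' : ℕ} (h : m' = m)
    (hm' : m' ∣ Nat.card G) (hm : m ∣ Nat.card G) (x : G) :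
    castΔ h (cycChar G m' hm' x) = cycChar G m hm x := by
  subst h
  show (ZMod.ringEquivCongr rfl) _ = _
  rw [ZMod.ringEquivCongr_refl]
  rfl

end Cast

/-! ### the character `θ'` at level `N` -/

section ThetaPrime

variable {N q p K : ℕ} [NeZero N] [NeZero (N * q)] {r e N'' : ℕ → ℕ}

/-- the transport of the exponents on the product of the first `k` factors -/
def castPi (e : ℕ → ℕ) (p k : ℕ) :
    (∀ i : Fin k, Δs p (eCut e k) i) →* (∀ i : Fin k, Δs p e i) :=
  MonoidHom.pi fun i =>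
    (castΔ (congrArg (fun n => p ^ n) (eCut_of_lt e i.2))).comp
      (Pi.evalMonoidHom (fun i : Fin k => Δs p (eCut e k) i) i)

theorem castPi_apply (e : ℕ → ℕ) (p k : ℕ) (x : ∀ i : Fin k, Δs p (eCut e k) i) (i : Fin k) :
    castPi e p k x i = castΔ (congrArg (fun n => p ^ n) (eCut_of_lt e i.2)) (x i) := rfl

theorem castPi_injective (e : ℕ → ℕ) (p k : ℕ) : Function.Injective (castPi e p k) := by
  intro x y hxy
  funext i
  apply castΔ_injective (congrArg (fun n => p ^ n) (eCut_of_lt e i.2))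
  have := congrFun hxy i
  rwa [castPi_apply, castPi_apply] at this

variable (H : PrimeData (N * q) p K r e N'') (k : ℕ) (hk : k ≤ K) (hrk : ∀ i : Fin k, r i ∣ N)

/-- **`θ'`**: the stage `k` of the tower at level `N`, with values in `∏_{i<k} ℤ/p^(e i)` -/
def theta' : (ZMod N)ˣ →* (∀ i : Fin k, Δs p e i) :=
  (castPi e p k).comp (Theta (Δs p (eCut e k)) (primeData_restrict H k hk hrk).psi k)

/-- **the stage `k` at level `N q` is inflated from level `N`** -/
theorem theta_eq_thQ :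
    Theta (Δs p e) H.psi k = thQ (theta' H k hk hrk) q := by
  refine MonoidHom.ext fun u => ?_
  funext i
  have hiK : (i : ℕ) < K := lt_of_lt_of_le i.2 hk
  have hH₀ := primeData_restrict H k hk hrk
  show H.psi i u = castΔ (congrArg (fun n => p ^ n) (eCut_of_lt e i.2))
    ((primeData_restrict H k hk hrk).psi i (ZMod.unitsMap (Nat.dvd_mul_right N q) u))
  rw [H.psi_of_lt i hiK, (primeData_restrict H k hk hrk).psi_of_lt i i.2]
  haveI : Fact (r i).Prime := ⟨H.prime i hiK⟩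
  rw [psiR_apply, psiR_apply]
  have hcomp := congrArg (fun f => f u)
    (ZMod.unitsMap_comp (hrk i) (Nat.dvd_mul_right N q))
  simp only [MonoidHom.comp_apply] at hcomp
  rw [hcomp]
  exact (castΔ_cycChar (ZMod (r i))ˣ (congrArg (fun n => p ^ n) (eCut_of_lt e i.2)) _ _ _).symm

end ThetaPrime

/-! ### the vanishing of the primary part at level `N` -/

section Zero

open Fermat.Agent.GB.B3.LocTransportInst

variable {N q p K : ℕ} [NeZero N] [NeZero (N * q)] [hqF : Fact q.Prime] [hpF : Fact p.Prime]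
  {r e N'' : ℕ → ℕ}
variable (Sy : Symbols (N * q)) (hrN : ∀ j, Sy.r j ∣ N)
variable {O : Type} [CommRing O] [IsDomain O] [IsPrincipalIdealRing O] [IsLocalRing O]
  [IsAdicComplete (IsLocalRing.maximalIdeal O) O] [Module.IsTorsionFree ℤ O]
variable (𝔪 : Ideal (Sy.𝕋 O)) [𝔪.IsMaximal]
variable (H : PrimeData (N * q) p K r e N'') {ϖ : O} {s0 : Sy.ι₁}

/-- the standing hypotheses of B3 pass to the restricted symbols (the symbol algebra is the same) -/
theorem hyp_restrict (h : Plug.Hyp Sy 𝔪 p ϖ s0) : Plug.Hyp (restrict Sy hrN) 𝔪 p ϖ s0 :=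
  ⟨h.hϖ0, h.hmax, h.hpϖ, h.hp0, h.hp2, h.hp3, h.hτ⟩

/-- **`Hom(Γ₀(N), O)_𝔪 = 0 ⟹ Hom(Γ_H(θ'), O)_𝔪 = 0`** -/
theorem hzero_theta' (h : Plug.Hyp Sy 𝔪 p ϖ s0) (k : ℕ) (hk : k ≤ K)
    (hrk : ∀ i : Fin k, r i ∣ N)
    (hbase : ∀ y : Additive (Gamma0 N) →+ O,
      IsLoc (HeckeActH.act0 (restrict Sy hrN) O) 𝔪 y → y = 0)
    (y : Additive (GammaH (theta' H k hk hrk)) →+ O)
    (hy : IsLoc (actH (restrict Sy hrN) O (theta' H k hk hrk)) 𝔪 y) : y = 0 :=
  isLoc_eq_zero_comp (restrict Sy hrN)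
    (Theta (Δs p (eCut e k)) (primeData_restrict H k hk hrk).psi k) (castPi e p k)
    (castPi_injective e p k) 𝔪
    (tower_zero Sy hrN 𝔪 (primeData_restrict H k hk hrk) (hyp_restrict Sy hrN 𝔪 h) hbase k) y hy

/-- **the binders `θ'`, `hθ`, `hzero` of `UqOne.exists_tw₁`** from the vanishing of
`Hom(Γ₀(N), O)_𝔪` -/
theorem exists_theta' (h : Plug.Hyp Sy 𝔪 p ϖ s0) (k : ℕ) (hk : k ≤ K)
    (hrk : ∀ i : Fin k, r i ∣ N)
    (hbase : ∀ y : Additive (Gamma0 N) →+ O,
      IsLoc (HeckeActH.act0 (restrict Sy hrN) O) 𝔪 y → y = 0) :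
    ∃ θ' : (ZMod N)ˣ →* (∀ i : Fin k, Multiplicative (ZMod (p ^ e i))),
      Theta (fun i => Multiplicative (ZMod (p ^ e i))) H.psi k = thQ θ' q ∧
      ∀ y : Additive (GammaH θ') →+ O, IsLoc (actH (restrict Sy hrN) O θ') 𝔪 y → y = 0 :=
  ⟨theta' H k hk hrk, theta_eq_thQ H k hk hrk,
    hzero_theta' Sy hrN 𝔪 H h k hk hrk hbase⟩

end Zero

/-! ### `UqOne.exists_tw₁` over a vanishing base -/

section Package

open Fermat.Agent.GB.B7.TwU Fermat.Agent.GB.B7.TwUInst Fermat.Agent.GB.B7.UqOne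
  Fermat.Agent.GB.B4.Twist.L6Loc Fermat.Agent.S16_helper49 ModularCurve.Period CuspForm
  Fermat.Agent.GJ.J2.Lat Fermat.Agent.GM.EisClass

variable {N q p K : ℕ} [NeZero N] [NeZero (N * q)] [hqF : Fact q.Prime] [hpF : Fact p.Prime]
  {r e N'' : ℕ → ℕ}
variable (Sy : Symbols (N * q)) (hrN : ∀ j, Sy.r j ∣ N) (hqN : ¬ q ∣ N)
variable {O : Type} [CommRing O] [IsDomain O] [IsPrincipalIdealRing O] [IsLocalRing O]
  [IsAdicComplete (IsLocalRing.maximalIdeal O) O] [Module.IsTorsionFree ℤ O] [CharZero O]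
variable (𝔪 : Ideal (Sy.𝕋 O)) [𝔪.IsMaximal]
variable (H : PrimeData (N * q) p K r e N'') {ϖ : O} {s0 : Sy.ι₁}

include hqN in
/-- **B7 package at the stage `θ_k = Theta (Δs p e) H.psi k` over a vanishing base**:
`UqOne.exists_tw₁` with the level-`N` binders discharged from `Hom(Γ₀(N), O)_𝔪 = 0`. -/
theorem exists_tw₁_of_base (h : Plug.Hyp Sy 𝔪 p ϖ s0) (k : ℕ) (hk : k ≤ K)
    (hrk : ∀ i : Fin k, r i ∣ N)
    (hbase : ∀ y : Additive (Gamma0 N) →+ O,
      IsLoc (HeckeActH.act0 (restrict Sy hrN) O) 𝔪 y → y = 0)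
    (hbnd : ∀ y : Additive (GammaH (Theta (Δs p e) H.psi k)) →+ O,
      IsLoc (actH Sy O (Theta (Δs p e) H.psi k)) 𝔪 y →
        y ∈ parabolicHoms O (GammaH (Theta (Δs p e) H.psi k)) O)
    {N₁ : ℕ} [NeZero N₁] (hN₁ : N₁ = N * q * ∏ i : Fin k, r i)
    (S : Set ℕ) (hS : ∀ i : Fin k, r i ∈ S) (hqS : q ∉ S)
    (dℓ : PrimesOff S → Gamma0 (N * q))
    (hdℓ : ∀ (l : PrimesOff S) (u : (ZMod (N * q))ˣ),
      (∀ i : Fin k, (((u : ZMod (N * q))).cast : ZMod (r i)) = ((l.1 : ℕ) : ZMod (r i))) →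
        chi (Theta (Δs p e) H.psi k) (dℓ l) ^ 2 * Theta (Δs p e) H.psi k u = 1) :
    ∃ tw₁ : ↥(heckeAlgebra N₁ 2 S) →+* Module.End O ↥(Base.locSub
        (actH Sy O (Theta (Δs p e) H.psi k)) 𝔪),
      (∀ {ℓ : ℕ} (hℓ : ℓ.Prime) (hℓN₁ : ¬ ℓ ∣ N₁) (hℓS : ℓ ∉ S) (hℓN : ¬ ℓ ∣ N * q)
          (y : ↥(Base.locSub (actH Sy O (Theta (Δs p e) H.psi k)) 𝔪)),
        haveI : Fact ℓ.Prime := ⟨hℓ⟩
        ((tw₁ (heckeAlgebra.T hℓ hℓN₁ hℓS) y : ↥(Base.locSub
            (actH Sy O (Theta (Δs p e) H.psi k)) 𝔪)) :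
            Additive (GammaH (Theta (Δs p e) H.psi k)) →+ O)
          = diaH (Theta (Δs p e) H.psi k) O (dℓ ⟨⟨ℓ, hℓ⟩, hℓS⟩)
              (TH (Theta (Δs p e) H.psi k) O hℓN
                (y : Additive (GammaH (Theta (Δs p e) H.psi k)) →+ O))) ∧
      (∀ hqN₁ : q ∣ N₁, tw₁ (heckeAlgebra.U hqF.out hqN₁ hqS) ^ 2 = 1) ∧
      (∀ t s, Commute (tw₁ t) (Base.locSubAct (actH Sy O (Theta (Δs p e) H.psi k)) 𝔪 s)) ∧
      (∀ (t : ↥(heckeAlgebra N₁ 2 S)) (d : Gamma0 (N * q)) (y y' : ↥(Base.locSub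
          (actH Sy O (Theta (Δs p e) H.psi k)) 𝔪)),
        (y' : Additive (GammaH (Theta (Δs p e) H.psi k)) →+ O)
            = diaH (Theta (Δs p e) H.psi k) O d
              (y : Additive (GammaH (Theta (Δs p e) H.psi k)) →+ O) →
          ((tw₁ t y' : ↥(Base.locSub (actH Sy O (Theta (Δs p e) H.psi k)) 𝔪)) :
              Additive (GammaH (Theta (Δs p e) H.psi k)) →+ O)
            = diaH (Theta (Δs p e) H.psi k) O d
              ((tw₁ t y : ↥(Base.locSub (actH Sy O (Theta (Δs p e) H.psi k)) 𝔪)) :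
                Additive (GammaH (Theta (Δs p e) H.psi k)) →+ O)) ∧
      (∀ (t : ↥(heckeAlgebra N₁ 2 S)) {ℓ' : ℕ} [Fact ℓ'.Prime] (hℓ'N : ¬ ℓ' ∣ N * q)
          (y y' : ↥(Base.locSub (actH Sy O (Theta (Δs p e) H.psi k)) 𝔪)),
        (y' : Additive (GammaH (Theta (Δs p e) H.psi k)) →+ O)
            = TH (Theta (Δs p e) H.psi k) O hℓ'N
              (y : Additive (GammaH (Theta (Δs p e) H.psi k)) →+ O) →
          ((tw₁ t y' : ↥(Base.locSub (actH Sy O (Theta (Δs p e) H.psi k)) 𝔪)) :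
              Additive (GammaH (Theta (Δs p e) H.psi k)) →+ O)
            = TH (Theta (Δs p e) H.psi k) O hℓ'N
              ((tw₁ t y : ↥(Base.locSub (actH Sy O (Theta (Δs p e) H.psi k)) 𝔪)) :
                Additive (GammaH (Theta (Δs p e) H.psi k)) →+ O)) := by
  obtain ⟨θ', hθ, hzero⟩ := exists_theta' Sy hrN 𝔪 H h k hk hrk hbase
  exact exists_tw₁ Sy hrN hqN 𝔪 H h.hp2 k hk hrk θ' hθ hzero hbnd hN₁ S hS hqS dℓ hdℓ

end Package

end Fermat.Agent.GB.B7.ThetaQ
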