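/-
GATE-B / S43, node GB-B7-TKILL (helper52): **`kill₁` — the assembly** (the binder `he` of helper51's
`LevelMulti.nonempty_TWInput_multi`, hole G7 of ProviderFlat).

* `trace_sq_kill_of_equiv` (abstract layer): `M₁ ≃ Hom(Γ_H(θ), O)_𝔪` (any `O`-linear `E`), a twisted
  Hecke action `tw₁` on the primary part with the `T`-formula `tw₁ (T_ℓ) = ⟨dℓ ℓ⟩ T_ℓ` and
  `tw₁ (U_q)² = 1`, a local `O`-algebra `T_Q` acting on `M₁` through `a₁` with reduced image, such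
  that `a₁ (τ_ℓ)` corresponds to `⟨dℓ ℓ⟩ T_ℓ` under `E` (`hgen`) and `a₁ (T_Q)` is generated by the
  `a₁ (τ_ℓ)` (`hspan`), `ρ_Q` with the good Frobenius characteristic polynomials
  ⟹ `a₁ ((tr ρ_Q σ)² − (1+q)²) = 0` for every Frobenius `σ` at `q`
  (`TKill.trace_sq_kill` for the conjugate of `tw₁` by `E`; `hcomm` is automatic).
* `he_of_hgen` (tower layer): `θ = θ_k = Theta (Δs p e) H.psi k`, the stage of the B3 tower at level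
  `N q` without the character at the framed prime `q`; `tw₁` := `ThetaQ.exists_tw₁_of_base`
  (`UqOne.exists_tw₁` over `Hom(Γ₀(N), O)_𝔪 = 0`); the half-diamond `d` in `hgen` is ANY element of
  `Γ₀(N q)` with `χ_{θ_k}(d)² θ_k(ℓ) = 1` (squaring is injective on `Δ`).
* `Theta_eq_of_cast`, `half_of_big` : helper44's half-diamond condition at the big stage gives the
  one at the stage `k`.
* **`he_of_big`** : the same on `M¹_Q = (Plug.tw Sy 𝔪 H h 1 k c hc hc1).L1.M` through helper95's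
  `L1Iso.L1Equiv`, with `hgen` in BIG-LEVEL form: `a₁ (τ_ℓ)` is induced by an operator of
  `Plug.bigLevel … (1 + k)` which is `⟨d⟩ T_ℓ` on `Hom(Γ_H(θ_{1+k}), O)`.
-/
import Mathlib
import Fermat.Agent.GB.B7.TKill
import Fermat.Agent.GB.B7.ThetaQ
import Fermat.Agent.GB.B3.L1Iso

set_option autoImplicit false
set_option linter.unusedSectionVars false
set_option linter.style.haveILetI false

noncomputable section

open scoped MatrixGroups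
open CongruenceSubgroup Polynomial IsLocalRing CuspForm
open Fermat.Agent.GM.B
open Fermat.Agent.GB.B3 Fermat.Agent.GB.B3.EisGamma0 Fermat.Agent.GB.B3.GamH
open Fermat.Agent.GB.B3.RealLevel Fermat.Agent.GB.B3.HeckeActH Fermat.Agent.GB.B3.HeckeAct
open Fermat.Agent.GB.B3.TWChars Fermat.Agent.GB.B3.Tower Fermat.Agent.GB.B3.FinalTW
open Fermat.Agent.GJ.J2.Lat

namespace Fermat.Agent.GB.B7.Kill1Asm

/-- `G_ℚ`. -/
local notation "GQ" => AlgebraicClosure ℚ ≃ₐ[ℚ] AlgebraicClosure ℚ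
/-- `ℚ̄`. -/
local notation "Qb" => AlgebraicClosure ℚ

/-! ### the abstract layer -/

section Abstract

variable {N₀ : ℕ} [NeZero N₀] (Sy : Symbols N₀) {Δ : Type} [CommGroup Δ] (θ : (ZMod N₀)ˣ →* Δ)
  {O : Type} [CommRing O] [IsDomain O] [IsDiscreteValuationRing O]
  [IsAdicComplete (maximalIdeal O) O] [CharZero O] [Finite (ResidueField O)]
  (𝔪 : Ideal (Sy.𝕋 O))
  {M₁ : Type} [AddCommGroup M₁] [Module O M₁] [Module.Finite O M₁] [Module.Free O M₁]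
  (E : M₁ ≃ₗ[O] ↥(Base.locSub (actH Sy O θ) 𝔪))
  {TQ : Type} [CommRing TQ] [IsLocalRing TQ] [Algebra O TQ]
  {N₁ : ℕ} [NeZero N₁]

/-- **`kill₁`, abstract layer.** -/
theorem trace_sq_kill_of_equiv
    (lam : ℕ) [Fact lam.Prime] (hlamO : (lam : O) ∈ maximalIdeal O)
    (ρ : GaloisRepAdic TQ) (a₁ : TQ →ₐ[O] Module.End O M₁)
    (hred : ∀ t : TQ, a₁ t * a₁ t = 0 → a₁ t = 0)
    (S' Sbig : Finset ℕ) (hS : S' ⊆ Sbig) (hlamS : lam ∈ Sbig)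
    (hNS : ∀ r : ℕ, r.Prime → r ∣ N₁ → r ∈ Sbig)
    (q : ℕ) (hq : q.Prime) (hqlam : q ≠ lam) (hqN : q ∣ N₁) (hq2 : ¬ q ^ 2 ∣ N₁)
    (hqS' : q ∉ (↑S' : Set ℕ))
    (hN₁N : ∀ ℓ : ℕ, ℓ.Prime → ¬ ℓ ∣ N₁ → ¬ ℓ ∣ N₀)
    (dℓ : PrimesOff (↑S' : Set ℕ) → Gamma0 N₀)
    (tw₁ : heckeAlgebra N₁ 2 (↑S' : Set ℕ) →+*
      Module.End O ↥(Base.locSub (actH Sy O θ) 𝔪))
    (hT : ∀ {ℓ : ℕ} (hℓ : ℓ.Prime) (hℓN₁ : ¬ ℓ ∣ N₁) (hℓS : ℓ ∉ (↑S' : Set ℕ))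
        (hℓN : ¬ ℓ ∣ N₀) (y : ↥(Base.locSub (actH Sy O θ) 𝔪)),
      haveI : Fact ℓ.Prime := ⟨hℓ⟩
      ((tw₁ (heckeAlgebra.T hℓ hℓN₁ hℓS) y : ↥(Base.locSub (actH Sy O θ) 𝔪)) :
          Additive (GammaH θ) →+ O)
        = diaH θ O (dℓ ⟨⟨ℓ, hℓ⟩, hℓS⟩) (TH θ O hℓN (y : Additive (GammaH θ) →+ O)))
    (hU : tw₁ (heckeAlgebra.U hq hqN hqS') ^ 2 = 1)
    (τ : ℕ → TQ)
    (hgen : ∀ (ℓ : ℕ) (hℓ : ℓ.Prime) (_ : ¬ ℓ ∣ N₁) (hℓS : ℓ ∉ (↑Sbig : Set ℕ))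
        (hℓN : ¬ ℓ ∣ N₀) (y : M₁),
      haveI : Fact ℓ.Prime := ⟨hℓ⟩
      ((E (a₁ (τ ℓ) y) : ↥(Base.locSub (actH Sy O θ) 𝔪)) : Additive (GammaH θ) →+ O)
        = diaH θ O (dℓ ⟨⟨ℓ, hℓ⟩, fun h => hℓS (Finset.coe_subset.2 hS h)⟩)
            (TH θ O hℓN ((E y : ↥(Base.locSub (actH Sy O θ) 𝔪)) : Additive (GammaH θ) →+ O)))
    (hspan : ∀ t : TQ, a₁ t ∈ Algebra.adjoin O
      {f : Module.End O M₁ | ∃ ℓ : ℕ, ℓ.Prime ∧ ¬ ℓ ∣ N₁ ∧ ℓ ∉ (↑Sbig : Set ℕ) ∧ f = a₁ (τ ℓ)})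
    (hρ : ∀ ℓ : ℕ, ℓ.Prime → ¬ ℓ ∣ N₁ → ℓ ∉ (↑Sbig : Set ℕ) →
      ∀ A : ValuationSubring Qb, A.LiesOverPrime ℓ → ∀ σ : GQ, A.IsFrobeniusAt σ ℓ →
        LinearMap.charpoly (ρ.ρ σ) = X ^ 2 - C (τ ℓ) * X + C ((ℓ : TQ))) :
    ∀ A : ValuationSubring Qb, A.LiesOverPrime q → ∀ σ : GQ, A.IsFrobeniusAt σ q →
      a₁ (ρ.trace σ ^ 2 - (1 + (q : TQ)) ^ 2) = 0 := by
  -- the conjugate action on `M₁`
  let cj : Module.End O ↥(Base.locSub (actH Sy O θ) 𝔪) ≃+* Module.End O M₁ :=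
    E.symm.conjRingEquiv
  have hcj : ∀ (f : Module.End O ↥(Base.locSub (actH Sy O θ) 𝔪)) (y : M₁),
      E (cj f y) = f (E y) := by
    intro f y
    show E (E.symm.conj f y) = f (E y)
    rw [LinearEquiv.conj_apply_apply, LinearEquiv.symm_symm, LinearEquiv.apply_symm_apply]
  let tw₁' : heckeAlgebra N₁ 2 (↑S' : Set ℕ) →+* Module.End O M₁ :=
    (cj : _ →+* _).comp tw₁
  have hU' : tw₁' (heckeAlgebra.U hq hqN hqS') ^ 2 = 1 := by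
    show cj (tw₁ (heckeAlgebra.U hq hqN hqS')) ^ 2 = 1
    rw [← map_pow, hU, map_one]
  have hτ : ∀ (ℓ : ℕ) (hℓ : ℓ.Prime) (hℓN : ¬ ℓ ∣ N₁) (hℓS : ℓ ∉ (↑Sbig : Set ℕ)),
      a₁ (τ ℓ) = tw₁' (heckeAlgebra.T hℓ hℓN (fun h => hℓS (Finset.coe_subset.2 hS h))) := by
    intro ℓ hℓ hℓN₁ hℓS
    refine LinearMap.ext fun y => ?_
    apply E.injective
    show E (a₁ (τ ℓ) y) = E (cj (tw₁ _) y)
    rw [hcj]
    apply Subtype.ext
    rw [hgen ℓ hℓ hℓN₁ hℓS (hN₁N ℓ hℓ hℓN₁) y, hT hℓ hℓN₁ _ (hN₁N ℓ hℓ hℓN₁)]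
  have hcomm : ∀ t s, Commute (a₁ t) (tw₁' s) := by
    intro t s
    refine Algebra.adjoin_induction (p := fun f _ => Commute f (tw₁' s)) ?_ ?_ ?_ ?_ (hspan t)
    · rintro f ⟨ℓ, hℓ, hℓN₁, hℓS, rfl⟩
      rw [hτ ℓ hℓ hℓN₁ hℓS]
      exact (Commute.all _ s).map tw₁'
    · intro c
      exact Algebra.commute_algebraMap_left c _
    · intro f g _ _ hf hg
      exact hf.add_left hg
    · intro f g _ _ hf hg
      exact hf.mul_left hg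
  exact Fermat.Agent.GB.B7.TKill.trace_sq_kill lam hlamO ρ a₁ hred S' Sbig hS hlamS hNS q hq hqlam
    hqN hq2 hqS' tw₁' hcomm hU' τ hτ hρ

end Abstract

/-! ### the tower layer -/

/-- in a finite commutative group of odd order squaring is injective -/
theorem eq_of_sq_eq_of_odd {G : Type*} [CommGroup G] [Finite G] (hodd : Odd (Nat.card G))
    {x y : G} (h : x ^ 2 = y ^ 2) : x = y := by
  have h1 : (x / y) ^ 2 = 1 := by rw [div_pow, h, div_self']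
  have h2 : orderOf (x / y) ∣ 2 := orderOf_dvd_of_pow_eq_one h1
  have h3 : orderOf (x / y) ∣ Nat.card G := orderOf_dvd_natCard _
  have h4 : Nat.Coprime 2 (Nat.card G) := (Nat.coprime_two_left).mpr hodd
  have h5 : orderOf (x / y) = 1 := Nat.eq_one_of_dvd_coprimes h4 h2 h3
  rw [orderOf_eq_one_iff, div_eq_one] at h5
  exact h5

section TowerLayer

open Fermat.Agent.GB.B3.LocTransport Fermat.Agent.GB.B7.TwUInst Fermat.Agent.GB.B4.Twist.TwInst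
  Fermat.Agent.S16_helper49 ModularCurve.Period Fermat.Agent.GM.EisClass

variable {N q p K : ℕ} [NeZero N] [NeZero (N * q)] [hqF : Fact q.Prime] [hpF : Fact p.Prime]
  {r e N'' : ℕ → ℕ}
variable (Sy : Symbols (N * q)) (hrN : ∀ j, Sy.r j ∣ N) (hqN : ¬ q ∣ N)
variable {O : Type} [CommRing O] [IsDomain O] [IsDiscreteValuationRing O]
  [IsAdicComplete (maximalIdeal O) O] [CharZero O] [Finite (ResidueField O)]
variable (𝔪 : Ideal (Sy.𝕋 O)) [𝔪.IsMaximal]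
variable (H : PrimeData (N * q) p K r e N'') {ϖ : O} {s0 : Sy.ι₁} (h : Plug.Hyp Sy 𝔪 p ϖ s0)
variable {M₁ : Type} [AddCommGroup M₁] [Module O M₁] [Module.Finite O M₁] [Module.Free O M₁]
  {TQ : Type} [CommRing TQ] [IsLocalRing TQ] [Algebra O TQ]

include hqN h in
/-- **`kill₁`, tower layer**: `θ_k = Theta (Δs p e) H.psi k` (the stage of the B3 tower at level
`N q` WITHOUT the character at the framed prime `q`), `E : M₁ ≃ Hom(Γ_H(θ_k), O)_𝔪`, vanishing of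
the primary part at level `N` (`hbase`), (BND) at `θ_k`; `a₁ (τ_ℓ)` corresponds under `E` to
`⟨d⟩ T_ℓ` for SOME half-diamond `d` (`χ_{θ_k}(d)² θ_k(ℓ) = 1`). -/
theorem he_of_hgen (k : ℕ) (hk : k ≤ K) (hrk : ∀ i : Fin k, r i ∣ N)
    (E : M₁ ≃ₗ[O] ↥(Base.locSub (actH Sy O (Theta (Δs p e) H.psi k)) 𝔪))
    (hbase : ∀ y : Additive (Gamma0 N) →+ O,
      IsLoc (HeckeActH.act0 (restrict Sy hrN) O) 𝔪 y → y = 0)
    (hbnd : ∀ y : Additive (GammaH (Theta (Δs p e) H.psi k)) →+ O,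
      IsLoc (actH Sy O (Theta (Δs p e) H.psi k)) 𝔪 y →
        y ∈ parabolicHoms O (GammaH (Theta (Δs p e) H.psi k)) O)
    (S : Finset ℕ) (hSN : ∀ ℓ : ℕ, ℓ.Prime → ℓ ∣ N * q → ℓ ∈ S) (hpS : p ∈ S) (hqp : q ≠ p)
    (ρ : GaloisRepAdic TQ) (a₁ : TQ →ₐ[O] Module.End O M₁)
    (hred : ∀ t : TQ, a₁ t * a₁ t = 0 → a₁ t = 0)
    (τ : ℕ → TQ)
    (hgen : ∀ (ℓ : ℕ) (hℓ : ℓ.Prime) (_ : ℓ ∉ (↑S : Set ℕ)) (hℓN : ¬ ℓ ∣ N * q),
      haveI : Fact ℓ.Prime := ⟨hℓ⟩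
      ∃ d : Gamma0 (N * q),
        (∀ u : (ZMod (N * q))ˣ,
          (∀ i : Fin k, (((u : ZMod (N * q))).cast : ZMod (r i)) = ((ℓ : ℕ) : ZMod (r i))) →
            chi (Theta (Δs p e) H.psi k) d ^ 2 * Theta (Δs p e) H.psi k u = 1) ∧
        ∀ y : M₁,
          ((E (a₁ (τ ℓ) y) : ↥(Base.locSub (actH Sy O (Theta (Δs p e) H.psi k)) 𝔪)) :
              Additive (GammaH (Theta (Δs p e) H.psi k)) →+ O)
            = diaH (Theta (Δs p e) H.psi k) O d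
                (TH (Theta (Δs p e) H.psi k) O hℓN
                  ((E y : ↥(Base.locSub (actH Sy O (Theta (Δs p e) H.psi k)) 𝔪)) :
                    Additive (GammaH (Theta (Δs p e) H.psi k)) →+ O)))
    (hspan : ∀ t : TQ, a₁ t ∈ Algebra.adjoin O
      {f : Module.End O M₁ | ∃ ℓ : ℕ, ℓ.Prime ∧ ℓ ∉ (↑S : Set ℕ) ∧ f = a₁ (τ ℓ)})
    (hρ : ∀ ℓ : ℕ, ℓ.Prime → ℓ ∉ (↑S : Set ℕ) →
      ∀ A : ValuationSubring Qb, A.LiesOverPrime ℓ → ∀ σ : GQ, A.IsFrobeniusAt σ ℓ →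
        LinearMap.charpoly (ρ.ρ σ) = X ^ 2 - C (τ ℓ) * X + C ((ℓ : TQ))) :
    ∀ A : ValuationSubring Qb, A.LiesOverPrime q → ∀ σ : GQ, A.IsFrobeniusAt σ q →
      a₁ (ρ.trace σ ^ 2 - (1 + (q : TQ)) ^ 2) = 0 := by
  classical
  have hp : p.Prime := hpF.out
  have hq : q.Prime := hqF.out
  have hlt : ∀ i : Fin k, (i : ℕ) < K := fun i => lt_of_lt_of_le i.2 hk
  have hrprime : ∀ i : Fin k, (r i).Prime := fun i => H.prime i (hlt i)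
  have hNNq : N ∣ N * q := Dvd.intro _ rfl
  -- the level of the forms
  obtain ⟨N₁, hN₁⟩ : ∃ N₁ : ℕ, N₁ = N * q * ∏ i : Fin k, r i := ⟨_, rfl⟩
  haveI : NeZero N₁ := ⟨by
    rw [hN₁]
    exact mul_ne_zero (NeZero.ne (N * q))
      (Finset.prod_ne_zero_iff.2 fun i _ => (hrprime i).ne_zero)⟩
  have hdvd₁ : N * q ∣ N₁ := ⟨_, hN₁⟩
  have hprimeN₁ : ∀ ℓ : ℕ, ℓ.Prime → ℓ ∣ N₁ → ℓ ∣ N * q := by
    intro ℓ hℓ hd
    rw [hN₁] at hd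
    rcases (Nat.Prime.dvd_mul hℓ).1 hd with h1 | h1
    · exact h1
    · obtain ⟨i, -, hi⟩ := (Prime.dvd_finsetProd_iff hℓ.prime _).1 h1
      have h2 : ℓ = r i := (Nat.prime_dvd_prime_iff_eq hℓ (hrprime i)).1 hi
      rw [h2]
      exact (hrk i).trans hNNq
  have hNS : ∀ ℓ : ℕ, ℓ.Prime → ℓ ∣ N₁ → ℓ ∈ S := fun ℓ hℓ hd => hSN ℓ hℓ (hprimeN₁ ℓ hℓ hd)
  have hS'S : S.erase q ⊆ S := Finset.erase_subset _ _
  have hqS' : q ∉ (↑(S.erase q) : Set ℕ) := by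
    rw [Finset.mem_coe]
    exact Finset.notMem_erase q S
  have hrS' : ∀ i : Fin k, r i ∈ (↑(S.erase q) : Set ℕ) := by
    intro i
    rw [Finset.mem_coe, Finset.mem_erase]
    refine ⟨?_, hSN _ (hrprime i) ((hrk i).trans hNNq)⟩
    intro h'
    exact hqN (h' ▸ hrk i)
  have hqN₁ : q ∣ N₁ := (Dvd.intro_left N rfl).trans hdvd₁
  have hq2 : ¬ q ^ 2 ∣ N₁ := by
    intro h2
    have e1 : N₁ = q * (N * ∏ i : Fin k, r i) := by rw [hN₁]; ring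
    rw [e1, pow_two] at h2
    have h3 : q ∣ N * ∏ i : Fin k, r i := Nat.dvd_of_mul_dvd_mul_left hq.pos h2
    rcases (Nat.Prime.dvd_mul hq).1 h3 with h4 | h4
    · exact hqN h4
    · obtain ⟨i, -, hi⟩ := (Prime.dvd_finsetProd_iff hq.prime _).1 h4
      have h5 : q = r i := (Nat.prime_dvd_prime_iff_eq hq (hrprime i)).1 hi
      exact hqN (h5 ▸ hrk i)
  have hlamO : (p : O) ∈ maximalIdeal O := by
    rw [h.hmax]
    exact h.hpϖ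
  -- the half diamonds and the twisted action
  obtain ⟨dℓ, hdℓ⟩ := exists_dlU_primeData H hp h.hp2 k hk (↑(S.erase q) : Set ℕ) hrS'
  obtain ⟨tw₁, hT, hU, -, -, -⟩ := ThetaQ.exists_tw₁_of_base Sy hrN hqN 𝔪 H h k hk hrk hbase hbnd
    hN₁ (↑(S.erase q) : Set ℕ) hrS' hqS' dℓ hdℓ
  have hodd := odd_card_pi hp h.hp2 e k
  haveI : Finite (∀ i : Fin k, Multiplicative (ZMod (p ^ e i))) := by
    haveI : ∀ i : Fin k, Finite (Multiplicative (ZMod (p ^ e i))) := fun i => by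
      haveI : NeZero (p ^ e i) := ⟨pow_ne_zero _ hp.ne_zero⟩
      infer_instance
    infer_instance
  refine trace_sq_kill_of_equiv Sy (Theta (Δs p e) H.psi k) 𝔪 E p hlamO ρ a₁ hred (S.erase q) S
    hS'S hpS hNS q hq hqp hqN₁ hq2 hqS' (fun ℓ _ hn hd => hn (hd.trans hdvd₁)) dℓ tw₁
    (fun hℓ hℓN₁ hℓS hℓN y => hT hℓ hℓN₁ hℓS hℓN y) (hU hqN₁) τ ?_ ?_
    (fun ℓ hℓ _ hℓS => hρ ℓ hℓ hℓS)
  · intro ℓ hℓ hℓN₁ hℓS hℓN y
    obtain ⟨d, hd, hy⟩ := hgen ℓ hℓ hℓS hℓN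
    rw [hy y]
    refine diaH_congr _ _ _ ?_ _
    -- a unit congruent to `ℓ`
    have hcop : Nat.Coprime ℓ (N * q) := (Nat.Prime.coprime_iff_not_dvd hℓ).2 hℓN
    have hu : ∀ i : Fin k, (((ZMod.unitOfCoprime ℓ hcop : (ZMod (N * q))ˣ) :
        ZMod (N * q)).cast : ZMod (r i)) = ((ℓ : ℕ) : ZMod (r i)) := by
      intro i
      rw [ZMod.coe_unitOfCoprime, ZMod.cast_natCast ((hrk i).trans hNNq)]
    have h1 := hd _ hu
    have h2 := hdℓ ⟨⟨ℓ, hℓ⟩, fun h' => hℓS (Finset.coe_subset.2 hS'S h')⟩ _ hu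
    apply eq_of_sq_eq_of_odd hodd
    exact mul_right_cancel (h1.trans h2.symm)
  · intro t
    refine Algebra.adjoin_mono ?_ (hspan t)
    rintro f ⟨ℓ, hℓ, hℓS, rfl⟩
    exact ⟨ℓ, hℓ, fun hd => hℓS (hNS ℓ hℓ hd), hℓS, rfl⟩

end TowerLayer

/-! ### the half-diamond condition, from the big stage to the stage `k` -/

section Half

open Fermat.Agent.GB.B3.L1Iso

variable {N₀ p K : ℕ} [NeZero N₀] {r e N'' : ℕ → ℕ} (H : PrimeData N₀ p K r e N'')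

include H in
/-- `θ_k u` depends on the residues of `u` modulo the first `k` primes only -/
theorem Theta_eq_of_cast (k : ℕ) (hk : k ≤ K) (u u' : (ZMod N₀)ˣ)
    (huu' : ∀ i : Fin k, (((u : ZMod N₀)).cast : ZMod (r i)) = (((u' : ZMod N₀)).cast : ZMod (r i))) :
    Theta (Δs p e) H.psi k u = Theta (Δs p e) H.psi k u' := by
  funext i
  have hiK : (i : ℕ) < K := lt_of_lt_of_le i.2 hk
  rw [Theta_apply, Theta_apply, H.psi_of_lt i hiK]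
  haveI : Fact (r i).Prime := ⟨H.prime i hiK⟩
  rw [psiR_apply, psiR_apply]
  congr 1
  apply Units.ext
  rw [ZMod.unitsMap_val, ZMod.unitsMap_val]
  exact huu' i

include H in
/-- helper44's half-diamond condition at the stage `j` gives the B7 form at any stage `k ≤ j` -/
theorem half_of_big (j k : ℕ) (hkj : k ≤ j) (hk : k ≤ K) {ℓ : ℕ} (hcop : Nat.Coprime ℓ N₀)
    (d : Gamma0 N₀)
    (hd : ∀ u : (ZMod N₀)ˣ, (u : ZMod N₀) = ((ℓ : ℕ) : ZMod N₀) →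
      chi (Theta (Δs p e) H.psi j) d ^ 2 * Theta (Δs p e) H.psi j u = 1)
    (u : (ZMod N₀)ˣ)
    (hu : ∀ i : Fin k, (((u : ZMod N₀)).cast : ZMod (r i)) = ((ℓ : ℕ) : ZMod (r i))) :
    chi (Theta (Δs p e) H.psi k) d ^ 2 * Theta (Δs p e) H.psi k u = 1 := by
  have h1 := hd (ZMod.unitOfCoprime ℓ hcop) (ZMod.coe_unitOfCoprime ℓ hcop)
  have h2 := congrArg (dropHom (Δs p e) j k hkj) h1
  rw [map_mul, map_pow, map_one] at h2
  have h3 : Theta (Δs p e) H.psi k u = Theta (Δs p e) H.psi k (ZMod.unitOfCoprime ℓ hcop) := by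
    refine Theta_eq_of_cast H k hk _ _ fun i => ?_
    rw [hu i, ZMod.coe_unitOfCoprime,
      ZMod.cast_natCast (H.dvd i (lt_of_lt_of_le i.2 hk))]
  rw [h3]
  exact h2

end Half

/-! ### `kill₁` on `M¹_Q = tw.L1.M` -/

section Final

open Fermat.Agent.GB.B3.L1Iso Fermat.Agent.GB.B3.Plug Fermat.Agent.GB.B3.ChiLevelMulti
  Fermat.Agent.GB.B3.Final Fermat.Agent.GB.B3.TWLevel
  Fermat.Agent.GB.B3.LocTransport Fermat.Agent.S16_helper49 ModularCurve.Period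
  Fermat.Agent.GM.EisClass

variable {N q p K : ℕ} [NeZero N] [NeZero (N * q)] [hqF : Fact q.Prime] [hpF : Fact p.Prime]
  {r e N'' : ℕ → ℕ}
variable (Sy : Symbols (N * q)) (hrN : ∀ j, Sy.r j ∣ N) (hqN : ¬ q ∣ N)
variable {O : Type} [CommRing O] [IsDomain O] [IsDiscreteValuationRing O]
  [IsAdicComplete (maximalIdeal O) O] [CharZero O] [Finite (ResidueField O)]
variable (𝔪 : Ideal (Sy.𝕋 O)) [𝔪.IsMaximal]
variable (H : PrimeData (N * q) p K r e N'') {ϖ : O} {s0 : Sy.ι₁} (h : Plug.Hyp Sy 𝔪 p ϖ s0)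
variable (k : ℕ) (c : Fin 1 → O) (hc : ∀ v : Fin 1, c v ^ p ^ e (1 + k - 1 - v) = 1)
  (hc1 : ∀ v, (1 : O) - c v ∈ Ideal.span {ϖ})
variable {TQ : Type} [CommRing TQ] [IsLocalRing TQ] [Algebra O TQ]

include hqN in
/-- **`kill₁` on `M¹_Q`** (`= (Plug.tw Sy 𝔪 H h 1 k c hc hc1).L1.M`, the coinvariants of the diamond
at the framed prime `q = r k` on the big level): if `a₁ (τ_ℓ)` is induced by an operator of the big
level which is `⟨d⟩ T_ℓ` on `Hom(Γ_H(θ_{1+k}), O)` for some half-diamond `d`, and `a₁ (T_Q)` is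
generated by the `a₁ (τ_ℓ)`, then `a₁ ((tr ρ_Q σ)² − (1+q)²) = 0` for every Frobenius `σ` at `q`. -/
theorem he_of_big (hk : k ≤ K) (hrk : ∀ i : Fin k, r i ∣ N)
    (hbase : ∀ y : Additive (Gamma0 N) →+ O,
      IsLoc (HeckeActH.act0 (restrict Sy hrN) O) 𝔪 y → y = 0)
    (hbnd : ∀ y : Additive (GammaH (Theta (Δs p e) H.psi k)) →+ O,
      IsLoc (actH Sy O (Theta (Δs p e) H.psi k)) 𝔪 y →
        y ∈ parabolicHoms O (GammaH (Theta (Δs p e) H.psi k)) O)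
    (S : Finset ℕ) (hSN : ∀ ℓ : ℕ, ℓ.Prime → ℓ ∣ N * q → ℓ ∈ S) (hpS : p ∈ S) (hqp : q ≠ p)
    (ρ : GaloisRepAdic TQ)
    (a₁ : TQ →ₐ[O] Module.End O (tw Sy 𝔪 H h 1 k c hc hc1).L1.M)
    (hred : ∀ t : TQ, a₁ t * a₁ t = 0 → a₁ t = 0)
    (τ : ℕ → TQ)
    (hgen : ∀ (ℓ : ℕ) (hℓ : ℓ.Prime) (_ : ℓ ∉ (↑S : Set ℕ)) (hℓN : ¬ ℓ ∣ N * q),
      haveI : Fact ℓ.Prime := ⟨hℓ⟩
      ∃ d : Gamma0 (N * q),
        (∀ u : (ZMod (N * q))ˣ,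
          (∀ i : Fin k, (((u : ZMod (N * q))).cast : ZMod (r i)) = ((ℓ : ℕ) : ZMod (r i))) →
            chi (Theta (Δs p e) H.psi k) d ^ 2 * Theta (Δs p e) H.psi k u = 1) ∧
        ∀ x : (bigLevel Sy 𝔪 H h (1 + k)).M, ∃ x' : (bigLevel Sy 𝔪 H h (1 + k)).M,
          a₁ (τ ℓ) (fmk (frD (bigLevel Sy 𝔪 H h (1 + k))) (fun _ => (1 : O)) x)
            = fmk (frD (bigLevel Sy 𝔪 H h (1 + k))) (fun _ => (1 : O)) x' ∧
          (bigReal Sy 𝔪 H h (1 + k)).ι x'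
            = diaH (Theta (Δs p e) H.psi (1 + k)) O d
                (TH (Theta (Δs p e) H.psi (1 + k)) O hℓN ((bigReal Sy 𝔪 H h (1 + k)).ι x)))
    (hspan : ∀ t : TQ, a₁ t ∈ Algebra.adjoin O
      {f : Module.End O (tw Sy 𝔪 H h 1 k c hc hc1).L1.M |
        ∃ ℓ : ℕ, ℓ.Prime ∧ ℓ ∉ (↑S : Set ℕ) ∧ f = a₁ (τ ℓ)})
    (hρ : ∀ ℓ : ℕ, ℓ.Prime → ℓ ∉ (↑S : Set ℕ) →
      ∀ A : ValuationSubring Qb, A.LiesOverPrime ℓ → ∀ σ : GQ, A.IsFrobeniusAt σ ℓ →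
        LinearMap.charpoly (ρ.ρ σ) = X ^ 2 - C (τ ℓ) * X + C ((ℓ : TQ))) :
    ∀ A : ValuationSubring Qb, A.LiesOverPrime q → ∀ σ : GQ, A.IsFrobeniusAt σ q →
      a₁ (ρ.trace σ ^ 2 - (1 + (q : TQ)) ^ 2) = 0 := by
  classical
  haveI : Fintype (dropHom (Δs p e) (1 + k) k (Nat.le_add_left k 1)).ker := Fintype.ofFinite _
  have hex := exists_rep H k
  haveI : Module.Free O (tw Sy 𝔪 H h 1 k c hc hc1).L1.M :=
    Module.Free.of_basis (tw Sy 𝔪 H h 1 k c hc hc1).L1.basis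
  haveI : Module.Finite O (tw Sy 𝔪 H h 1 k c hc hc1).L1.M :=
    Module.Finite.of_basis (tw Sy 𝔪 H h 1 k c hc hc1).L1.basis
  refine he_of_hgen Sy hrN hqN 𝔪 H h k hk hrk
    (L1Equiv Sy 𝔪 H h k c hc hc1 hex.choose hex.choose_spec) hbase hbnd S hSN hpS hqp ρ a₁ hred τ
    ?_ hspan hρ
  intro ℓ hℓ hℓS hℓN
  haveI : Fact ℓ.Prime := ⟨hℓ⟩
  obtain ⟨d, hd, hx⟩ := hgen ℓ hℓ hℓS hℓN
  refine ⟨d, hd, fun y => ?_⟩
  choose fB hfB1 hfB2 using hx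
  exact L1Equiv_transport Sy 𝔪 H h k c hc hc1 hex.choose hex.choose_spec
    (fun y => a₁ (τ ℓ) y) fB
    (fun ψ => diaH (Theta (Δs p e) H.psi (1 + k)) O d
      (TH (Theta (Δs p e) H.psi (1 + k)) O hℓN ψ))
    (fun ψ => diaH (Theta (Δs p e) H.psi k) O d (TH (Theta (Δs p e) H.psi k) O hℓN ψ))
    hfB1 hfB2
    (fun ψ => by
      rw [GamH.coresHH_diaH, GamH.coresHH_TH]
      rfl) y

end Final

end Fermat.Agent.GB.B7.Kill1Asm
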