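/-
GATE-B / S43, node GB-B7-TKILL (helper52): **`kill₁` in the ProviderFlat shapes.**

* `trace_matT_eq` : `(ThetaT.matT ψ σ).trace = ρ_Q.trace σ` for `DQ.ρ ⊗_ψ T ≃ ρ_Q` — the Frobenius
  matrix `F v = matT ψ (φ v)` of helper4's `ThetaT.package` / helper59's G5 has the trace of `ρ_Q`;
* `he_matT` : `Kill1Asm.he_of_big` with the conclusion in the shape
  `a₁ ((matT ψ σ).trace ^ 2 - (1 + q) ^ 2) = 0` (= the binder `he` of helper51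
  `LevelMulti.nonempty_TWInput_multi` at `F (Fin.last s) = matT ψ (φ (Fin.last s))`, `ℓ last = q`);
* `actL_mem_adjoin` : the binder `hspan` for helper74's `a₁ = TQFields.actL` on
  `T_Q = ImageRing.TQ O θ (prodTw tw₁ twχ)`, `A = heckeAlgebra N' 2 S` with all primes of `N'` in `S`:
  `a₁ (T_Q)` is generated over `O` by the `tw₁ (T_ℓ)`;
* `tauOf`, `he_TQ` : everything at `T_Q`, `τ_ℓ = chi (T_ℓ)`, hypotheses on `tw₁` in the form exported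
  by helper74's `TwRestrictPlug.exists_twP` / `TQCompat.quotTw_fmk`.
-/
import Mathlib
import Fermat.Agent.GB.B7.Kill1Asm
import Fermat.Agent.GB.B9.ThetaT
import Fermat.Agent.GB.B4.Datum.TQFieldsHecke

set_option autoImplicit false
set_option linter.unusedSectionVars false
set_option linter.style.haveILetI false

noncomputable section

open scoped MatrixGroups
open CongruenceSubgroup Polynomial IsLocalRing CuspForm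
open Fermat.Agent.GM.B
open Fermat.Agent.GB.B3 Fermat.Agent.GB.B3.EisGamma0 Fermat.Agent.GB.B3.GamH
open Fermat.Agent.GB.B3.RealLevel Fermat.Agent.GB.B3.HeckeActH Fermat.Agent.GB.B3.HeckeAct
open Fermat.Agent.GB.B3.TWChars Fermat.Agent.GB.B3.Tower Fermat.Agent.GB.B3.FinalTW
open Fermat.Agent.GJ.J2.Lat

namespace Fermat.Agent.GB.B7.Kill1TQ

/-- `G_ℚ`. -/
local notation "GQ" => AlgebraicClosure ℚ ≃ₐ[ℚ] AlgebraicClosure ℚ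
/-- `ℚ̄`. -/
local notation "Qb" => AlgebraicClosure ℚ

/-! ### the trace of the Frobenius matrix -/

section MatT

open Fermat.Agent.GB.B9.ThetaT Fermat.Agent.S53_helper35

variable {𝒪 : Type} [CommRing 𝒪] [IsDomain 𝒪] [IsDiscreteValuationRing 𝒪]
  [IsAdicComplete (maximalIdeal 𝒪) 𝒪]
  {ρbar : ResidualGaloisRep (ResidueField 𝒪)}
  {𝒟 : ∀ ⦃A : Type⦄ [CommRing A] [IsLocalRing A] [Algebra 𝒪 A], GaloisRepAdic A → Prop}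
  {DQ : GaloisRep.DeformationRingData 𝒪 ρbar 𝒟}
  {T : Type} [CommRing T] [IsLocalRing T] [Algebra 𝒪 T]
  (ψ : DQ.R →ₐ[𝒪] T)

/-- the matrices `matT ψ σ` of `ρ_Q = DQ.ρ ⊗_ψ T` have the traces of any equivalent `ρ_Q` -/
theorem trace_matT_eq (hψ : IsLocalHom (ψ : DQ.R →+* T)) (ρQ : GaloisRepAdic T)
    (he : (DQ.ρ.baseChangeAlong (ψ : DQ.R →+* T) hψ).IsEquiv ρQ) (σ : GQ) :
    (matT ψ σ).trace = ρQ.trace σ := by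
  have h1 : (matT ψ σ).charpoly = LinearMap.charpoly (ρQ.ρ σ) := by
    rw [charpoly_matT ψ hψ, charpoly_eq_of_isEquiv he]
  have h2 := Matrix.charpoly_fin_two (matT ψ σ)
  have h3 := Fermat.Agent.GK.Tate.charpoly_eq_of_finrank_two ρQ.finrank_eq (ρQ.ρ σ)
  rw [h1, h3] at h2
  have h4 := congrArg (fun f => Polynomial.coeff f 1) h2
  simp only [Polynomial.coeff_add, Polynomial.coeff_sub, Polynomial.coeff_X_pow,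
    Polynomial.coeff_C_mul, Polynomial.coeff_X_one, Polynomial.coeff_C] at h4
  norm_num at h4
  exact h4.symm

end MatT

/-! ### `he` in the shape of `LevelMulti.nonempty_TWInput_multi` -/

section HeMatT

open Fermat.Agent.GB.B3.L1Iso Fermat.Agent.GB.B3.Plug Fermat.Agent.GB.B3.ChiLevelMulti
  Fermat.Agent.GB.B3.Final Fermat.Agent.GB.B3.TWLevel
  Fermat.Agent.GB.B3.LocTransport Fermat.Agent.S16_helper49 ModularCurve.Period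
  Fermat.Agent.GM.EisClass Fermat.Agent.GB.B9.ThetaT

variable {N q p K : ℕ} [NeZero N] [NeZero (N * q)] [hqF : Fact q.Prime] [hpF : Fact p.Prime]
  {r e N'' : ℕ → ℕ}
variable (Sy : Symbols (N * q)) (hrN : ∀ j, Sy.r j ∣ N) (hqN : ¬ q ∣ N)
variable {O : Type} [CommRing O] [IsDomain O] [IsDiscreteValuationRing O]
  [IsAdicComplete (maximalIdeal O) O] [CharZero O] [Finite (ResidueField O)]
variable (𝔪 : Ideal (Sy.𝕋 O)) [𝔪.IsMaximal]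
variable (H : PrimeData (N * q) p K r e N'') {ϖ : O} {s0 : Sy.ι₁} (h : Plug.Hyp Sy 𝔪 p ϖ s0)
variable (k : ℕ) (c : Fin 1 → O) (hc : ∀ v : Fin 1, c v ^ p ^ e (1 + k - 1 - v) = 1)
  (hc1 : ∀ v, (1 : O) - c v ∈ Ideal.span {ϖ})
variable {TQ : Type} [CommRing TQ] [IsLocalRing TQ] [Algebra O TQ]
  {ρbar : ResidualGaloisRep (ResidueField O)}
  {𝒟 : ∀ ⦃A : Type⦄ [CommRing A] [IsLocalRing A] [Algebra O A], GaloisRepAdic A → Prop}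
  {DQ : GaloisRep.DeformationRingData O ρbar 𝒟}

include hqN in
/-- **the binder `he` of `LevelMulti.nonempty_TWInput_multi`** for `F = matT ψ σ`, `σ` a Frobenius
at `q` (e.g. the `φ` of `KummerTests q p φ τ₀` at `padicPlace q`). -/
theorem he_matT (hk : k ≤ K) (hrk : ∀ i : Fin k, r i ∣ N)
    (hbase : ∀ y : Additive (Gamma0 N) →+ O,
      IsLoc (HeckeActH.act0 (restrict Sy hrN) O) 𝔪 y → y = 0)
    (hbnd : ∀ y : Additive (GammaH (Theta (Δs p e) H.psi k)) →+ O,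
      IsLoc (actH Sy O (Theta (Δs p e) H.psi k)) 𝔪 y →
        y ∈ parabolicHoms O (GammaH (Theta (Δs p e) H.psi k)) O)
    (S : Finset ℕ) (hSN : ∀ ℓ : ℕ, ℓ.Prime → ℓ ∣ N * q → ℓ ∈ S) (hpS : p ∈ S) (hqp : q ≠ p)
    (ψ : DQ.R →ₐ[O] TQ) (hψ : IsLocalHom (ψ : DQ.R →+* TQ)) (ρQ : GaloisRepAdic TQ)
    (hequiv : (DQ.ρ.baseChangeAlong (ψ : DQ.R →+* TQ) hψ).IsEquiv ρQ)
    (a₁ : TQ →ₐ[O] Module.End O (tw Sy 𝔪 H h 1 k c hc hc1).L1.M)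
    (hred : ∀ t : TQ, a₁ t * a₁ t = 0 → a₁ t = 0)
    (τ : ℕ → TQ)
    (hgen : ∀ (ℓ : ℕ) (hℓ : ℓ.Prime) (_ : ℓ ∉ (↑S : Set ℕ)) (hℓN : ¬ ℓ ∣ N * q),
      haveI : Fact ℓ.Prime := ⟨hℓ⟩
      ∃ d : Gamma0 (N * q),
        (∀ u : (ZMod (N * q))ˣ,
          (∀ i : Fin k, (((u : ZMod (N * q))).cast : ZMod (r i)) = ((ℓ : ℕ) : ZMod (r i))) →
            chi (Theta (Δs p e) H.psi k) d ^ 2 * Theta (Δs p e) H.psi k u = 1) ∧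
        ∀ x : (bigLevel Sy 𝔪 H h (1 + k)).M, ∃ x' : (bigLevel Sy 𝔪 H h (1 + k)).M,
          a₁ (τ ℓ) (fmk (frD (bigLevel Sy 𝔪 H h (1 + k))) (fun _ => (1 : O)) x)
            = fmk (frD (bigLevel Sy 𝔪 H h (1 + k))) (fun _ => (1 : O)) x' ∧
          (bigReal Sy 𝔪 H h (1 + k)).ι x'
            = diaH (Theta (Δs p e) H.psi (1 + k)) O d
                (TH (Theta (Δs p e) H.psi (1 + k)) O hℓN ((bigReal Sy 𝔪 H h (1 + k)).ι x)))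
    (hspan : ∀ t : TQ, a₁ t ∈ Algebra.adjoin O
      {f : Module.End O (tw Sy 𝔪 H h 1 k c hc hc1).L1.M |
        ∃ ℓ : ℕ, ℓ.Prime ∧ ℓ ∉ (↑S : Set ℕ) ∧ f = a₁ (τ ℓ)})
    (hρ : ∀ ℓ : ℕ, ℓ.Prime → ℓ ∉ (↑S : Set ℕ) →
      ∀ A : ValuationSubring Qb, A.LiesOverPrime ℓ → ∀ σ : GQ, A.IsFrobeniusAt σ ℓ →
        LinearMap.charpoly (ρQ.ρ σ) = X ^ 2 - C (τ ℓ) * X + C ((ℓ : TQ)))
    (A : ValuationSubring Qb) (hA : A.LiesOverPrime q) (σ : GQ) (hσ : A.IsFrobeniusAt σ q) :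
    a₁ ((matT ψ σ).trace ^ 2 - (1 + (q : TQ)) ^ 2) = 0 := by
  rw [trace_matT_eq ψ hψ ρQ hequiv σ]
  exact Fermat.Agent.GB.B7.Kill1Asm.he_of_big Sy hrN hqN 𝔪 H h k c hc hc1 hk hrk hbase hbnd S hSN
    hpS hqp ρQ a₁ hred τ hgen hspan hρ A hA σ hσ

end HeMatT

/-! ### `hspan` for `a₁ = TQFields.actL` -/

section Span

open Fermat.Agent.GB.B4.Datum.ImageRing Fermat.Agent.GB.B4.Datum.TQFields
  Fermat.Agent.GB.B4.Datum.TQFieldsHecke Fermat.Agent.GB.B4.Datum.Carrier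

variable {𝒪 : Type} [CommRing 𝒪] [IsLocalRing 𝒪] {N' : ℕ} [NeZero N'] {S : Set ℕ}
  {M₁ M₂ : Type} [AddCommGroup M₁] [Module 𝒪 M₁] [AddCommGroup M₂] [Module 𝒪 M₂]

/-- every `tw₁ t` is a polynomial in the `tw₁ (T_ℓ)` when all primes of the level are in `S` -/
theorem tw_mem_adjoin (hSN : ∀ q : ℕ, q.Prime → q ∣ N' → q ∈ S)
    (tw₁ : ↥(heckeAlgebra N' 2 S) →+* Module.End 𝒪 M₁) (t : ↥(heckeAlgebra N' 2 S)) :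
    tw₁ t ∈ Algebra.adjoin 𝒪
      {f : Module.End 𝒪 M₁ | ∃ (ℓ : ℕ) (hℓ : ℓ.Prime) (hℓN : ¬ ℓ ∣ N') (hℓS : ℓ ∉ S),
        f = tw₁ (heckeAlgebra.T hℓ hℓN hℓS)} := by
  have hmem : t ∈ Algebra.adjoin ℤ (gens N' 2 S) := by
    rw [adjoin_gens]
    exact Algebra.mem_top
  refine Algebra.adjoin_induction (p := fun t _ => tw₁ t ∈ Algebra.adjoin 𝒪
      {f : Module.End 𝒪 M₁ | ∃ (ℓ : ℕ) (hℓ : ℓ.Prime) (hℓN : ¬ ℓ ∣ N') (hℓS : ℓ ∉ S),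
        f = tw₁ (heckeAlgebra.T hℓ hℓN hℓS)}) ?_ ?_ ?_ ?_ hmem
  · intro g hg
    rcases gens_cases hg with ⟨ℓ, hℓ, hℓN, hℓS, rfl⟩ | ⟨q, hq, hqN, hqS, rfl⟩
    · exact Algebra.subset_adjoin ⟨ℓ, hℓ, hℓN, hℓS, rfl⟩
    · exact absurd (hSN q hq hqN) hqS
  · intro n
    rw [eq_intCast, map_intCast]
    exact intCast_mem _ n
  · intro x y _ _ hx hy
    rw [map_add]
    exact add_mem hx hy
  · intro x y _ _ hx hy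
    rw [map_mul]
    exact mul_mem hx hy

variable (θ : ↥(heckeAlgebra N' 2 S) →+* ResidueField 𝒪)

/-- **`hspan` for `TQFields.actL`** -/
theorem actL_mem_adjoin (hSN : ∀ q : ℕ, q.Prime → q ∣ N' → q ∈ S)
    (tw₁ : ↥(heckeAlgebra N' 2 S) →+* Module.End 𝒪 M₁)
    (tw₂ : ↥(heckeAlgebra N' 2 S) →+* Module.End 𝒪 M₂)
    (t : TQ 𝒪 θ (prodTw 𝒪 tw₁ tw₂)) :
    actL 𝒪 θ tw₁ tw₂ t ∈ Algebra.adjoin 𝒪
      {f : Module.End 𝒪 M₁ | ∃ (ℓ : ℕ) (hℓ : ℓ.Prime) (hℓN : ¬ ℓ ∣ N') (hℓS : ℓ ∉ S),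
        f = tw₁ (heckeAlgebra.T hℓ hℓN hℓS)} := by
  obtain ⟨a, rfl⟩ := mkQ_surjective 𝒪 θ (prodTw 𝒪 tw₁ tw₂) t
  rw [actL_mkQ]
  induction a using TensorProduct.induction_on with
  | zero =>
    rw [map_zero]
    exact zero_mem _
  | tmul x t =>
    rw [twO_tmul]
    exact Subalgebra.smul_mem _ (tw_mem_adjoin hSN tw₁ t) x
  | add a b ha hb =>
    rw [map_add]
    exact add_mem ha hb

/-- **`hspan` for ANY `O`-algebra `T` generated by a Hecke hom `χ`** (`hgen` of `TQGal`) acting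
through `a₁` with `a₁ ∘ χ = tw₁` -/
theorem hspan_of_adjoin {T : Type} [CommRing T] [Algebra 𝒪 T]
    (hSN : ∀ q : ℕ, q.Prime → q ∣ N' → q ∈ S)
    (χ : ↥(heckeAlgebra N' 2 S) →+* T) (hχ : Algebra.adjoin 𝒪 (Set.range χ) = ⊤)
    (tw₁ : ↥(heckeAlgebra N' 2 S) →+* Module.End 𝒪 M₁) (a₁ : T →ₐ[𝒪] Module.End 𝒪 M₁)
    (ha : ∀ t, a₁ (χ t) = tw₁ t) (t : T) :
    a₁ t ∈ Algebra.adjoin 𝒪
      {f : Module.End 𝒪 M₁ | ∃ (ℓ : ℕ) (hℓ : ℓ.Prime) (hℓN : ¬ ℓ ∣ N') (hℓS : ℓ ∉ S),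
        f = a₁ (χ (heckeAlgebra.T hℓ hℓN hℓS))} := by
  have hset : {f : Module.End 𝒪 M₁ | ∃ (ℓ : ℕ) (hℓ : ℓ.Prime) (hℓN : ¬ ℓ ∣ N') (hℓS : ℓ ∉ S),
        f = a₁ (χ (heckeAlgebra.T hℓ hℓN hℓS))}
      = {f : Module.End 𝒪 M₁ | ∃ (ℓ : ℕ) (hℓ : ℓ.Prime) (hℓN : ¬ ℓ ∣ N') (hℓS : ℓ ∉ S),
        f = tw₁ (heckeAlgebra.T hℓ hℓN hℓS)} := by
    ext f
    constructor
    · rintro ⟨ℓ, hℓ, hℓN, hℓS, rfl⟩
      exact ⟨ℓ, hℓ, hℓN, hℓS, ha _⟩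
    · rintro ⟨ℓ, hℓ, hℓN, hℓS, rfl⟩
      exact ⟨ℓ, hℓ, hℓN, hℓS, (ha _).symm⟩
  rw [hset]
  have hmem : t ∈ Algebra.adjoin 𝒪 (Set.range χ) := by
    rw [hχ]
    exact Algebra.mem_top
  refine Algebra.adjoin_induction (p := fun t _ => a₁ t ∈ Algebra.adjoin 𝒪
      {f : Module.End 𝒪 M₁ | ∃ (ℓ : ℕ) (hℓ : ℓ.Prime) (hℓN : ¬ ℓ ∣ N') (hℓS : ℓ ∉ S),
        f = tw₁ (heckeAlgebra.T hℓ hℓN hℓS)}) ?_ ?_ ?_ ?_ hmem
  · rintro _ ⟨t', rfl⟩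
    rw [ha]
    exact tw_mem_adjoin hSN tw₁ t'
  · intro c
    rw [AlgHom.commutes]
    exact Subalgebra.algebraMap_mem _ c
  · intro x y _ _ hx hy
    rw [map_add]
    exact add_mem hx hy
  · intro x y _ _ hx hy
    rw [map_mul]
    exact mul_mem hx hy

end Span

/-! ### the plug -/

section Plug

open Fermat.Agent.GB.B3.L1Iso Fermat.Agent.GB.B3.Plug Fermat.Agent.GB.B3.ChiLevelMulti
  Fermat.Agent.GB.B3.Final Fermat.Agent.GB.B3.TWLevel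
  Fermat.Agent.GB.B3.LocTransport Fermat.Agent.S16_helper49 ModularCurve.Period
  Fermat.Agent.GM.EisClass Fermat.Agent.GB.B9.ThetaT

variable {N q p K : ℕ} [NeZero N] [NeZero (N * q)] [hqF : Fact q.Prime] [hpF : Fact p.Prime]
  {r e N'' : ℕ → ℕ}
variable (Sy : Symbols (N * q)) (hrN : ∀ j, Sy.r j ∣ N) (hqN : ¬ q ∣ N)
variable {O : Type} [CommRing O] [IsDomain O] [IsDiscreteValuationRing O]
  [IsAdicComplete (maximalIdeal O) O] [CharZero O] [Finite (ResidueField O)]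
variable (𝔪 : Ideal (Sy.𝕋 O)) [𝔪.IsMaximal]
variable (H : PrimeData (N * q) p K r e N'') {ϖ : O} {s0 : Sy.ι₁} (h : Plug.Hyp Sy 𝔪 p ϖ s0)
variable (k : ℕ) (c : Fin 1 → O) (hc : ∀ v : Fin 1, c v ^ p ^ e (1 + k - 1 - v) = 1)
  (hc1 : ∀ v, (1 : O) - c v ∈ Ideal.span {ϖ})
variable {TQ : Type} [CommRing TQ] [IsLocalRing TQ] [Algebra O TQ]
  {ρbar : ResidualGaloisRep (ResidueField O)}
  {𝒟 : ∀ ⦃A : Type⦄ [CommRing A] [IsLocalRing A] [Algebra O A], GaloisRepAdic A → Prop}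
  {DQ : GaloisRep.DeformationRingData O ρbar 𝒟}

include hqN in
/-- **`he` (hole G7 of ProviderFlat), plug form**: `T_Q` generated by a Hecke hom `χ` of
`heckeAlgebra N' 2 S` (all primes of `N'` and of `N q` in `S`), `a₁ ∘ χ = tw₁`, `tw₁` induced from
`twP` on the big level (`TQCompat.quotTw_fmk`), `twP (T_ℓ) = ⟨d⟩ T_ℓ` there with helper44's
half-diamonds (`TwRestrictPlug.exists_twP` + `TwInst.exists_tw_primeData`), `ρ_Q ≃ DQ.ρ ⊗_ψ T_Q`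
with the characteristic polynomials `X² − χ(T_ℓ) X + ℓ`. -/
theorem he_plug (hk : k ≤ K) (hrk : ∀ i : Fin k, r i ∣ N)
    (hbase : ∀ y : Additive (Gamma0 N) →+ O,
      IsLoc (HeckeActH.act0 (restrict Sy hrN) O) 𝔪 y → y = 0)
    (hbnd : ∀ y : Additive (GammaH (Theta (Δs p e) H.psi k)) →+ O,
      IsLoc (actH Sy O (Theta (Δs p e) H.psi k)) 𝔪 y →
        y ∈ parabolicHoms O (GammaH (Theta (Δs p e) H.psi k)) O)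
    (S : Finset ℕ) (hSN : ∀ ℓ : ℕ, ℓ.Prime → ℓ ∣ N * q → ℓ ∈ S) (hpS : p ∈ S) (hqp : q ≠ p)
    {N' : ℕ} [NeZero N'] (hSN' : ∀ ℓ : ℕ, ℓ.Prime → ℓ ∣ N' → ℓ ∈ (↑S : Set ℕ))
    (ψ : DQ.R →ₐ[O] TQ) (hψ : IsLocalHom (ψ : DQ.R →+* TQ)) (ρQ : GaloisRepAdic TQ)
    (hequiv : (DQ.ρ.baseChangeAlong (ψ : DQ.R →+* TQ) hψ).IsEquiv ρQ)
    (χ : ↥(heckeAlgebra N' 2 (↑S : Set ℕ)) →+* TQ)
    (hχ : Algebra.adjoin O (Set.range χ) = ⊤)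
    (a₁ : TQ →ₐ[O] Module.End O (tw Sy 𝔪 H h 1 k c hc hc1).L1.M)
    (hred : ∀ t : TQ, a₁ t * a₁ t = 0 → a₁ t = 0)
    (tw₁ : ↥(heckeAlgebra N' 2 (↑S : Set ℕ)) →+*
      Module.End O (tw Sy 𝔪 H h 1 k c hc hc1).L1.M)
    (ha : ∀ t, a₁ (χ t) = tw₁ t)
    (twP : ↥(heckeAlgebra N' 2 (↑S : Set ℕ)) →+* Module.End O (bigLevel Sy 𝔪 H h (1 + k)).M)
    (hfmk : ∀ t (x : (bigLevel Sy 𝔪 H h (1 + k)).M),
      tw₁ t (fmk (frD (bigLevel Sy 𝔪 H h (1 + k))) (fun _ => (1 : O)) x)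
        = fmk (frD (bigLevel Sy 𝔪 H h (1 + k))) (fun _ => (1 : O)) (twP t x))
    (hT : ∀ (ℓ : ℕ) (hℓ : ℓ.Prime) (hℓN' : ¬ ℓ ∣ N') (hℓS : ℓ ∉ (↑S : Set ℕ))
        (hℓN : ¬ ℓ ∣ N * q),
      haveI : Fact ℓ.Prime := ⟨hℓ⟩
      ∃ d : Gamma0 (N * q),
        (∀ u : (ZMod (N * q))ˣ, (u : ZMod (N * q)) = ((ℓ : ℕ) : ZMod (N * q)) →
          chi (Theta (Δs p e) H.psi (1 + k)) d ^ 2 * Theta (Δs p e) H.psi (1 + k) u = 1) ∧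
        ∀ x : (bigLevel Sy 𝔪 H h (1 + k)).M,
          (bigReal Sy 𝔪 H h (1 + k)).ι (twP (heckeAlgebra.T hℓ hℓN' hℓS) x)
            = diaH (Theta (Δs p e) H.psi (1 + k)) O d
                (TH (Theta (Δs p e) H.psi (1 + k)) O hℓN ((bigReal Sy 𝔪 H h (1 + k)).ι x)))
    (hρ : ∀ (ℓ : ℕ) (hℓ : ℓ.Prime) (hℓN' : ¬ ℓ ∣ N') (hℓS : ℓ ∉ (↑S : Set ℕ)),
      ∀ A : ValuationSubring Qb, A.LiesOverPrime ℓ → ∀ σ : GQ, A.IsFrobeniusAt σ ℓ →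
        LinearMap.charpoly (ρQ.ρ σ)
          = X ^ 2 - C (χ (heckeAlgebra.T hℓ hℓN' hℓS)) * X + C ((ℓ : TQ)))
    (A : ValuationSubring Qb) (hA : A.LiesOverPrime q) (σ : GQ) (hσ : A.IsFrobeniusAt σ q) :
    a₁ ((matT ψ σ).trace ^ 2 - (1 + (q : TQ)) ^ 2) = 0 := by
  classical
  -- `τ`
  let τ : ℕ → TQ := fun ℓ =>
    if hh : ℓ.Prime ∧ ¬ ℓ ∣ N' ∧ ℓ ∉ (↑S : Set ℕ) then χ (heckeAlgebra.T hh.1 hh.2.1 hh.2.2) else 0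
  have hτ : ∀ (ℓ : ℕ) (hℓ : ℓ.Prime) (hℓN' : ¬ ℓ ∣ N') (hℓS : ℓ ∉ (↑S : Set ℕ)),
      τ ℓ = χ (heckeAlgebra.T hℓ hℓN' hℓS) := fun ℓ hℓ hℓN' hℓS => dif_pos ⟨hℓ, hℓN', hℓS⟩
  have hN' : ∀ ℓ : ℕ, ℓ.Prime → ℓ ∉ (↑S : Set ℕ) → ¬ ℓ ∣ N' := fun ℓ hℓ hℓS hd =>
    hℓS (hSN' ℓ hℓ hd)
  refine he_matT Sy hrN hqN 𝔪 H h k c hc hc1 hk hrk hbase hbnd S hSN hpS hqp ψ hψ ρQ hequiv a₁ hred
    τ ?_ ?_ ?_ A hA σ hσ
  · intro ℓ hℓ hℓS hℓN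
    haveI : Fact ℓ.Prime := ⟨hℓ⟩
    obtain ⟨d, hd, hx⟩ := hT ℓ hℓ (hN' ℓ hℓ hℓS) hℓS hℓN
    have hcop : Nat.Coprime ℓ (N * q) := (Nat.Prime.coprime_iff_not_dvd hℓ).2 hℓN
    refine ⟨d, fun u hu => Fermat.Agent.GB.B7.Kill1Asm.half_of_big H (1 + k) k
      (Nat.le_add_left k 1) hk hcop d hd u hu, fun x => ?_⟩
    refine ⟨twP (heckeAlgebra.T hℓ (hN' ℓ hℓ hℓS) hℓS) x, ?_, hx x⟩
    rw [hτ ℓ hℓ (hN' ℓ hℓ hℓS) hℓS, ha]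
    exact hfmk _ x
  · intro t
    refine Algebra.adjoin_mono ?_ (hspan_of_adjoin hSN' χ hχ tw₁ a₁ ha t)
    rintro f ⟨ℓ, hℓ, hℓN', hℓS, rfl⟩
    exact ⟨ℓ, hℓ, hℓS, by rw [hτ ℓ hℓ hℓN' hℓS]⟩
  · intro ℓ hℓ hℓS B hB σ' hσ'
    rw [hτ ℓ hℓ (hN' ℓ hℓ hℓS) hℓS]
    exact hρ ℓ hℓ (hN' ℓ hℓ hℓS) hℓS B hB σ' hσ'

end Plug

end Fermat.Agent.GB.B7.Kill1TQ
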