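/-
GATE-B / S43, node GB-B7-TKILL (helper52): **`Kill1TQ.he_plug` at a VARIABLE level `L = N * q`.**

The objects of record of one Taylor–Wiles level (helper51 `ProviderFlat/G1`: `Q.N := M * ∏ qv`,
`Q.Sy : Symbols Q.N`, …) live at a level which is not LITERALLY of the form `N * q`, while the whole
`kill₁` chain (`SeamQ`, `UqOne`, `ThetaQ`, `Kill1Asm`, `Kill1TQ`) is stated at the literal `N * q`
(seam (S1) of helper95, board 6689).  This file is the `subst` wrapper: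

* `restrictVar Sy hL hrN : Symbols N` : the symbols of level `L` with all `U`-primes dividing `N`,
  as symbols of level `N` (`= LocTransport.restrict` when `L` is literally `N * q`:
  `restrictVar_eq`);
* `he_plug_var` : `Kill1TQ.he_plug` VERBATIM with `N * q` replaced by `L` everywhere
  (`hL : L = N * q`).
-/
import Mathlib
import Fermat.Agent.GB.B7.Kill1TQ

set_option autoImplicit false
set_option linter.unusedSectionVars false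
set_option linter.style.haveILetI false

noncomputable section

open scoped MatrixGroups
open CongruenceSubgroup Polynomial IsLocalRing CuspForm
open Fermat.Agent.GM.B
open Fermat.Agent.GB.B3 Fermat.Agent.GB.B3.EisGamma0 Fermat.Agent.GB.B3.GamH
open Fermat.Agent.GB.B3.RealLevel Fermat.Agent.GB.B3.HeckeActH Fermat.Agent.GB.B3.HeckeAct
open Fermat.Agent.GB.B3.TWChars Fermat.Agent.GB.B3.Tower Fermat.Agent.GB.B3.FinalTW
open Fermat.Agent.GJ.J2.Lat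

namespace Fermat.Agent.GB.B7.Kill1Var

/-- `G_ℚ`. -/
local notation "GQ" => AlgebraicClosure ℚ ≃ₐ[ℚ] AlgebraicClosure ℚ
/-- `ℚ̄`. -/
local notation "Qb" => AlgebraicClosure ℚ

open Fermat.Agent.GB.B3.L1Iso Fermat.Agent.GB.B3.Plug Fermat.Agent.GB.B3.ChiLevelMulti
  Fermat.Agent.GB.B3.Final Fermat.Agent.GB.B3.TWLevel
  Fermat.Agent.GB.B3.LocTransport Fermat.Agent.S16_helper49 ModularCurve.Period
  Fermat.Agent.GM.EisClass Fermat.Agent.GB.B9.ThetaT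

section Restrict

variable {L N q : ℕ}

/-- Hecke symbols at a level `L = N * q` with all `U`-primes dividing `N`, as Hecke symbols at
level `N` — the SAME index types, hence the same symbol algebra. -/
def restrictVar (Sy : Symbols L) (hL : L = N * q) (hrN : ∀ j, Sy.r j ∣ N) : Symbols N where
  ι₁ := Sy.ι₁
  ι₂ := Sy.ι₂
  ℓ := Sy.ℓ
  hℓ := Sy.hℓ
  hℓN := fun i h => Sy.hℓN i (hL ▸ Dvd.dvd.mul_right h q)
  r := Sy.r
  hr := Sy.hr
  hrN := hrN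

@[simp] theorem restrictVar_ℓ (Sy : Symbols L) (hL : L = N * q) (hrN : ∀ j, Sy.r j ∣ N)
    (i : Sy.ι₁) : (restrictVar Sy hL hrN).ℓ i = Sy.ℓ i := rfl

@[simp] theorem restrictVar_r (Sy : Symbols L) (hL : L = N * q) (hrN : ∀ j, Sy.r j ∣ N)
    (j : Sy.ι₂) : (restrictVar Sy hL hrN).r j = Sy.r j := rfl

/-- at a literal level `N * q` this is helper95's `LocTransport.restrict` -/
theorem restrictVar_eq (Sy : Symbols (N * q)) (hrN : ∀ j, Sy.r j ∣ N) :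
    restrictVar Sy rfl hrN = restrict Sy hrN := rfl

end Restrict

section Plug

variable {L N q p K : ℕ} [NeZero N] [NeZero L] [hqF : Fact q.Prime] [hpF : Fact p.Prime]
  {r e N'' : ℕ → ℕ}
variable (hL : L = N * q) (Sy : Symbols L) (hrN : ∀ j, Sy.r j ∣ N) (hqN : ¬ q ∣ N)
variable {O : Type} [CommRing O] [IsDomain O] [IsDiscreteValuationRing O]
  [IsAdicComplete (maximalIdeal O) O] [CharZero O] [Finite (ResidueField O)]
variable (𝔪 : Ideal (Sy.𝕋 O)) [𝔪.IsMaximal]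
variable (H : PrimeData L p K r e N'') {ϖ : O} {s0 : Sy.ι₁} (h : Plug.Hyp Sy 𝔪 p ϖ s0)
variable (k : ℕ) (c : Fin 1 → O) (hc : ∀ v : Fin 1, c v ^ p ^ e (1 + k - 1 - v) = 1)
  (hc1 : ∀ v, (1 : O) - c v ∈ Ideal.span {ϖ})
variable {TQ : Type} [CommRing TQ] [IsLocalRing TQ] [Algebra O TQ]
  {ρbar : ResidualGaloisRep (ResidueField O)}
  {𝒟 : ∀ ⦃A : Type⦄ [CommRing A] [IsLocalRing A] [Algebra O A], GaloisRepAdic A → Prop}
  {DQ : GaloisRep.DeformationRingData O ρbar 𝒟}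

include hqN in
/-- **`he` (hole G7 of ProviderFlat), plug form, at a VARIABLE level `L = N * q`**:
`Kill1TQ.he_plug` with the literal `N * q` replaced by `L`. -/
theorem he_plug_var (hk : k ≤ K) (hrk : ∀ i : Fin k, r i ∣ N)
    (hbase : ∀ y : Additive (Gamma0 N) →+ O,
      IsLoc (HeckeActH.act0 (restrictVar Sy hL hrN) O) 𝔪 y → y = 0)
    (hbnd : ∀ y : Additive (GammaH (Theta (Δs p e) H.psi k)) →+ O,
      IsLoc (actH Sy O (Theta (Δs p e) H.psi k)) 𝔪 y →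
        y ∈ parabolicHoms O (GammaH (Theta (Δs p e) H.psi k)) O)
    (S : Finset ℕ) (hSN : ∀ ℓ : ℕ, ℓ.Prime → ℓ ∣ L → ℓ ∈ S) (hpS : p ∈ S) (hqp : q ≠ p)
    {N' : ℕ} [NeZero N'] (hSN' : ∀ ℓ : ℕ, ℓ.Prime → ℓ ∣ N' → ℓ ∈ (↑S : Set ℕ))
    (ψ : DQ.R →ₐ[O] TQ) (hψ : IsLocalHom (ψ : DQ.R →+* TQ)) (ρQ : GaloisRepAdic TQ)
    (hequiv : (DQ.ρ.baseChangeAlong (ψ : DQ.R →+* TQ) hψ).IsEquiv ρQ)
    (χ : ↥(heckeAlgebra N' 2 (↑S : Set ℕ)) →+* TQ)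
    (hχ : Algebra.adjoin O (Set.range χ) = ⊤)
    (a₁ : TQ →ₐ[O] Module.End O (tw Sy 𝔪 H h 1 k c hc hc1).L1.M)
    (hred : ∀ t : TQ, a₁ t * a₁ t = 0 → a₁ t = 0)
    (tw₁ : ↥(heckeAlgebra N' 2 (↑S : Set ℕ)) →+*
      Module.End O (tw Sy 𝔪 H h 1 k c hc hc1).L1.M)
    (ha : ∀ t, a₁ (χ t) = tw₁ t)
    (twP : ↥(heckeAlgebra N' 2 (↑S : Set ℕ)) →+* Module.End O (bigLevel Sy 𝔪 H h (1 + k)).M)
    (hfmk : ∀ t (x : (bigLevel Sy 𝔪 H h (1 + k)).M),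
      tw₁ t (fmk (frD (bigLevel Sy 𝔪 H h (1 + k))) (fun _ => (1 : O)) x)
        = fmk (frD (bigLevel Sy 𝔪 H h (1 + k))) (fun _ => (1 : O)) (twP t x))
    (hT : ∀ (ℓ : ℕ) (hℓ : ℓ.Prime) (hℓN' : ¬ ℓ ∣ N') (hℓS : ℓ ∉ (↑S : Set ℕ))
        (hℓN : ¬ ℓ ∣ L),
      haveI : Fact ℓ.Prime := ⟨hℓ⟩
      ∃ d : Gamma0 L,
        (∀ u : (ZMod L)ˣ, (u : ZMod L) = ((ℓ : ℕ) : ZMod L) →
          chi (Theta (Δs p e) H.psi (1 + k)) d ^ 2 * Theta (Δs p e) H.psi (1 + k) u = 1) ∧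
        ∀ x : (bigLevel Sy 𝔪 H h (1 + k)).M,
          (bigReal Sy 𝔪 H h (1 + k)).ι (twP (heckeAlgebra.T hℓ hℓN' hℓS) x)
            = diaH (Theta (Δs p e) H.psi (1 + k)) O d
                (TH (Theta (Δs p e) H.psi (1 + k)) O hℓN ((bigReal Sy 𝔪 H h (1 + k)).ι x)))
    (hρ : ∀ (ℓ : ℕ) (hℓ : ℓ.Prime) (hℓN' : ¬ ℓ ∣ N') (hℓS : ℓ ∉ (↑S : Set ℕ)),
      ∀ A : ValuationSubring Qb, A.LiesOverPrime ℓ → ∀ σ : GQ, A.IsFrobeniusAt σ ℓ →
        LinearMap.charpoly (ρQ.ρ σ)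
          = X ^ 2 - C (χ (heckeAlgebra.T hℓ hℓN' hℓS)) * X + C ((ℓ : TQ)))
    (A : ValuationSubring Qb) (hA : A.LiesOverPrime q) (σ : GQ) (hσ : A.IsFrobeniusAt σ q) :
    a₁ ((matT ψ σ).trace ^ 2 - (1 + (q : TQ)) ^ 2) = 0 := by
  subst hL
  exact Fermat.Agent.GB.B7.Kill1TQ.he_plug Sy hrN hqN 𝔪 H h k c hc hc1 hk hrk hbase hbnd S hSN hpS
    hqp hSN' ψ hψ ρQ hequiv χ hχ a₁ hred tw₁ ha twP hfmk hT hρ A hA σ hσ

end Plug

end Fermat.Agent.GB.B7.Kill1Var
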