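/-
GATE-B / S43, gap (N3) of helper28's PROVIDER GAPS v1, HECKE SIDE (helper67):
**the old-killer as an element of the polynomial Hecke ring of the symbols.**

`W/ℤ` a Weierstrass curve with `Δ ≠ 0`, `p` prime, `M` a level with
`¬ W.IsResiduallyModularOfLevel p M`.  Let `σ` be a set of Hecke symbols (`ℓ : σ → Nat.Primes`)
containing every prime outside a finite set `S ⊇ primes(M)`, acting on `Hom(Γ₀(M), O)` through
`act : MvPolynomial σ O →ₐ[O] End_O Hom(Γ₀(M), O)` with `act (X i) = cohGen (ℓ i)` (`ℓ i ∉ S`), and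
`Θ : MvPolynomial σ O →+* k` a mod-`p` character with `Θ (X i) = a_{ℓ i}(W)` (`ℓ i ∉ S`).  Then

* `exists_killer_elem` : there is `t : MvPolynomial σ O` with `Θ t = 1` and
  `act t φ = 0` for EVERY PARABOLIC `φ : Γ₀(M) → O`;
* (`HBasePlug.lean`) the same for helper95's `actN O (prSy Sy) (prSy_prime Sy) M`, and the `hbase`
  binder of `PlugZero.isLoc_eq_zero_of_base` VERBATIM from `¬ ResMod(p, M)` + (BND) at `Γ₀(M)`.

Sources: helper39 `KillerPlug.exists_killer_poly_of_not_resMod` (`P + P₀ = 1`, `P(T^M) = 0` in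
`heckeAlgebra M 2 S`, `P₀ ∈ (p, X_ℓ - a_ℓ)`), helper83 `Coeff.coeffAct` (`heckeAlgebra M 2 S` acts on
`Hom_par(Γ₀(M), O)`, `T_ℓ ↦ cohGen ℓ`).
-/
import Mathlib
import Fermat.Agent.GB.B10.KillerPlug
import Fermat.Agent.GB.B4.Twist.Coeff

set_option autoImplicit false
set_option linter.unusedSectionVars false
set_option linter.style.haveILetI false

open scoped MatrixGroups
open CongruenceSubgroup ModularCurve.Period

namespace Fermat.Agent.GB.B7.HBase

open MvPolynomial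
open Fermat.Agent.S16_helper49 Fermat.Agent.GK.New Fermat.Agent.GB.A.A6.Killer
open Fermat.Agent.GB.B4.Twist.Coeff

noncomputable section

/-! ### the dictionary `ℤ[X_ℓ : ℓ ∉ S] → O[X_s : s ∈ σ]` -/

section Dict

variable {S : Finset ℕ} {σ : Type} (O : Type) [CommRing O] (j : PrimeIdx S → σ)

/-- the dictionary: `X_ℓ ↦ X_{j ℓ}` -/
def dict : MvPolynomial (PrimeIdx S) ℤ →+* MvPolynomial σ O :=
  MvPolynomial.eval₂Hom ((MvPolynomial.C : O →+* MvPolynomial σ O).comp (Int.castRingHom O))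
    (fun i => MvPolynomial.X (j i))

theorem dict_X (i : PrimeIdx S) : dict O j (MvPolynomial.X i) = MvPolynomial.X (j i) :=
  MvPolynomial.eval₂Hom_X' _ _ i

theorem dict_C (n : ℤ) : dict O j (MvPolynomial.C n) = MvPolynomial.C (n : O) := by
  unfold dict
  rw [MvPolynomial.eval₂Hom_C]
  rfl

/-- a mod-`p` character with the eigenvalues `a ℓ` kills the image of `(p, X_ℓ - a ℓ)` -/
theorem theta_dict_eq_zero {p : ℕ} {a : ℕ → ℤ} {k : Type*} [CommRing k]
    (Θ : MvPolynomial σ O →+* k) (hΘp : ((p : ℕ) : k) = 0)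
    (hΘX : ∀ i : PrimeIdx S, Θ (MvPolynomial.X (j i)) = ((a i.1 : ℤ) : k))
    {P₀ : MvPolynomial (PrimeIdx S) ℤ} (hP₀ : P₀ ∈ nIdeal S p a) :
    Θ (dict O j P₀) = 0 := by
  set ev : MvPolynomial (PrimeIdx S) ℤ →+* k := Θ.comp (dict O j) with hev
  have hC : ∀ n : ℤ, ev (MvPolynomial.C n) = (n : k) := fun n => by
    have h1 : ev.comp (MvPolynomial.C : ℤ →+* MvPolynomial (PrimeIdx S) ℤ) = Int.castRingHom k :=
      RingHom.ext_int _ _
    exact DFunLike.congr_fun h1 n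
  have hX : ∀ i : PrimeIdx S, ev (MvPolynomial.X i) = ((a i.1 : ℤ) : k) := fun i => by
    rw [hev, RingHom.comp_apply, dict_X, hΘX]
  have hle : nIdeal S p a ≤ RingHom.ker ev := by
    unfold nIdeal
    rw [Ideal.span_le]
    rintro y (rfl | ⟨i, rfl⟩)
    · show ev _ = 0
      rw [hC]
      exact_mod_cast hΘp
    · show ev _ = 0
      rw [map_sub, hX, hC, sub_self]
  exact hle hP₀

end Dict

/-! ### the action of `ℤ[X_ℓ : ℓ ∉ S]` on the parabolic classes, two ways -/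

section Compare

variable {O : Type} [CommRing O] (hO : ∀ (n : ℤ) (a : O), n ≠ 0 → n • a = 0 → a = 0)
  {M : ℕ} [NeZero M] {S : Finset ℕ} (hMS : ∀ q : ℕ, q.Prime → q ∣ M → q ∈ S)
  {σ : Type} (ℓ : σ → Nat.Primes) (j : PrimeIdx S → σ) (hj : ∀ i : PrimeIdx S, (ℓ (j i) : ℕ) = i.1)
  (act : MvPolynomial σ O →ₐ[O] Module.End O (Additive (Gamma0 M) →+ O))
  (hact : ∀ (i : PrimeIdx S) (φ : Additive (Gamma0 M) →+ O),
    act (MvPolynomial.X (j i)) φ = cohGen M O (ℓ (j i)) φ)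

include hj hact in
/-- on the parabolic classes, `act ∘ dict` is helper83's `coeffAct ∘ aeval T` -/
theorem act_dict_eq (Q : MvPolynomial (PrimeIdx S) ℤ) :
    ∀ φ : ↥(parabolicHoms O (Gamma0 M) O),
      act (dict O j Q) (φ : Additive (Gamma0 M) →+ O)
        = ((coeffAct M (↑S : Set ℕ) O hO (MvPolynomial.aeval (TfamH hMS) Q) φ :
            ↥(parabolicHoms O (Gamma0 M) O)) : Additive (Gamma0 M) →+ O) := by
  induction Q using MvPolynomial.induction_on with
  | C n =>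
    intro φ
    have h0 : (MvPolynomial.aeval (TfamH hMS) (MvPolynomial.C n) :
        ↥(CuspForm.heckeAlgebra M 2 (↑S : Set ℕ))) = n • (1 : ↥(CuspForm.heckeAlgebra M 2 (↑S : Set ℕ))) := by
      rw [MvPolynomial.aeval_C, eq_intCast, zsmul_one]
    rw [dict_C, h0, map_zsmul, map_one, LinearMap.smul_apply, Module.End.one_apply,
      AddSubgroupClass.coe_zsmul]
    have h1 : (MvPolynomial.C (n : O) : MvPolynomial σ O)
        = algebraMap O (MvPolynomial σ O) (n : O) := rfl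
    rw [h1, AlgHom.commutes, Module.algebraMap_end_apply, Int.cast_smul_eq_zsmul]
  | add P Q hP hQ =>
    intro φ
    rw [map_add, map_add, map_add, map_add, LinearMap.add_apply, LinearMap.add_apply, hP φ, hQ φ,
      Submodule.coe_add]
  | mul_X Q i hQ =>
    intro φ
    rw [map_mul, map_mul, map_mul, map_mul, dict_X, MvPolynomial.aeval_X, Module.End.mul_apply,
      Module.End.mul_apply, hact]
    have h1 : ℓ (j i) = (⟨i.1, i.2.1⟩ : Nat.Primes) := Subtype.ext (hj i)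
    have h2 : coeffAct M (↑S : Set ℕ) O hO (TfamH hMS i) = parGen M O O (ℓ (j i)) := by
      rw [h1]
      exact coeffAct_T M (↑S : Set ℕ) O hO i.2.1 (PrimeIdx.not_dvd hMS i) _
    have h3 : cohGen M O (ℓ (j i)) (φ : Additive (Gamma0 M) →+ O)
        = ((parGen M O O (ℓ (j i)) φ : ↥(parabolicHoms O (Gamma0 M) O)) :
            Additive (Gamma0 M) →+ O) := rfl
    rw [h2, h3, hQ]

end Compare

/-! ### the killer element -/

section Killer

variable {O : Type} [CommRing O] (hO : ∀ (n : ℤ) (a : O), n ≠ 0 → n • a = 0 → a = 0)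
  {M : ℕ} [NeZero M] {σ : Type} (ℓ : σ → Nat.Primes)

include hO in
/-- **the killer element**: `¬ ResMod(p, M)` ⟹ some `t` with `Θ t = 1` kills every parabolic
class of `Γ₀(M)`.  Only the symbols at the primes outside `S` matter. -/
theorem exists_killer_elem {p : ℕ} (hp : p.Prime) (W : WeierstrassCurve ℤ) (hΔ : W.Δ ≠ 0)
    (hno : ¬ W.IsResiduallyModularOfLevel p M)
    (S : Finset ℕ) (hMS : ∀ q : ℕ, q.Prime → q ∣ M → q ∈ S)
    (hcov : ∀ q : ℕ, q.Prime → q ∉ S → ∃ i : σ, (ℓ i : ℕ) = q)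
    (act : MvPolynomial σ O →ₐ[O] Module.End O (Additive (Gamma0 M) →+ O))
    (hact : ∀ (i : σ) (φ : Additive (Gamma0 M) →+ O), (ℓ i : ℕ) ∉ S →
      act (MvPolynomial.X i) φ = cohGen M O (ℓ i) φ)
    {k : Type*} [CommRing k] (Θ : MvPolynomial σ O →+* k) (hΘp : ((p : ℕ) : k) = 0)
    (hΘX : ∀ i, (ℓ i : ℕ) ∉ S → Θ (MvPolynomial.X i) = ((W.apOfModel (ℓ i) : ℤ) : k)) :
    ∃ t : MvPolynomial σ O, Θ t = 1 ∧
      ∀ φ : Additive (Gamma0 M) →+ O, IsParabolicHom (Gamma0 M) φ → act t φ = 0 := by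
  classical
  obtain ⟨P, P₀, hP₀, hsum, hP⟩ :=
    Fermat.Agent.GB.B10.KillerPlug.exists_killer_poly_of_not_resMod (S := S) W hΔ hp hMS hno
  choose j hj using fun i : PrimeIdx S => hcov i.1 i.2.1 i.2.2
  have hjS : ∀ i : PrimeIdx S, (ℓ (j i) : ℕ) ∉ S := fun i => by
    rw [hj i]
    exact i.2.2
  refine ⟨dict O j P, ?_, fun φ hφ => ?_⟩
  · have h0 : Θ (dict O j P₀) = 0 := by
      refine theta_dict_eq_zero (a := fun q => W.apOfModel q) O j Θ hΘp (fun i => ?_) hP₀
      rw [hΘX (j i) (hjS i), hj i]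
    have h1 : P = 1 - P₀ := eq_sub_of_add_eq hsum
    rw [h1, map_sub, map_one, map_sub, map_one, h0, sub_zero]
  · have hmem : φ ∈ parabolicHoms O (Gamma0 M) O := mem_parabolicHoms_iff.2 hφ
    have h := act_dict_eq hO hMS ℓ j hj act (fun i ψ => hact (j i) ψ (hjS i)) P ⟨φ, hmem⟩
    rw [hP, map_zero] at h
    exact h

end Killer

end

end Fermat.Agent.GB.B7.HBase
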