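/-
GATE-B / S43, gap (N3) of helper28's PROVIDER GAPS v1 (helper67): **`hbase` from
`¬ W.IsResiduallyModularOfLevel p M` and (BND) at `Γ₀(M)`.**

`Sy : Symbols N`, base level `M` (a VARIABLE: the consumers substitute `M / q`, `M / p`),
`lamBase : Sy.𝕋 O →ₐ[O] κ` with `lamBase (X s) = a_s(W)` at the symbols outside a finite set
`S ⊇ primes(M)` outside which every prime is a symbol.

* `exists_killer_actN` : `HBase.exists_killer_elem` for helper95's
  `actN O (prSy Sy) (prSy_prime Sy) M`;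
* `isLoc_eq_zero_of_killer` : (abstract) an element `t ∉ 𝔪` killing the `𝔪`-primary part kills
  nothing but `0` (`UqOne.exists_isLoc_preimage`);
* `hbase_of_bnd` : **the `hbase` binder of `PlugZero.isLoc_eq_zero_of_base` VERBATIM** from
  `¬ ResMod(p, M)` and `hbnd : IsLoc y → IsParabolicHom (Gamma0 M) y`.
-/
import Mathlib
import Fermat.Agent.GB.B7.HBase
import Fermat.Agent.GB.B3.PlugD
import Fermat.Agent.GB.B7.UqOne

set_option autoImplicit false
set_option linter.unusedSectionVars false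
set_option linter.style.haveILetI false

open scoped MatrixGroups
open CongruenceSubgroup ModularCurve.Period

namespace Fermat.Agent.GB.B7.HBasePlug

open MvPolynomial
open Fermat.Agent.S16_helper49
open Fermat.Agent.GB.B3 Fermat.Agent.GB.B3.RealLevel Fermat.Agent.GB.B3.HeckeActH
  Fermat.Agent.GB.B8.LevelIter Fermat.Agent.GB.B8.LevelGen

/-! ### abstract: a killer outside `𝔪` -/

section Abstract

variable {O : Type} [CommRing O] [IsLocalRing O] [IsNoetherianRing O]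
  [IsAdicComplete (IsLocalRing.maximalIdeal O) O]
  {A : Type} [CommRing A] [Algebra O A]
  {L : Type*} [AddCommGroup L] [Module O L] [Module.Finite O L]

/-- an element `t ∉ 𝔪` killing the `𝔪`-primary part: the `𝔪`-primary part is zero -/
theorem isLoc_eq_zero_of_killer (act : A →ₐ[O] Module.End O L) (𝔪 : Ideal A) [𝔪.IsMaximal]
    {t : A} (ht : t ∉ 𝔪) (hkill : ∀ y : L, IsLoc act 𝔪 y → act t y = 0)
    (y : L) (hy : IsLoc act 𝔪 y) : y = 0 := by
  obtain ⟨y', hy', hty⟩ := Fermat.Agent.GB.B7.UqOne.exists_isLoc_preimage act 𝔪 hy ht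
  rw [← hty]
  exact hkill y' hy'

end Abstract

/-! ### the killer for `actN` -/

section ActN

variable {N : ℕ} (Sy : Symbols N)
variable {O : Type} [CommRing O] [Module.IsTorsionFree ℤ O]
variable {κ : Type} [Field κ] [Algebra O κ]

/-- `ℤ`-torsion-freeness in the form used by helper83's `Coeff` -/
theorem torsionFree_int (n : ℤ) (a : O) (hn : n ≠ 0) (h : n • a = 0) : a = 0 := by
  have h1 : n • a = n • (0 : O) := by rw [h, smul_zero]
  exact (Module.IsTorsionFree.isSMulRegular (M := O) (IsRegular.of_ne_zero hn)) h1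

/-- **the killer element for `actN`** at the base level `M` -/
theorem exists_killer_actN (M : ℕ) [NeZero M] {p : ℕ} (hp : p.Prime) (W : WeierstrassCurve ℤ)
    (hΔ : W.Δ ≠ 0) (hno : ¬ W.IsResiduallyModularOfLevel p M)
    (S : Finset ℕ) (hMS : ∀ q : ℕ, q.Prime → q ∣ M → q ∈ S)
    (hcov : ∀ q : ℕ, q.Prime → q ∉ S → ∃ s : Sy.ι₁ ⊕ Sy.ι₂, prSy Sy s = q)
    (lamBase : Sy.𝕋 O →ₐ[O] κ) (hκp : ((p : ℕ) : κ) = 0)
    (hlam : ∀ s, prSy Sy s ∉ S → lamBase (X s) = ((W.apOfModel (prSy Sy s) : ℤ) : κ)) :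
    ∃ t : Sy.𝕋 O, lamBase t = 1 ∧
      ∀ φ : Additive (Gamma0 M) →+ O, IsParabolicHom (Gamma0 M) φ →
        actN O (prSy Sy) (prSy_prime Sy) M t φ = 0 := by
  refine Fermat.Agent.GB.B7.HBase.exists_killer_elem (torsionFree_int (O := O))
    (fun s => (⟨prSy Sy s, prSy_prime Sy s⟩ : Nat.Primes)) hp W hΔ hno S hMS
    (fun q hq hqS => hcov q hq hqS)
    (actN O (prSy Sy) (prSy_prime Sy) M) ?_ (lamBase : Sy.𝕋 O →+* κ) hκp
    (fun s hs => hlam s hs)
  intro s φ hs
  have hsM : ¬ prSy Sy s ∣ M := fun hdvd => hs (hMS _ (prSy_prime Sy s) hdvd)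
  rw [actN_X_of_not_dvd O (prSy Sy) (prSy_prime Sy) s hsM φ,
    cohGen_of_not_dvd M O (⟨prSy Sy s, prSy_prime Sy s⟩ : Nat.Primes) hsM]

end ActN

/-! ### `hbase` -/

section HBase

variable {N : ℕ} (Sy : Symbols N)
variable {O : Type} [CommRing O] [IsDomain O] [IsPrincipalIdealRing O] [IsLocalRing O]
  [IsAdicComplete (IsLocalRing.maximalIdeal O) O] [Module.IsTorsionFree ℤ O]
variable {κ : Type} [Field κ] [Algebra O κ]

/-- **`hbase` from `¬ ResMod(p, M)` and (BND) at `Γ₀(M)`** — the conclusion is the `hbase` binder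
of `PlugZero.isLoc_eq_zero_of_base`, VERBATIM. -/
theorem hbase_of_bnd (M : ℕ) [NeZero M] {p : ℕ} (hp : p.Prime) (W : WeierstrassCurve ℤ)
    (hΔ : W.Δ ≠ 0) (hno : ¬ W.IsResiduallyModularOfLevel p M)
    (S : Finset ℕ) (hMS : ∀ q : ℕ, q.Prime → q ∣ M → q ∈ S)
    (hcov : ∀ q : ℕ, q.Prime → q ∉ S → ∃ s : Sy.ι₁ ⊕ Sy.ι₂, prSy Sy s = q)
    (hsurj : Function.Surjective (algebraMap O κ))
    (lamBase : Sy.𝕋 O →ₐ[O] κ) (hκp : ((p : ℕ) : κ) = 0)
    (hlam : ∀ s, prSy Sy s ∉ S → lamBase (X s) = ((W.apOfModel (prSy Sy s) : ℤ) : κ))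
    (hbnd : ∀ y : Additive (Gamma0 M) →+ O,
      IsLoc (actN O (prSy Sy) (prSy_prime Sy) M) (RingHom.ker (lamBase : Sy.𝕋 O →+* κ)) y →
        IsParabolicHom (Gamma0 M) y) :
    ∀ y : Additive (Gamma0 M) →+ O,
      IsLoc (actN O (prSy Sy) (prSy_prime Sy) M) (RingHom.ker (lamBase : Sy.𝕋 O →+* κ)) y →
        y = 0 := by
  classical
  intro y hy
  obtain ⟨t, ht1, htkill⟩ := exists_killer_actN Sy M hp W hΔ hno S hMS hcov lamBase hκp hlam
  haveI : (RingHom.ker (lamBase : Sy.𝕋 O →+* κ)).IsMaximal :=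
    Fermat.Agent.GB.B8.LevelIter.ker_isMaximal hsurj lamBase
  haveI : Module.Finite O (Additive (Gamma0 M) →+ O) := finite_hom O M
  refine isLoc_eq_zero_of_killer (actN O (prSy Sy) (prSy_prime Sy) M)
    (RingHom.ker (lamBase : Sy.𝕋 O →+* κ)) (t := t) ?_ (fun z hz => htkill z (hbnd z hz)) y hy
  intro hmem
  rw [RingHom.mem_ker] at hmem
  have h1 : lamBase t = 0 := hmem
  rw [ht1] at h1
  exact one_ne_zero h1

end HBase

end Fermat.Agent.GB.B7.HBasePlug
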