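/-
GATE-B / S43, gap (N3) of helper28's PROVIDER GAPS v1, (BND) at `Γ₀(M)` (helper67):
**the non-Eisenstein primary part of `Hom(Γ₀(M), O)` is parabolic**, `M` squarefree — the `hbnd`
binder of `HBasePlug.hbase_of_bnd`, and with it `hbase` from `¬ ResMod(p, M)` alone.

* `cohT_apply_of_parabolic` : (★★) at `Γ₀(N)` itself (`N` squarefree, `ℓ ∤ N`): for EVERY
  `φ : Γ₀(N) → A` and every parabolic `γ ∈ Γ₀(N)`, `(T_ℓ φ)(γ) = (ℓ + 1) • φ(γ)` — helper11's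
  `Mat.TH_apply_of_parabolic'` for the trivial character, transported by restriction;
* `hbnd_of_squarefree` : `IsLoc (actN … M) 𝔪 y → IsParabolicHom (Gamma0 M) y` as soon as some
  `X s₀ - (ℓ_{s₀} + 1) ∉ 𝔪`, `ℓ_{s₀} ∤ M`;
* `hbase_of_squarefree` : **`hbase` (the binder of `PlugZero.isLoc_eq_zero_of_base`, VERBATIM) from
  `¬ W.IsResiduallyModularOfLevel p M`**, `M` squarefree, one non-Eisenstein symbol.
-/
import Mathlib
import Fermat.Agent.GB.B3.Boundary.MatMain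
import Fermat.Agent.GB.B7.HBasePlug

set_option autoImplicit false
set_option linter.unusedSectionVars false
set_option linter.style.haveILetI false

open scoped MatrixGroups
open CongruenceSubgroup ModularCurve.Period

namespace Fermat.Agent.GB.B7.HBnd

open MvPolynomial
open Fermat.Agent.S16_helper49 Fermat.Agent.GM.B
open Fermat.Agent.GB.B3 Fermat.Agent.GB.B3.EisGamma0 Fermat.Agent.GB.B3.GamH
  Fermat.Agent.GB.B3.RealLevel Fermat.Agent.GB.B3.HeckeActH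
  Fermat.Agent.GB.B8.LevelIter Fermat.Agent.GB.B8.LevelGen

/-! ### (★★) at `Γ₀(N)` -/

section Matrix

variable {N : ℕ} {ℓ : ℕ} [Fact ℓ.Prime] (hℓN : ¬ ℓ ∣ N) {A : Type*} [AddCommGroup A]

/-- the trivial character -/
def θ₁ (N : ℕ) : (ZMod N)ˣ →* Unit := 1

/-- **(★★) at `Γ₀(N)`**: `(T_ℓ φ)(γ) = (ℓ + 1) • φ(γ)` at the parabolic elements -/
theorem cohT_apply_of_parabolic (hN : Squarefree N) (φ : Additive (Gamma0 N) →+ A)
    (γ : Gamma0 N) (hγ : ((γ : SL(2, ℤ)) : Matrix (Fin 2) (Fin 2) ℤ).trace ^ 2 = 4) :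
    cohT hℓN A φ (Additive.ofMul γ) = (ℓ + 1) • φ (Additive.ofMul γ) := by
  set k : GammaH (θ₁ N) := kerMk (chi (θ₁ N)) γ (Subsingleton.elim _ _) with hk
  have hkγ : kerIncl (chi (θ₁ N)) k = γ := rfl
  have hconj : ∀ (d : Gamma0 N) (β : GammaH (θ₁ N)),
      ((β : SL(2, ℤ)) : Matrix (Fin 2) (Fin 2) ℤ).trace ^ 2 = 4 →
        resH (θ₁ N) A φ (Additive.ofMul (conjK (chi (θ₁ N)) d β))
          = resH (θ₁ N) A φ (Additive.ofMul β) := by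
    intro d β _
    have e1 : resH (θ₁ N) A φ (Additive.ofMul (conjK (chi (θ₁ N)) d β))
        = φ (Additive.ofMul (kerIncl (chi (θ₁ N)) (conjK (chi (θ₁ N)) d β))) :=
      resH_apply (θ₁ N) φ _
    have e2 : resH (θ₁ N) A φ (Additive.ofMul β)
        = φ (Additive.ofMul (kerIncl (chi (θ₁ N)) β)) := resH_apply (θ₁ N) φ β
    have h1 : kerIncl (chi (θ₁ N)) (conjK (chi (θ₁ N)) d β)
        = d * kerIncl (chi (θ₁ N)) β * d⁻¹ := rfl
    refine e1.trans ?_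
    rw [e2, h1, ofMul_mul, ofMul_mul, map_add, map_add, ofMul_inv, map_neg]
    abel
  have h := Fermat.Agent.GB.B3.Boundary.Mat.TH_apply_of_parabolic' (θ := θ₁ N) hℓN (A := A)
    (ψ := resH (θ₁ N) A φ) hN hconj k hγ
  rw [TH_resH, resH_apply, resH_apply, hkγ] at h
  exact h

end Matrix

/-! ### (BND) at `Γ₀(M)` for `actN` -/

section Bnd

variable {N : ℕ} (Sy : Symbols N)
variable {O : Type} [CommRing O]

/-- **(BND) at the base level**: the `𝔪`-primary part of `Hom(Γ₀(M), O)` is parabolic when some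
`X s₀ - (ℓ_{s₀} + 1) ∉ 𝔪` with `ℓ_{s₀} ∤ M` (`M` squarefree) -/
theorem hbnd_of_squarefree (M : ℕ) (hM : Squarefree M) (𝔪 : Ideal (Sy.𝕋 O))
    (s₀ : Sy.ι₁ ⊕ Sy.ι₂) (hs₀M : ¬ prSy Sy s₀ ∣ M)
    (hτ : (X s₀ - C (((prSy Sy s₀ + 1 : ℕ) : O)) : Sy.𝕋 O) ∉ 𝔪)
    (y : Additive (Gamma0 M) →+ O) (hy : IsLoc (actN O (prSy Sy) (prSy_prime Sy) M) 𝔪 y) :
    IsParabolicHom (Gamma0 M) y := by
  haveI : Fact (prSy Sy s₀).Prime := ⟨prSy_prime Sy s₀⟩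
  obtain ⟨y', rfl⟩ := hy _ hτ
  intro γ hγ
  have h1 : actN O (prSy Sy) (prSy_prime Sy) M
      (X s₀ - C (((prSy Sy s₀ + 1 : ℕ) : O)) : Sy.𝕋 O) y'
      = cohT hs₀M O y' - (((prSy Sy s₀ + 1 : ℕ) : O)) • y' := by
    rw [map_sub, LinearMap.sub_apply, actN_X_of_not_dvd O (prSy Sy) (prSy_prime Sy) s₀ hs₀M y']
    congr 1
    have h2 : (C (((prSy Sy s₀ + 1 : ℕ) : O)) : Sy.𝕋 O)
        = algebraMap O (Sy.𝕋 O) (((prSy Sy s₀ + 1 : ℕ) : O)) := rfl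
    rw [h2, AlgHom.commutes, Module.algebraMap_end_apply]
  rw [h1]
  show cohT hs₀M O y' (Additive.ofMul γ)
    - (((prSy Sy s₀ + 1 : ℕ) : O)) • y' (Additive.ofMul γ) = 0
  rw [cohT_apply_of_parabolic hs₀M hM y' γ hγ, Nat.cast_smul_eq_nsmul, sub_self]

end Bnd

/-! ### `hbase` from `¬ ResMod(p, M)` alone -/

section HBase

variable {N : ℕ} (Sy : Symbols N)
variable {O : Type} [CommRing O] [IsDomain O] [IsPrincipalIdealRing O] [IsLocalRing O]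
  [IsAdicComplete (IsLocalRing.maximalIdeal O) O] [Module.IsTorsionFree ℤ O]
variable {κ : Type} [Field κ] [Algebra O κ]

/-- **`hbase` from `¬ W.IsResiduallyModularOfLevel p M`**, `M` squarefree, `lamBase` non-Eisenstein
at one symbol `s₀` prime to `M` — the conclusion is the `hbase` binder of
`PlugZero.isLoc_eq_zero_of_base`, VERBATIM. -/
theorem hbase_of_squarefree (M : ℕ) [NeZero M] (hM : Squarefree M) {p : ℕ} (hp : p.Prime)
    (W : WeierstrassCurve ℤ) (hΔ : W.Δ ≠ 0) (hno : ¬ W.IsResiduallyModularOfLevel p M)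
    (S : Finset ℕ) (hMS : ∀ q : ℕ, q.Prime → q ∣ M → q ∈ S)
    (hcov : ∀ q : ℕ, q.Prime → q ∉ S → ∃ s : Sy.ι₁ ⊕ Sy.ι₂, prSy Sy s = q)
    (hsurj : Function.Surjective (algebraMap O κ))
    (lamBase : Sy.𝕋 O →ₐ[O] κ) (hκp : ((p : ℕ) : κ) = 0)
    (hlam : ∀ s, prSy Sy s ∉ S → lamBase (X s) = ((W.apOfModel (prSy Sy s) : ℤ) : κ))
    (s₀ : Sy.ι₁ ⊕ Sy.ι₂) (hs₀M : ¬ prSy Sy s₀ ∣ M)
    (hτ : lamBase (X s₀) ≠ ((prSy Sy s₀ + 1 : ℕ) : κ)) :
    ∀ y : Additive (Gamma0 M) →+ O,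
      IsLoc (actN O (prSy Sy) (prSy_prime Sy) M) (RingHom.ker (lamBase : Sy.𝕋 O →+* κ)) y →
        y = 0 := by
  refine Fermat.Agent.GB.B7.HBasePlug.hbase_of_bnd Sy M hp W hΔ hno S hMS hcov hsurj lamBase hκp
    hlam (hbnd_of_squarefree Sy M hM _ s₀ hs₀M ?_)
  intro hmem
  rw [RingHom.mem_ker] at hmem
  have h1 : lamBase (X s₀ - C (((prSy Sy s₀ + 1 : ℕ) : O)) : Sy.𝕋 O) = 0 := hmem
  have h2 : (C (((prSy Sy s₀ + 1 : ℕ) : O)) : Sy.𝕋 O)
      = algebraMap O (Sy.𝕋 O) (((prSy Sy s₀ + 1 : ℕ) : O)) := rfl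
  rw [map_sub, h2, AlgHom.commutes, map_natCast, sub_eq_zero] at h1
  exact hτ h1

end HBase

end Fermat.Agent.GB.B7.HBnd
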