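/-
GATE-B / S43, node GB-B7-TKILL (helper52): **the `kill₁` field of `TWInput` from B7.**

`TWInput.kill₁ : ∀ r ∈ J₁, ∀ n, a₁ (coeff n (Θ r)) = 0` with `J₁ = span {t₀}`:
* `kill_of_C` : `Θ t₀ = C e` and `a₁ e = 0` ⟹ `kill₁` for `J₁ = span {t₀}` (any `R`, `T`, `M`);
* `kill₁_tElt` : the same for `t₀ = C (tElt O (q − 1))`, `e = (tr F)² − (1 + q)²`
  (helper51 `Kill1.map_tElt`), i.e. B7's `TKill.trace_sq_kill` output `a₁ ((tr F)² − (1+q)²) = 0`
  IS the field `kill₁`.
-/
import Mathlib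
import Fermat.Agent.GB.Local.Kill1
import Fermat.Agent.GB.Alg.Points

set_option autoImplicit false
set_option linter.unusedSectionVars false
set_option linter.style.haveILetI false

namespace Fermat.Agent.GB.B7.Kill1Plug

open MvPowerSeries

section General

variable {O : Type*} [CommRing O] {R : Type*} [CommRing R] [Algebra O R]
  {T : Type*} [CommRing T] [Algebra O T] {σ : Type*}
  {M : Type*} [AddCommGroup M] [Module O M]

/-- coefficientwise killing of a principal ideal whose generator goes to a constant -/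
theorem kill_of_C (Θ : R →ₐ[O] MvPowerSeries σ T) (a₁ : T →ₐ[O] Module.End O M)
    (t₀ : R) (e : T) (hΘ : Θ t₀ = C e) (he : a₁ e = 0) :
    ∀ r ∈ Ideal.span {t₀}, ∀ n, a₁ (coeff n (Θ r)) = 0 := by
  intro r hr n
  obtain ⟨s, rfl⟩ := Ideal.mem_span_singleton'.1 hr
  rw [map_mul, hΘ, MvPowerSeries.coeff_mul_C, map_mul, he, mul_zero]

end General

section Reduced

variable {O : Type*} [CommRing O] [IsDomain O] {T : Type*} [CommRing T] [Algebra O T]
  [IsReduced T] [Algebra.IsIntegral O T]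
  {M : Type*} [AddCommGroup M] [Module O M] [Module.IsTorsionFree O M]

/-- the `hred` binder of `TKill.trace_sq_kill` from `IsReduced T` (helper66,
`GB/Alg/Points.smul_eq_zero_of_sq_smul_eq_zero`): the image of a reduced integral `O`-algebra in
the endomorphisms of a torsion-free module is reduced. -/
theorem hred_of_isReduced (a₁ : T →ₐ[O] Module.End O M) (t : T) (h : a₁ t * a₁ t = 0) :
    a₁ t = 0 := by
  letI : Module T M := Module.compHom M (a₁ : T →+* Module.End O M)
  haveI : IsScalarTower O T M := ⟨fun c s m => by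
    show a₁ (c • s) m = c • a₁ s m
    rw [map_smul]
    rfl⟩
  refine LinearMap.ext fun m => ?_
  have h1 := Fermat.Agent.GB.Alg.Points.smul_eq_zero_of_sq_smul_eq_zero O t (M := M)
    (fun m => by
      show a₁ (t * t) m = 0
      rw [map_mul, h]
      rfl) m
  exact h1

end Reduced

section TElt

open Fermat.Agent.GB.Local.TamePoint Fermat.Agent.GB.Local.Rloc Fermat.Agent.GB.Local.R4Point
open Fermat.Agent.GB.Local.RlocMain Matrix IsLocalRing

variable {O : Type*} [CommRing O] [IsLocalRing O] [IsNoetherianRing O]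
  [IsAdicComplete (maximalIdeal O) O]
variable {T : Type*} [CommRing T] [Algebra O T] {σ : Type*} {g : ℕ}
  {M : Type*} [AddCommGroup M] [Module O M]

/-- **`kill₁` for the test element** from `a₁ ((tr F)² − (1 + q)²) = 0`. -/
theorem kill₁_tElt (Θ : Rinf O g →ₐ[O] MvPowerSeries σ T) (F : Matrix (Fin 2) (Fin 2) T)
    {q : ℕ} (hFdet : F.det = (q : T)) {h : O} (hh : 2 * h = 1)
    {γ γi : Matrix (Fin 2) (Fin 2) (MvPowerSeries σ T)} (hγ : γ * γi = 1)
    (hΘa : ∀ k, Θ (MvPowerSeries.C (aVar O k)) =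
      tl (MvPowerSeries.C (algebraMap O T h)) (γ * F.map MvPowerSeries.C * γi) k)
    (a₁ : T →ₐ[O] Module.End O M)
    (he : a₁ (F.trace ^ 2 - (1 + (q : T)) ^ 2) = 0) :
    ∀ r ∈ Ideal.span {(MvPowerSeries.C (tElt O ((q : O) - 1)) : Rinf O g)},
      ∀ n, a₁ (MvPowerSeries.coeff n (Θ r)) = 0 :=
  kill_of_C Θ a₁ _ _ (Fermat.Agent.GB.Local.Kill1.map_tElt Θ F hFdet hh hγ hΘa) he

end TElt

end Fermat.Agent.GB.B7.Kill1Plug
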