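/-
GATE-B / GB-PNEW (L2-c) (helper97): **the transfer in stages**.

Abstract: `S : CosetSys emb Γ₁ Γ₂`, `χ₁ : Γ₁ →* Δ`, `χ₂ : Γ₂ →* Δ` with `Compat₂ S χ₁ χ₂`, sections
`r₁` of `χ₁` and `r₂` of `χ₂`.  Then the two ways from `Hom(ker χ₁, A)` to `Hom(Γ₂, A)` agree:

  `cores_kerSys₂_op : (coresK χ₂ r₂).op ((kerSys₂ S χ₁ χ₂ h).op ψ) = S.op ((coresK χ₁ r₁).op ψ)`

(two-level twin of helper2's `KerSys.cores_kerSys_op`).

Instances for the `q`-degeneracy systems of helper83's `UqSqSys` (`q ∤ N` ANY prime, e.g. `q := p`):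

* `coresH_coresHSys`  : `coresH θ' ∘ coresq  = cores_{Γ₀(Nq) → Γ₀(N)} ∘ coresH (thQ θ' q)`;
* `coresH_coresDHSys` : the same for the `δ`-twisted transfers `coresDq` / `coresDSys`;
* `coresH_resHSys`    : `coresH (thQ θ' q) ∘ resq = res ∘ coresH θ'`;
* `coresH_coresq`, `coresH_coresDq`, `coresH_resq` : the same for the operators pinned at `bez hqN`.
-/
import Mathlib
import Fermat.Agent.GB.B7.UqSqSys

set_option autoImplicit false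
set_option linter.unusedSectionVars false

open scoped MatrixGroups
open CongruenceSubgroup Matrix Matrix.SpecialLinearGroup
open Fermat.Agent.S16_helper49 Fermat.Agent.GM.B Fermat.Agent.GM.B5
open Fermat.Agent.GM.Amalgam
open Fermat.Agent.GB.B3 Fermat.Agent.GB.B3.EisGamma0 Fermat.Agent.GB.B3.GamH
open Fermat.Agent.GB.B4.Twist.KerSys2
open Fermat.Agent.GB.B7.UqSq

namespace Fermat.Agent.GB.B7.UqEquiv

section Abstract

variable {H G : Type*} [Group H] [Group G] {emb : H →* G} {Γ₁ Γ₂ : Subgroup H}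
  {Δ : Type} [Group Δ] [Fintype Δ]
  (S : CosetSys emb Γ₁ Γ₂) (χ₁ : Γ₁ →* Δ) (χ₂ : Γ₂ →* Δ) (h : Compat₂ S χ₁ χ₂)
  (r₁ : Δ → Γ₁) (hr₁ : ∀ δ, χ₁ (r₁ δ) = δ) (r₂ : Δ → Γ₂) (hr₂ : ∀ δ, χ₂ (r₂ δ) = δ)

/-- the reindexing `(δ, j) ↦ ((σ (r₂ δ))⁻¹ j, δ)` -/
def coresEquiv₂ : Δ × S.ι ≃ S.ι × Δ where
  toFun p := ((S.σ (r₂ p.1)).symm p.2, p.1)
  invFun q := (q.2, S.σ (r₂ q.2) q.1)
  left_inv p := by simp
  right_inv q := by simp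

/-- **the transfer in stages**: `cores_{ker χ₂ → Γ₂} ∘ S|_{ker} = S ∘ cores_{ker χ₁ → Γ₁}` -/
theorem cores_kerSys₂_op (hemb : Function.Injective emb)
    {A : Type*} [AddCommGroup A] (ψ : Additive (kerSub χ₁) →+ A) :
    (coresK χ₂ r₂ hr₂ emb).op A ((kerSys₂ S χ₁ χ₂ h).op A ψ)
      = S.op A ((coresK χ₁ r₁ hr₁ emb).op A ψ) := by
  rw [← CosetSys.op_comp, ← CosetSys.op_comp]
  refine CosetSys.op_eq_of_equiv ((coresK χ₁ r₁ hr₁ emb).comp S)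
    ((kerSys₂ S χ₁ χ₂ h).comp (coresK χ₂ r₂ hr₂ emb)) hemb (coresEquiv₂ S r₂)
    1 (fun x => by rw [one_mul, mul_one])
    (fun p => kerMk χ₁ (S.c (r₂ p.1) ((S.σ (r₂ p.1)).symm p.2) * (r₁ p.1)⁻¹) (by
      rw [map_mul, h, map_inv, hr₁, hr₂, mul_inv_cancel])) ?_ ?_ ψ
  · rintro ⟨(δ : Δ), (j : S.ι)⟩
    show S.a ((S.σ (r₂ δ)).symm j) * emb ((r₂ δ : Γ₂) : H)
      = 1 * emb (((S.c (r₂ δ) ((S.σ (r₂ δ)).symm j) * (r₁ δ)⁻¹ : Γ₁)) : H)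
        * (emb ((r₁ δ : Γ₁) : H) * S.a j)
    rw [one_mul, S.rel (r₂ δ) ((S.σ (r₂ δ)).symm j), Equiv.apply_symm_apply, ← mul_assoc, ← map_mul,
      ← Subgroup.coe_mul, inv_mul_cancel_right]
  · rintro g ⟨(δ : Δ), (j : S.ι)⟩
    show (S.σ (kerIncl χ₂ (coresC χ₂ r₂ hr₂ g δ)) ((S.σ (r₂ δ)).symm j), δ * χ₂ g)
      = ((S.σ (r₂ (δ * χ₁ (S.c g j)))).symm (S.σ g j), δ * χ₁ (S.c g j))
    rw [h, kerIncl_coresC, S.hσ, S.hσ, Equiv.apply_symm_apply, sigma_inv_eq_symm]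

end Abstract

section Inst

variable {N q : ℕ} [Fact q.Prime] {Δ : Type} [CommGroup Δ] [Fintype Δ] (θ' : (ZMod N)ˣ →* Δ)
  (rep₁ : Δ → Gamma0 (N * q)) (hrep₁ : ∀ δ, chi (thQ θ' q) (rep₁ δ) = δ)
  (rep₂ : Δ → Gamma0 N) (hrep₂ : ∀ δ, chi θ' (rep₂ δ) = δ)
  {A : Type*} [AddCommGroup A]

/-- **`coresH ∘ res_q = res ∘ coresH`** -/
theorem coresH_resHSys (ψ : Additive (GammaH θ') →+ A) :
    coresH (thQ θ' q) rep₁ hrep₁ A ((resHSys (q := q) θ').op A ψ)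
      = (resSys N q).op A (coresH θ' rep₂ hrep₂ A ψ) :=
  cores_kerSys₂_op (resSys N q) (chi θ') (chi (thQ θ' q)) (compat_resSys θ')
    rep₂ hrep₂ rep₁ hrep₁ embR_injective ψ

variable (hqN : ¬ q ∣ N) (b₀ d₀ : ℤ) (hbd : (q : ℤ) * d₀ - N * b₀ = 1)

/-- **`coresH ∘ cores_q^{Γ_H} = cores_q^{Γ₀} ∘ coresH`** -/
theorem coresH_coresHSys (ψ : Additive (GammaH (thQ θ' q)) →+ A) :
    coresH θ' rep₂ hrep₂ A ((coresHSys θ' hqN b₀ d₀ hbd).op A ψ)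
      = (coresSys hqN b₀ d₀ hbd).op A (coresH (thQ θ' q) rep₁ hrep₁ A ψ) :=
  cores_kerSys₂_op (coresSys hqN b₀ d₀ hbd) (chi (thQ θ' q)) (chi θ')
    (compat_coresSys θ' hqN b₀ d₀ hbd) rep₁ hrep₁ rep₂ hrep₂ embR_injective ψ

/-- **`coresH ∘ cores_{q,δ}^{Γ_H} = cores_{q,δ}^{Γ₀} ∘ coresH`** -/
theorem coresH_coresDHSys (ψ : Additive (GammaH (thQ θ' q)) →+ A) :
    coresH θ' rep₂ hrep₂ A ((coresDHSys θ' hqN b₀ d₀ hbd).op A ψ)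
      = (coresDSys hqN b₀ d₀ hbd).op A (coresH (thQ θ' q) rep₁ hrep₁ A ψ) :=
  cores_kerSys₂_op (coresDSys hqN b₀ d₀ hbd) (chi (thQ θ' q)) (chi θ')
    (compat_coresDSys θ' hqN b₀ d₀ hbd) rep₁ hrep₁ rep₂ hrep₂ embR_injective ψ

/-- the operator form for helper83's `resq` -/
theorem coresH_resq (ψ : Additive (GammaH θ') →+ A) :
    coresH (thQ θ' q) rep₁ hrep₁ A (resq (q := q) θ' A ψ)
      = (resSys N q).op A (coresH θ' rep₂ hrep₂ A ψ) :=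
  coresH_resHSys θ' rep₁ hrep₁ rep₂ hrep₂ ψ

/-- the operator form for helper83's `coresq` -/
theorem coresH_coresq (ψ : Additive (GammaH (thQ θ' q)) →+ A) :
    coresH θ' rep₂ hrep₂ A (coresq θ' hqN A ψ)
      = (coresSys hqN (bez hqN).1 (bez hqN).2 (bez_spec hqN)).op A
          (coresH (thQ θ' q) rep₁ hrep₁ A ψ) :=
  coresH_coresHSys θ' rep₁ hrep₁ rep₂ hrep₂ hqN _ _ _ ψ

/-- the operator form for helper83's `coresDq` -/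
theorem coresH_coresDq (ψ : Additive (GammaH (thQ θ' q)) →+ A) :
    coresH θ' rep₂ hrep₂ A (coresDq θ' hqN A ψ)
      = (coresDSys hqN (bez hqN).1 (bez hqN).2 (bez_spec hqN)).op A
          (coresH (thQ θ' q) rep₁ hrep₁ A ψ) :=
  coresH_coresDHSys θ' rep₁ hrep₁ rep₂ hrep₂ hqN _ _ _ ψ

end Inst

end Fermat.Agent.GB.B7.UqEquiv
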